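import Mathlib

set_option autoImplicit false

/-!
# Two by two matrices over domains: tame relations
-/

namespace Fermat.Agent.LocRing

open Matrix

/-- The trace zero matrix with entries `x, y; -z, -x`. -/
def tm {R : Type*} [CommRing R] (w : Fin 3 → R) : Matrix (Fin 2) (Fin 2) R :=
  !![w 0, w 1; -w 2, -w 0]

section Basic

variable {R : Type*} [CommRing R]

lemma ch2 (A : Matrix (Fin 2) (Fin 2) R) : A * A = A.trace • A - A.det • (1 : Matrix _ _ R) := by
  ext i j
  fin_cases i <;> fin_cases j <;>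
    simp [Matrix.mul_apply, Fin.sum_univ_two, Matrix.trace_fin_two, Matrix.det_fin_two] <;> ring

/-- Polarised Cayley-Hamilton. -/
lemma ch2_polar (A B : Matrix (Fin 2) (Fin 2) R) : A * B + B * A =
    A.trace • B + B.trace • A + ((A * B).trace - A.trace * B.trace) • (1 : Matrix _ _ R) := by
  ext i j
  fin_cases i <;> fin_cases j <;>
    simp [Matrix.mul_apply, Fin.sum_univ_two, Matrix.trace_fin_two] <;> ring

lemma one_add_pow_of_sq_zero {N : Matrix (Fin 2) (Fin 2) R} (hN : N * N = 0) (q : ℕ) :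
    (1 + N) ^ q = 1 + (q : R) • N := by
  induction q with
  | zero => simp
  | succ n ih =>
    rw [pow_succ, ih, Nat.cast_succ, add_smul, one_smul, add_mul, mul_add, mul_add, one_mul,
      one_mul, mul_one, smul_mul_assoc, hN, smul_zero]
    abel

/-- If `(S - ζ)(S - ζ') = 0` then `(ζ - ζ') S ^ k = ζ ^ k (S - ζ') - ζ' ^ k (S - ζ)`. -/
lemma smul_pow_eq {S : Matrix (Fin 2) (Fin 2) R} {ζ ζ' : R} (htr : S.trace = ζ + ζ')
    (hdet : S.det = ζ * ζ') (k : ℕ) :
    (ζ - ζ') • S ^ k = ζ ^ k • (S - ζ' • 1) - ζ' ^ k • (S - ζ • 1) := by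
  induction k with
  | zero =>
    rw [pow_zero, pow_zero, pow_zero, one_smul, one_smul, sub_smul]
    abel
  | succ n ih =>
    rw [pow_succ, ← smul_mul_assoc, ih]
    have h := ch2 S
    rw [htr, hdet] at h
    simp only [sub_mul, smul_mul_assoc, one_mul, h]
    ext i j
    simp only [Matrix.sub_apply, Matrix.smul_apply, smul_eq_mul, Matrix.add_apply]
    ring

lemma pow_eq_self [IsDomain R] {S : Matrix (Fin 2) (Fin 2) R} {ζ ζ' : R}
    (htr : S.trace = ζ + ζ') (hdet : S.det = ζ * ζ') (hne : ζ ≠ ζ') {q : ℕ} (hq : ζ ^ q = ζ)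
    (hq' : ζ' ^ q = ζ') : S ^ q = S := by
  have h := smul_pow_eq htr hdet q
  rw [hq, hq'] at h
  have h2 : (ζ - ζ') • S ^ q = (ζ - ζ') • S := by
    rw [h]
    ext i j
    simp only [Matrix.sub_apply, Matrix.smul_apply, smul_eq_mul]
    ring
  have h3 : ζ - ζ' ≠ 0 := sub_ne_zero.mpr hne
  ext i j
  have h4 := congrFun (congrFun h2 i) j
  simp only [Matrix.smul_apply, smul_eq_mul] at h4
  exact mul_left_cancel₀ h3 h4

end Basic

section Steinberg

variable {R : Type*} [CommRing R] [IsDomain R]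

/-- The Steinberg relations: if `N ≠ 0`, `N ^ 2 = 0` and `F N = q N F` with `det F = q` then
`tr F = ± (q + 1)`. -/
theorem trace_sq_of_ne_zero {F N : Matrix (Fin 2) (Fin 2) R} {q : R} (hq0 : q ≠ 0) (hq1 : q ≠ 1)
    (htr : N.trace = 0) (hdet : F.det = q) (hFN : F * N = q • (N * F)) (hN : N ≠ 0) :
    F.trace ^ 2 = (q + 1) ^ 2 ∧ (q + 1) • (N * F) = F.trace • N := by
  have h1 : (F * N).trace = 0 := by
    have h2 : (F * N).trace = q * (F * N).trace := by
      conv_lhs => rw [hFN, Matrix.trace_smul, Matrix.trace_mul_comm, smul_eq_mul]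
    have h3 : (1 - q) * (F * N).trace = 0 := by linear_combination h2
    rcases mul_eq_zero.mp h3 with h | h
    · exact absurd (sub_eq_zero.mp h).symm hq1
    · exact h
  have h2 := ch2_polar F N
  rw [htr, h1, mul_zero, sub_zero, zero_smul, zero_smul, add_zero, add_zero] at h2
  have h3 : (q + 1) • (N * F) = F.trace • N := by
    rw [← h2, hFN, add_smul, one_smul]
  refine ⟨?_, h3⟩
  set t := F.trace with ht
  have h4 : (q + 1) • (F * N) = (q * t) • N := by
    rw [hFN, smul_comm, h3, smul_smul]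
  have h5 : F * N * F = q • (N * (F * F)) := by
    rw [hFN, smul_mul_assoc, Matrix.mul_assoc]
  have h6 : F * F = t • F - q • (1 : Matrix _ _ R) := by rw [ch2, hdet]
  have h7 : (q + 1) • (q + 1) • (F * N * F) = (q * t * t) • N := by
    rw [← smul_mul_assoc (q + 1) (F * N) F, h4, smul_mul_assoc, smul_comm, h3, smul_smul]
  have h8 : (q + 1) • (F * N * F) = (q * t * t - q * q * (q + 1)) • N := by
    rw [h5, h6, Matrix.mul_sub, Matrix.mul_smul, Matrix.mul_smul, Matrix.mul_one, smul_sub,
      smul_sub]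
    have : (q + 1) • q • t • (N * F) = (q * t * t) • N := by
      rw [smul_comm (q + 1) q, smul_comm (q + 1) t, h3, smul_smul, smul_smul]
    rw [this, smul_smul, smul_smul, ← sub_smul]
    congr 1
    ring
  rw [h8, smul_smul] at h7
  have h9 : ((q + 1) * (q * t * t - q * q * (q + 1)) - q * t * t) • N = 0 := by
    rw [sub_smul, h7, sub_self]
  have h10 : (q + 1) * (q * t * t - q * q * (q + 1)) - q * t * t = 0 := by
    by_contra hne
    apply hN
    ext i j
    have h11 := congrFun (congrFun h9 i) j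
    simp only [Matrix.smul_apply, smul_eq_mul, Matrix.zero_apply] at h11
    rcases mul_eq_zero.mp h11 with h | h
    · exact absurd h hne
    · exact h
  have h12 : q ^ 2 * (t ^ 2 - (q + 1) ^ 2) = 0 := by linear_combination h10
  rcases mul_eq_zero.mp h12 with h | h
  · exact absurd (pow_eq_zero_iff (two_ne_zero)|>.mp h) hq0
  · exact sub_eq_zero.mp h

/-- Column minors: if `A * M₁ = 0`, `A * M₂ = 0` and `A ≠ 0` then the columns of `M₁`, `M₂` are
proportional. -/
lemma col_minor {A M₁ M₂ : Matrix (Fin 2) (Fin 2) R} (hA : A ≠ 0) (h1 : A * M₁ = 0)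
    (h2 : A * M₂ = 0) (a k l i : Fin 2) : M₁ k l * M₂ a i = M₁ a l * M₂ k i := by
  obtain ⟨r, s, hrs⟩ : ∃ r s, A r s ≠ 0 := by
    by_contra h
    push Not at h
    exact hA (by ext r s; exact h r s)
  have e1 : A r 0 * M₁ 0 l + A r 1 * M₁ 1 l = 0 := by
    have := congrFun (congrFun h1 r) l
    simpa [Matrix.mul_apply, Fin.sum_univ_two] using this
  have e2 : A r 0 * M₂ 0 i + A r 1 * M₂ 1 i = 0 := by
    have := congrFun (congrFun h2 r) i
    simpa [Matrix.mul_apply, Fin.sum_univ_two] using this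
  have key : M₁ 0 l * M₂ 1 i = M₁ 1 l * M₂ 0 i := by
    fin_cases s
    · refine mul_left_cancel₀ hrs ?_
      simp only [Fin.zero_eta, Fin.mk_one] at *
      linear_combination M₂ 1 i * e1 - M₁ 1 l * e2
    · refine mul_left_cancel₀ hrs ?_
      simp only [Fin.zero_eta, Fin.mk_one] at *
      linear_combination M₁ 0 l * e2 - M₂ 0 i * e1
  fin_cases a <;> fin_cases k <;> simp only [Fin.zero_eta, Fin.mk_one]
  · exact key.symm
  · exact key

/-- Row minors. -/
lemma row_minor {A M₁ M₂ : Matrix (Fin 2) (Fin 2) R} (hA : A ≠ 0) (h1 : M₁ * A = 0)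
    (h2 : M₂ * A = 0) (a l b j : Fin 2) : M₁ a l * M₂ j b = M₁ a b * M₂ j l := by
  have hA' : A.transpose ≠ 0 := by
    intro h
    apply hA
    rw [← Matrix.transpose_transpose A, h, Matrix.transpose_zero]
  have h1' : A.transpose * M₁.transpose = 0 := by rw [← Matrix.transpose_mul, h1]; simp
  have h2' : A.transpose * M₂.transpose = 0 := by rw [← Matrix.transpose_mul, h2]; simp
  have := col_minor hA' h1' h2' b l a j
  simpa [Matrix.transpose_apply] using this

end Steinberg

end Fermat.Agent.LocRing
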