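import Mathlib
import Fermat.Agent.S53_PowerSeries
import Fermat.Agent.TW.PowerSurj

set_option autoImplicit false
set_option linter.unusedSectionVars false

/-!
# Evaluation of power series in complete local rings

`ev x hx : MvPowerSeries σ 𝒪 →ₐ[𝒪] R` for a complete local `𝒪`-algebra `R` and a finite family `x`
of elements of the maximal ideal of `R`; uniqueness.
-/

namespace Fermat.Agent.LocRing

open IsLocalRing Fermat.Agent.S53rep

section Eval

variable {𝒪 R : Type} [CommRing 𝒪] [CommRing R] [IsLocalRing R]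
  [IsAdicComplete (maximalIdeal R) R] [Algebra 𝒪 R] {σ : Type} [Finite σ]

/-- Evaluation of power series at elements of the maximal ideal of a complete local ring. -/
noncomputable def ev (x : σ → R) (hx : ∀ s, x s ∈ maximalIdeal R) : MvPowerSeries σ 𝒪 →ₐ[𝒪] R :=
  (Fermat.Agent.TW.exists_powerSeries_eval (𝒪 := 𝒪) x hx).choose

theorem ev_coe (x : σ → R) (hx : ∀ s, x s ∈ maximalIdeal R) (q : MvPolynomial σ 𝒪) :
    ev x hx (q : MvPowerSeries σ 𝒪) = MvPolynomial.aeval x q :=
  (Fermat.Agent.TW.exists_powerSeries_eval (𝒪 := 𝒪) x hx).choose_spec q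

@[simp] theorem ev_X (x : σ → R) (hx : ∀ s, x s ∈ maximalIdeal R) (s : σ) :
    ev (𝒪 := 𝒪) x hx (MvPowerSeries.X s) = x s := by
  rw [← MvPolynomial.coe_X, ev_coe, MvPolynomial.aeval_X]

@[simp] theorem ev_C (x : σ → R) (hx : ∀ s, x s ∈ maximalIdeal R) (c : 𝒪) :
    ev x hx (MvPowerSeries.C c : MvPowerSeries σ 𝒪) = algebraMap 𝒪 R c := by
  rw [← MvPolynomial.coe_C, ev_coe, MvPolynomial.aeval_C]

end Eval

section Trunc

variable {𝒪 : Type} [CommRing 𝒪] {σ : Type} [Finite σ]

/-- Every power series is a polynomial modulo the `n`-th power of the ideal of the variables. -/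
theorem sub_truncTotal_mem (f : MvPowerSeries σ 𝒪) (n : ℕ) :
    f - (MvPowerSeries.truncTotal n f : MvPolynomial σ 𝒪) ∈
      (Ideal.span (Set.range (MvPowerSeries.X : σ → MvPowerSeries σ 𝒪))) ^ n := by
  refine mem_span_X_pow_of_coeff_eq_zero ?_
  intro α hα
  rw [map_sub, MvPolynomial.coeff_coe, MvPowerSeries.coeff_truncTotal _ hα, sub_self]

theorem exists_polynomial_sub_mem (f : MvPowerSeries σ 𝒪) (n : ℕ) :
    ∃ q : MvPolynomial σ 𝒪, f - (q : MvPowerSeries σ 𝒪) ∈
      (Ideal.span (Set.range (MvPowerSeries.X : σ → MvPowerSeries σ 𝒪))) ^ n :=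
  ⟨_, sub_truncTotal_mem f n⟩

end Trunc

section Unique

variable {𝒪 R : Type} [CommRing 𝒪] [CommRing R] [Algebra 𝒪 R] {σ : Type} [Finite σ]

/-- An `𝒪`-algebra homomorphism sending the variables into `I` sends the `n`-th power of the ideal
of the variables into `I ^ n`. -/
theorem map_span_X_pow_mem (γ : MvPowerSeries σ 𝒪 →ₐ[𝒪] R) (I : Ideal R)
    (hI : ∀ s, γ (MvPowerSeries.X s) ∈ I) {n : ℕ} {f : MvPowerSeries σ 𝒪}
    (hf : f ∈ (Ideal.span (Set.range (MvPowerSeries.X : σ → MvPowerSeries σ 𝒪))) ^ n) :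
    γ f ∈ I ^ n := by
  have h1 := Ideal.mem_map_of_mem (γ : MvPowerSeries σ 𝒪 →+* R) hf
  rw [Ideal.map_pow] at h1
  refine Ideal.pow_right_mono ?_ n h1
  rw [Ideal.map_span, Ideal.span_le]
  rintro _ ⟨_, ⟨s, rfl⟩, rfl⟩
  exact hI s

theorem algHom_coe (γ : MvPowerSeries σ 𝒪 →ₐ[𝒪] R) (q : MvPolynomial σ 𝒪) :
    γ (q : MvPowerSeries σ 𝒪) = MvPolynomial.aeval (fun s => γ (MvPowerSeries.X s)) q := by
  have : (γ.comp (MvPolynomial.coeToMvPowerSeries.algHom 𝒪)) =
      MvPolynomial.aeval (fun s => γ (MvPowerSeries.X s)) := by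
    apply MvPolynomial.algHom_ext
    intro s
    simp
  have h := congrArg (fun g => g q) this
  simpa using h

/-- Uniqueness of evaluation. -/
theorem algHom_ext_of_mem (I : Ideal R) [IsHausdorff I R] {γ γ' : MvPowerSeries σ 𝒪 →ₐ[𝒪] R}
    (hI : ∀ s, γ (MvPowerSeries.X s) ∈ I)
    (h : ∀ s, γ (MvPowerSeries.X s) = γ' (MvPowerSeries.X s)) : γ = γ' := by
  apply AlgHom.ext
  intro f
  rw [← sub_eq_zero]
  refine IsHausdorff.haus (I := I) (M := R) inferInstance _ fun n => ?_
  rw [SModEq.sub_mem, sub_zero, smul_eq_mul, Ideal.mul_top]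
  obtain ⟨q, hq⟩ := exists_polynomial_sub_mem f n
  have h1 := map_span_X_pow_mem γ I hI hq
  have h2 := map_span_X_pow_mem γ' I (fun s => by rw [← h]; exact hI s) hq
  have h3 : γ (q : MvPowerSeries σ 𝒪) = γ' (q : MvPowerSeries σ 𝒪) := by
    rw [algHom_coe, algHom_coe]
    congr 2
    funext s
    exact h s
  have h4 : γ f - γ' f = γ (f - q) - γ' (f - q) := by
    rw [map_sub, map_sub, h3]; ring
  rw [h4]
  exact Ideal.sub_mem _ h1 h2

end Unique

section Local

variable {𝒪 R : Type} [CommRing 𝒪] [IsLocalRing 𝒪] [CommRing R] [IsLocalRing R] [Algebra 𝒪 R]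
  [IsLocalHom (algebraMap 𝒪 R)] {σ : Type} [Finite σ]

/-- An `𝒪`-algebra homomorphism sending the variables into the maximal ideal is local. -/
theorem mem_maximalIdeal_of_mem (γ : MvPowerSeries σ 𝒪 →ₐ[𝒪] R)
    (hI : ∀ s, γ (MvPowerSeries.X s) ∈ maximalIdeal R) {f : MvPowerSeries σ 𝒪}
    (hf : f ∈ maximalIdeal (MvPowerSeries σ 𝒪)) : γ f ∈ maximalIdeal R := by
  obtain ⟨q, hq⟩ := exists_polynomial_sub_mem f 1
  rw [mem_maximalIdeal_mvPowerSeries_iff] at hf
  have h0 : f - MvPowerSeries.C (MvPowerSeries.constantCoeff f) ∈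
      (Ideal.span (Set.range (MvPowerSeries.X : σ → MvPowerSeries σ 𝒪))) ^ 1 := by
    refine mem_span_X_pow_of_coeff_eq_zero ?_
    intro α hα
    have h0 : α = 0 := by
      have : α.degree = 0 := by omega
      rwa [Finsupp.degree_eq_zero_iff] at this
    subst h0
    simp
  have h1 := map_span_X_pow_mem γ _ hI h0
  rw [pow_one, map_sub] at h1
  have h2 : γ (MvPowerSeries.C (MvPowerSeries.constantCoeff f)) ∈ maximalIdeal R := by
    have h3 : γ (MvPowerSeries.C (MvPowerSeries.constantCoeff f)) =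
        algebraMap 𝒪 R (MvPowerSeries.constantCoeff f) := by
      rw [← MvPolynomial.coe_C, algHom_coe, MvPolynomial.aeval_C]
    rw [h3]
    exact map_maximalIdeal_le (algebraMap 𝒪 R) (Ideal.mem_map_of_mem _ hf)
  simpa using Ideal.add_mem _ h1 h2

end Local

section Instances

instance isAdicComplete_mvPowerSeries' {𝒪 : Type} [CommRing 𝒪] [IsLocalRing 𝒪]
    [IsNoetherianRing 𝒪] [IsAdicComplete (maximalIdeal 𝒪) 𝒪] {σ : Type} [Finite σ] :
    IsAdicComplete (maximalIdeal (MvPowerSeries σ 𝒪)) (MvPowerSeries σ 𝒪) :=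
  isAdicComplete_mvPowerSeries

instance isAdicComplete_field {k : Type} [Field k] : IsAdicComplete (maximalIdeal k) k := by
  have : maximalIdeal k = ⊥ := by
    exact (Ideal.eq_bot_or_top _).resolve_right (Ideal.IsMaximal.ne_top inferInstance)
  rw [this]
  infer_instance

instance isLocalHom_C {𝒪 : Type} [CommRing 𝒪] [IsLocalRing 𝒪] {σ : Type} :
    IsLocalHom (algebraMap 𝒪 (MvPowerSeries σ 𝒪)) := by
  constructor
  intro a ha
  have := (MvPowerSeries.isUnit_iff_constantCoeff).mp ha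
  simpa [MvPowerSeries.algebraMap_apply] using this

end Instances

section Closed

/-- Ideals of Noetherian local rings are closed. -/
theorem mem_of_forall_mem_sup_pow {A : Type*} [CommRing A] [IsLocalRing A] [IsNoetherianRing A]
    (I : Ideal A) {x : A} (h : ∀ n : ℕ, x ∈ I ⊔ maximalIdeal A ^ n) : x ∈ I := by
  have h1 : (Ideal.Quotient.mk I x) ∈
      (⨅ i : ℕ, maximalIdeal A ^ i • (⊤ : Submodule A (A ⧸ I)) : Submodule A (A ⧸ I)) := by
    rw [Submodule.mem_iInf]
    intro n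
    obtain ⟨a, ha, b, hb, hab⟩ := Submodule.mem_sup.mp (h n)
    have h2 : Ideal.Quotient.mk I x = b • (1 : A ⧸ I) := by
      rw [← hab, map_add, Ideal.Quotient.eq_zero_iff_mem.mpr ha, zero_add, Algebra.smul_def,
        mul_one]
      rfl
    rw [h2]
    exact Submodule.smul_mem_smul hb Submodule.mem_top
  rw [Ideal.iInf_pow_smul_eq_bot_of_isLocalRing (maximalIdeal A)
    (Ideal.IsMaximal.ne_top inferInstance)] at h1
  rw [← Ideal.Quotient.eq_zero_iff_mem]
  simpa using h1

end Closed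

end Fermat.Agent.LocRing
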