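import Mathlib
import Fermat.Agent.LocRing.Eval

set_option autoImplicit false
set_option linter.unusedSectionVars false

/-!
# The kernel of `x ↦ e w, y ↦ e, z ↦ e w²` on power series over a field
-/

namespace Fermat.Agent.LocRing

open IsLocalRing Fermat.Agent.S53rep

namespace Cone

variable {ι τ : Type} [Fintype ι] [Fintype τ] [DecidableEq ι] [DecidableEq τ]

/-- The exponent of the image of a monomial. -/
noncomputable def aexp (α : (ι × Fin 3 ⊕ τ) →₀ ℕ) : (ι × Fin 2 ⊕ τ) →₀ ℕ :=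
  Finsupp.equivFunOnFinite.symm (Sum.elim
    (fun p => ![α (Sum.inl (p.1, 0)) + α (Sum.inl (p.1, 1)) + α (Sum.inl (p.1, 2)),
      α (Sum.inl (p.1, 0)) + 2 * α (Sum.inl (p.1, 2))] p.2)
    (fun t => α (Sum.inr t)))

/-- The normal form. -/
noncomputable def gexp (β : (ι × Fin 2 ⊕ τ) →₀ ℕ) : (ι × Fin 3 ⊕ τ) →₀ ℕ :=
  Finsupp.equivFunOnFinite.symm (Sum.elim
    (fun p => ![β (Sum.inl (p.1, 1)) % 2, β (Sum.inl (p.1, 0)) - (β (Sum.inl (p.1, 1)) + 1) / 2,
      β (Sum.inl (p.1, 1)) / 2] p.2)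
    (fun t => β (Sum.inr t)))

/-- The `(e, τ)`-degree. -/
def wdeg (β : (ι × Fin 2 ⊕ τ) →₀ ℕ) : ℕ :=
  (∑ v, β (Sum.inl (v, 0))) + ∑ t, β (Sum.inr t)

@[simp] lemma aexp_inl_zero (α : (ι × Fin 3 ⊕ τ) →₀ ℕ) (v : ι) : aexp α (Sum.inl (v, 0)) =
    α (Sum.inl (v, 0)) + α (Sum.inl (v, 1)) + α (Sum.inl (v, 2)) := rfl

@[simp] lemma aexp_inl_one (α : (ι × Fin 3 ⊕ τ) →₀ ℕ) (v : ι) : aexp α (Sum.inl (v, 1)) =
    α (Sum.inl (v, 0)) + 2 * α (Sum.inl (v, 2)) := rfl

@[simp] lemma aexp_inr (α : (ι × Fin 3 ⊕ τ) →₀ ℕ) (t : τ) : aexp α (Sum.inr t) =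
    α (Sum.inr t) := rfl

@[simp] lemma gexp_inl_zero (β : (ι × Fin 2 ⊕ τ) →₀ ℕ) (v : ι) : gexp β (Sum.inl (v, 0)) =
    β (Sum.inl (v, 1)) % 2 := rfl

@[simp] lemma gexp_inl_one (β : (ι × Fin 2 ⊕ τ) →₀ ℕ) (v : ι) : gexp β (Sum.inl (v, 1)) =
    β (Sum.inl (v, 0)) - (β (Sum.inl (v, 1)) + 1) / 2 := rfl

@[simp] lemma gexp_inl_two (β : (ι × Fin 2 ⊕ τ) →₀ ℕ) (v : ι) : gexp β (Sum.inl (v, 2)) =
    β (Sum.inl (v, 1)) / 2 := rfl

@[simp] lemma gexp_inr (β : (ι × Fin 2 ⊕ τ) →₀ ℕ) (t : τ) : gexp β (Sum.inr t) =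
    β (Sum.inr t) := rfl

omit [DecidableEq ι] [DecidableEq τ] in
lemma wdeg_aexp (α : (ι × Fin 3 ⊕ τ) →₀ ℕ) : wdeg (aexp α) = α.degree := by
  rw [wdeg, Finsupp.degree_eq_sum]
  rw [Fintype.sum_sum_type, Fintype.sum_prod_type]
  simp only [aexp_inl_zero, aexp_inr, Fin.sum_univ_three]

omit [DecidableEq ι] [DecidableEq τ] in
lemma wdeg_add (α β : (ι × Fin 2 ⊕ τ) →₀ ℕ) : wdeg (α + β) = wdeg α + wdeg β := by
  simp only [wdeg, Finsupp.add_apply, Finset.sum_add_distrib]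
  ring

variable {k : Type} [Field k]

/-- The ideal generated by the equations of the cones. -/
noncomputable def fI (k : Type) [Field k] (ι τ : Type) : Ideal (MvPolynomial (ι × Fin 3 ⊕ τ) k) :=
  Ideal.span (Set.range fun v : ι =>
    (MvPolynomial.X (Sum.inl (v, 0)) ^ 2 -
      MvPolynomial.X (Sum.inl (v, 1)) * MvPolynomial.X (Sum.inl (v, 2))))

lemma monomial_sub_mem (α : (ι × Fin 3 ⊕ τ) →₀ ℕ) (c : k) :
    MvPolynomial.monomial α c - MvPolynomial.monomial (gexp (aexp α)) c ∈ fI k ι τ := by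
  rw [← Ideal.Quotient.eq]
  rw [MvPolynomial.monomial_eq, MvPolynomial.monomial_eq, map_mul, map_mul]
  congr 1
  have hrel : ∀ v : ι, (Ideal.Quotient.mk (fI k ι τ)) (MvPolynomial.X (Sum.inl (v, 0))) ^ 2 =
      (Ideal.Quotient.mk (fI k ι τ)) (MvPolynomial.X (Sum.inl (v, 1))) *
      (Ideal.Quotient.mk (fI k ι τ)) (MvPolynomial.X (Sum.inl (v, 2))) := by
    intro v
    rw [← map_pow, ← map_mul, Ideal.Quotient.eq]
    exact Ideal.subset_span ⟨v, rfl⟩
  rw [Finsupp.prod_fintype _ _ (by simp), Finsupp.prod_fintype _ _ (by simp), map_prod, map_prod,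
    Fintype.prod_sum_type, Fintype.prod_sum_type, Fintype.prod_prod_type, Fintype.prod_prod_type]
  refine congrArg₂ (· * ·) ?_ ?_
  swap
  · refine Finset.prod_congr rfl fun t _ => ?_
    rw [gexp_inr, aexp_inr]
  · refine Finset.prod_congr rfl fun v _ => ?_
    rw [Fin.prod_univ_three, Fin.prod_univ_three]
    simp only [map_pow]
    set x := (Ideal.Quotient.mk (fI k ι τ)) (MvPolynomial.X (Sum.inl (v, 0)))
    set y := (Ideal.Quotient.mk (fI k ι τ)) (MvPolynomial.X (Sum.inl (v, 1)))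
    set z := (Ideal.Quotient.mk (fI k ι τ)) (MvPolynomial.X (Sum.inl (v, 2)))
    have h := hrel v
    simp only [gexp_inl_zero, gexp_inl_one, gexp_inl_two, aexp_inl_zero, aexp_inl_one]
    set i := α (Sum.inl (v, 0))
    set j := α (Sum.inl (v, 1))
    set l := α (Sum.inl (v, 2))
    have h1 : (i + 2 * l) % 2 = i % 2 := by omega
    have h2 : i + j + l - (i + 2 * l + 1) / 2 = j + i / 2 := by omega
    have h3 : (i + 2 * l) / 2 = l + i / 2 := by omega
    rw [h1, h2, h3]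
    have h4 : x ^ i = x ^ (i % 2) * (x ^ 2) ^ (i / 2) := by
      rw [← pow_mul, ← pow_add]
      congr 1
      omega
    rw [h4, h, mul_pow, pow_add, pow_add]
    ring

/-- The monomial map. -/
noncomputable def phi (k : Type) [Field k] (ι τ : Type) :
    MvPolynomial (ι × Fin 3 ⊕ τ) k →ₐ[k] MvPolynomial (ι × Fin 2 ⊕ τ) k :=
  MvPolynomial.aeval (Sum.elim
    (fun p => ![MvPolynomial.X (Sum.inl (p.1, 0)) * MvPolynomial.X (Sum.inl (p.1, 1)),
      MvPolynomial.X (Sum.inl (p.1, 0)),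
      MvPolynomial.X (Sum.inl (p.1, 0)) * MvPolynomial.X (Sum.inl (p.1, 1)) ^ 2] p.2)
    (fun t => MvPolynomial.X (Sum.inr t)))

lemma phi_monomial (α : (ι × Fin 3 ⊕ τ) →₀ ℕ) (c : k) :
    phi k ι τ (MvPolynomial.monomial α c) = MvPolynomial.monomial (aexp α) c := by
  rw [phi, MvPolynomial.aeval_monomial, MvPolynomial.monomial_eq]
  congr 1
  rw [Finsupp.prod_fintype _ _ (by simp), Finsupp.prod_fintype _ _ (by simp),
    Fintype.prod_sum_type, Fintype.prod_sum_type, Fintype.prod_prod_type, Fintype.prod_prod_type]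
  refine congrArg₂ (· * ·) ?_ ?_
  swap
  · refine Finset.prod_congr rfl fun t _ => ?_
    rw [aexp_inr, Sum.elim_inr]
  refine Finset.prod_congr rfl fun v _ => ?_
  rw [Fin.prod_univ_three, Fin.prod_univ_two]
  simp only [aexp_inl_zero, aexp_inl_one, Sum.elim_inl,
    Matrix.cons_val_zero, Matrix.cons_val_one, Matrix.cons_val]
  ring

/-- A polynomial is congruent to the combination of normal monomials read off from its image. -/
lemma sub_sum_mem (p : MvPolynomial (ι × Fin 3 ⊕ τ) k) :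
    p - ∑ β ∈ p.support.image aexp,
      MvPolynomial.monomial (gexp β) (MvPolynomial.coeff β (phi k ι τ p)) ∈ fI k ι τ := by
  classical
  have h1 : ∀ β, MvPolynomial.coeff β (phi k ι τ p) =
      ∑ α ∈ p.support with aexp α = β, MvPolynomial.coeff α p := by
    intro β
    conv_lhs => rw [p.as_sum, map_sum]
    rw [MvPolynomial.coeff_sum, Finset.sum_filter]
    refine Finset.sum_congr rfl fun α _ => ?_
    rw [phi_monomial, MvPolynomial.coeff_monomial]
  have h2 : ∑ β ∈ p.support.image aexp,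
      MvPolynomial.monomial (gexp β) (MvPolynomial.coeff β (phi k ι τ p)) =
      ∑ α ∈ p.support, MvPolynomial.monomial (gexp (aexp α)) (MvPolynomial.coeff α p) := by
    rw [← Finset.sum_fiberwise_of_maps_to (g := aexp) (t := p.support.image aexp)
      (fun α hα => Finset.mem_image_of_mem _ hα)]
    refine Finset.sum_congr rfl fun β _ => ?_
    rw [h1, map_sum]
    refine Finset.sum_congr rfl fun α hα => ?_
    rw [(Finset.mem_filter.mp hα).2]
  have h3 : p - ∑ α ∈ p.support, MvPolynomial.monomial (gexp (aexp α)) (MvPolynomial.coeff α p) =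
      ∑ α ∈ p.support, (MvPolynomial.monomial α (MvPolynomial.coeff α p) -
        MvPolynomial.monomial (gexp (aexp α)) (MvPolynomial.coeff α p)) := by
    rw [Finset.sum_sub_distrib, ← p.as_sum]
  rw [h2, h3]
  exact Ideal.sum_mem _ fun α _ => monomial_sub_mem α _

/-- The power series with vanishing coefficients in `(e, τ)`-degree `< n`. -/
noncomputable def J (k : Type) [Field k] (ι τ : Type) [Fintype ι] [Fintype τ] (n : ℕ) :
    Ideal (MvPowerSeries (ι × Fin 2 ⊕ τ) k) where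
  carrier := {H | ∀ β, wdeg β < n → MvPowerSeries.coeff β H = 0}
  zero_mem' := by intro β _; simp
  add_mem' := by
    intro a b ha hb β hβ
    rw [map_add, ha β hβ, hb β hβ, add_zero]
  smul_mem' := by
    classical
    intro c x hx β hβ
    rw [smul_eq_mul, MvPowerSeries.coeff_mul]
    refine Finset.sum_eq_zero ?_
    rintro ⟨γ, δ⟩ h
    rw [Finset.HasAntidiagonal.mem_antidiagonal] at h
    have : wdeg β = wdeg γ + wdeg δ := by rw [← h, wdeg_add]
    rw [hx δ (by omega), mul_zero]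

lemma mem_J_iff {n : ℕ} {H : MvPowerSeries (ι × Fin 2 ⊕ τ) k} :
    H ∈ J k ι τ n ↔ ∀ β, wdeg β < n → MvPowerSeries.coeff β H = 0 := Iff.rfl

lemma J_one_pow_le (n : ℕ) : (J k ι τ 1) ^ n ≤ J k ι τ n := by
  classical
  induction n with
  | zero =>
    intro x _ β hβ
    omega
  | succ n ih =>
    rw [pow_succ, Ideal.mul_le]
    intro r hr s hs β hβ
    rw [MvPowerSeries.coeff_mul]
    refine Finset.sum_eq_zero ?_
    rintro ⟨γ, δ⟩ h
    rw [Finset.HasAntidiagonal.mem_antidiagonal] at h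
    have h0 : wdeg β = wdeg γ + wdeg δ := by rw [← h, wdeg_add]
    by_cases h1 : wdeg γ < n
    · rw [ih hr γ h1, zero_mul]
    · rw [hs δ (by omega), mul_zero]

/-- The map on power series. -/
noncomputable def Phi (k : Type) [Field k] (ι τ : Type) [Finite ι] [Finite τ] :
    MvPowerSeries (ι × Fin 3 ⊕ τ) k →ₐ[k] MvPowerSeries (ι × Fin 2 ⊕ τ) k :=
  ev (Sum.elim
    (fun p => ![MvPowerSeries.X (Sum.inl (p.1, 0)) * MvPowerSeries.X (Sum.inl (p.1, 1)),
      MvPowerSeries.X (Sum.inl (p.1, 0)),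
      MvPowerSeries.X (Sum.inl (p.1, 0)) * MvPowerSeries.X (Sum.inl (p.1, 1)) ^ 2] p.2)
    (fun t => MvPowerSeries.X (Sum.inr t))) (by
      rintro (⟨v, i⟩ | t)
      · fin_cases i
        · exact Ideal.mul_mem_right _ _ (X_mem_maximalIdeal _)
        · exact X_mem_maximalIdeal _
        · exact Ideal.mul_mem_right _ _ (X_mem_maximalIdeal _)
      · exact X_mem_maximalIdeal _)

lemma coeff_X_zero {s : ι × Fin 2 ⊕ τ} (hs : ∀ v, s ≠ Sum.inl (v, 1)) {β : (ι × Fin 2 ⊕ τ) →₀ ℕ}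
    (hβ : wdeg β < 1) : MvPowerSeries.coeff β (MvPowerSeries.X s : MvPowerSeries (ι × Fin 2 ⊕ τ) k) = 0 := by
  classical
  rw [MvPowerSeries.coeff_X, if_neg]
  rintro rfl
  have h0 : wdeg (Finsupp.single s 1) = 0 := by omega
  rw [wdeg, Nat.add_eq_zero_iff, Finset.sum_eq_zero_iff, Finset.sum_eq_zero_iff] at h0
  rcases s with ⟨v, i⟩ | t
  · fin_cases i
    · have := h0.1 v (Finset.mem_univ _)
      simp at this
    · exact hs v rfl
  · have := h0.2 t (Finset.mem_univ _)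
    simp at this

lemma X_mem_J {s : ι × Fin 2 ⊕ τ} (hs : ∀ v, s ≠ Sum.inl (v, 1)) :
    (MvPowerSeries.X s : MvPowerSeries (ι × Fin 2 ⊕ τ) k) ∈ J k ι τ 1 :=
  fun _ hβ => coeff_X_zero hs hβ

lemma Phi_X_mem_J (s : ι × Fin 3 ⊕ τ) : Phi k ι τ (MvPowerSeries.X s) ∈ J k ι τ 1 := by
  rw [Phi, ev_X]
  rcases s with ⟨v, i⟩ | t
  · have h : (MvPowerSeries.X (Sum.inl (v, 0)) : MvPowerSeries (ι × Fin 2 ⊕ τ) k) ∈ J k ι τ 1 :=
      X_mem_J (by intro v; simp)
    fin_cases i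
    · exact Ideal.mul_mem_right _ _ h
    · exact h
    · exact Ideal.mul_mem_right _ _ h
  · exact X_mem_J (by intro v; simp)

lemma Phi_coe (p : MvPolynomial (ι × Fin 3 ⊕ τ) k) :
    Phi k ι τ (p : MvPowerSeries (ι × Fin 3 ⊕ τ) k) =
      (phi k ι τ p : MvPolynomial (ι × Fin 2 ⊕ τ) k) := by
  rw [Phi, ev_coe, phi]
  have : (MvPolynomial.aeval (R := k) (Sum.elim
    (fun p : ι × Fin 3 => ![(MvPowerSeries.X (Sum.inl (p.1, 0)) : MvPowerSeries (ι × Fin 2 ⊕ τ) k) *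
        MvPowerSeries.X (Sum.inl (p.1, 1)), MvPowerSeries.X (Sum.inl (p.1, 0)),
      MvPowerSeries.X (Sum.inl (p.1, 0)) * MvPowerSeries.X (Sum.inl (p.1, 1)) ^ 2] p.2)
    (fun t : τ => MvPowerSeries.X (Sum.inr t)))) =
      (MvPolynomial.coeToMvPowerSeries.algHom k).comp (phi k ι τ) := by
    apply MvPolynomial.algHom_ext
    rintro (⟨v, i⟩ | t)
    · fin_cases i <;> simp [phi]
    · simp [phi]
  have h := congrArg (fun g => g p) this
  simpa [phi] using h

/-- **The kernel over a field.** -/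
theorem mem_of_Phi_eq_zero {F : MvPowerSeries (ι × Fin 3 ⊕ τ) k} (hF : Phi k ι τ F = 0) :
    F ∈ Ideal.span (Set.range fun v : ι =>
      ((MvPowerSeries.X (Sum.inl (v, 0)) : MvPowerSeries (ι × Fin 3 ⊕ τ) k) ^ 2 -
        MvPowerSeries.X (Sum.inl (v, 1)) * MvPowerSeries.X (Sum.inl (v, 2)))) := by
  classical
  refine mem_of_forall_mem_sup_pow _ fun n => ?_
  set p := MvPowerSeries.truncTotal n F with hp
  have h1 := sub_truncTotal_mem F n
  rw [← hp] at h1
  have h2 : Phi k ι τ (F - (p : MvPowerSeries (ι × Fin 3 ⊕ τ) k)) ∈ J k ι τ n :=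
    J_one_pow_le n (map_span_X_pow_mem _ _ Phi_X_mem_J h1)
  have h3 : (p : MvPolynomial (ι × Fin 3 ⊕ τ) k) ∈ fI k ι τ := by
    have h4 := sub_sum_mem p
    rw [Finset.sum_eq_zero, sub_zero] at h4
    · exact h4
    · intro β hβ
      obtain ⟨α, hα, rfl⟩ := Finset.mem_image.mp hβ
      have h5 : α.degree < n := by
        by_contra h
        rw [MvPolynomial.mem_support_iff, hp, MvPowerSeries.coeff_truncTotal_eq_zero _ (by omega)] at hα
        exact hα rfl
      have h6 := h2 (aexp α) (by rw [wdeg_aexp]; exact h5)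
      rw [map_sub, hF, zero_sub, map_neg, neg_eq_zero, Phi_coe, MvPolynomial.coeff_coe] at h6
      rw [h6, MvPolynomial.monomial_zero]
  have h4 : (p : MvPowerSeries (ι × Fin 3 ⊕ τ) k) ∈ Ideal.span (Set.range fun v : ι =>
      ((MvPowerSeries.X (Sum.inl (v, 0)) : MvPowerSeries (ι × Fin 3 ⊕ τ) k) ^ 2 -
        MvPowerSeries.X (Sum.inl (v, 1)) * MvPowerSeries.X (Sum.inl (v, 2)))) := by
    have h5 := Ideal.mem_map_of_mem (MvPolynomial.coeToMvPowerSeries.ringHom) h3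
    rw [fI, Ideal.map_span, ← Set.range_comp] at h5
    have h6 : (MvPolynomial.coeToMvPowerSeries.ringHom ∘ fun v : ι =>
      (MvPolynomial.X (Sum.inl (v, 0)) ^ 2 -
      MvPolynomial.X (Sum.inl (v, 1)) * MvPolynomial.X (Sum.inl (v, 2)) :
        MvPolynomial (ι × Fin 3 ⊕ τ) k)) = fun v : ι =>
      ((MvPowerSeries.X (Sum.inl (v, 0)) : MvPowerSeries (ι × Fin 3 ⊕ τ) k) ^ 2 -
        MvPowerSeries.X (Sum.inl (v, 1)) * MvPowerSeries.X (Sum.inl (v, 2))) := by
      funext v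
      simp only [Function.comp_apply, map_sub, map_pow, map_mul]
      simp only [MvPolynomial.coeToMvPowerSeries.ringHom_apply, MvPolynomial.coe_X]
    rw [h6] at h5
    exact h5
  have h5 : F = (p : MvPowerSeries (ι × Fin 3 ⊕ τ) k) + (F - p) := by ring
  rw [h5]
  refine Submodule.add_mem_sup h4 ?_
  refine Ideal.pow_right_mono ?_ n h1
  rw [Ideal.span_le]
  rintro _ ⟨i, rfl⟩
  exact X_mem_maximalIdeal i

end Cone

end Fermat.Agent.LocRing
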