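import Mathlib
import Fermat.Agent.LocRing.Cone

set_option autoImplicit false
set_option linter.unusedSectionVars false

/-!
# The kernel of the parametrisation of the quadric `x² - y z = δ²`
-/

namespace Fermat.Agent.LocRing

open IsLocalRing Fermat.Agent.S53rep

section Red

variable {𝒪 : Type} [CommRing 𝒪] [IsDomain 𝒪] [IsDiscreteValuationRing 𝒪]
variable {σ : Type}

/-- Reduction of the coefficients. -/
noncomputable def red (𝒪 : Type) [CommRing 𝒪] [IsDomain 𝒪] [IsDiscreteValuationRing 𝒪]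
    (σ : Type) : MvPowerSeries σ 𝒪 →ₐ[𝒪] MvPowerSeries σ (ResidueField 𝒪) :=
  MvPowerSeries.mapAlgHom (Algebra.ofId 𝒪 (ResidueField 𝒪))

@[simp] lemma coeff_red (F : MvPowerSeries σ 𝒪) (α : σ →₀ ℕ) :
    MvPowerSeries.coeff α (red 𝒪 σ F) = residue 𝒪 (MvPowerSeries.coeff α F) := rfl

@[simp] lemma red_X (s : σ) : red 𝒪 σ (MvPowerSeries.X s) = MvPowerSeries.X s := by
  classical
  ext α
  rw [coeff_red, MvPowerSeries.coeff_X, MvPowerSeries.coeff_X]
  split_ifs <;> simp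

@[simp] lemma red_C (c : 𝒪) : red 𝒪 σ (MvPowerSeries.C c) = MvPowerSeries.C (residue 𝒪 c) := by
  classical
  ext α
  rw [coeff_red, MvPowerSeries.coeff_C, MvPowerSeries.coeff_C]
  split_ifs <;> simp

lemma red_surjective : Function.Surjective (red 𝒪 σ) := by
  intro G
  choose F hF using fun α => residue_surjective (R := 𝒪) (MvPowerSeries.coeff α G)
  let F' : MvPowerSeries σ 𝒪 := fun α => F α
  have hF' : ∀ α, MvPowerSeries.coeff α F' = F α := fun α => rfl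
  refine ⟨F', ?_⟩
  ext α
  rw [coeff_red, hF']
  exact hF α

lemma exists_eq_C_mul_of_red_eq_zero {ϖ : 𝒪} (hϖ : Irreducible ϖ) {F : MvPowerSeries σ 𝒪}
    (hF : red 𝒪 σ F = 0) : ∃ G : MvPowerSeries σ 𝒪, F = MvPowerSeries.C ϖ * G := by
  have h : ∀ α, ∃ g, MvPowerSeries.coeff α F = ϖ * g := by
    intro α
    have h1 : residue 𝒪 (MvPowerSeries.coeff α F) = 0 := by
      rw [← coeff_red, hF, map_zero]
    rw [residue_eq_zero_iff, hϖ.maximalIdeal_eq, Ideal.mem_span_singleton'] at h1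
    obtain ⟨g, hg⟩ := h1
    exact ⟨g, by rw [← hg, mul_comm]⟩
  choose G hG using h
  let G' : MvPowerSeries σ 𝒪 := fun α => G α
  have hG' : ∀ α, MvPowerSeries.coeff α G' = G α := fun α => rfl
  refine ⟨G', ?_⟩
  ext α
  rw [MvPowerSeries.coeff_C_mul, hG, hG']

lemma red_mem {F : MvPowerSeries σ 𝒪} (hF : F ∈ maximalIdeal (MvPowerSeries σ 𝒪)) :
    red 𝒪 σ F ∈ maximalIdeal (MvPowerSeries σ (ResidueField 𝒪)) := by
  rw [mem_maximalIdeal_mvPowerSeries_iff] at hF ⊢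
  have h : MvPowerSeries.constantCoeff (red 𝒪 σ F) =
      residue 𝒪 (MvPowerSeries.constantCoeff F) := rfl
  rw [h, (residue_eq_zero_iff _).mpr hF]
  exact Ideal.zero_mem _

lemma red_eq_zero_iff {ϖ : 𝒪} (hϖ : Irreducible ϖ) {F : MvPowerSeries σ 𝒪} :
    red 𝒪 σ F = 0 ↔ F ∈ Ideal.span {(MvPowerSeries.C ϖ : MvPowerSeries σ 𝒪)} := by
  constructor
  · intro h
    obtain ⟨G, hG⟩ := exists_eq_C_mul_of_red_eq_zero hϖ h
    rw [Ideal.mem_span_singleton']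
    exact ⟨G, by rw [hG, mul_comm]⟩
  · intro h
    obtain ⟨G, hG⟩ := Ideal.mem_span_singleton'.mp h
    have h1 : residue 𝒪 ϖ = 0 := by
      rw [residue_eq_zero_iff]
      exact (mem_maximalIdeal _).mpr hϖ.not_isUnit
    rw [← hG, map_mul, red_C, h1, map_zero, mul_zero]

end Red

namespace Quadric

variable {𝒪 : Type} [CommRing 𝒪] [IsDomain 𝒪] [IsDiscreteValuationRing 𝒪]
  [IsAdicComplete (maximalIdeal 𝒪) 𝒪]
variable {ι τ : Type} [Fintype ι] [Fintype τ]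

/-- The values of the parametrisation. -/
noncomputable def val (τ : Type) (δ : ι → 𝒪) : ι × Fin 3 ⊕ τ → MvPowerSeries (ι × Fin 2 ⊕ τ) 𝒪 :=
  Sum.elim
    (fun p => ![MvPowerSeries.C (δ p.1) + MvPowerSeries.X (Sum.inl (p.1, 0)) *
        MvPowerSeries.X (Sum.inl (p.1, 1)),
      MvPowerSeries.X (Sum.inl (p.1, 0)),
      MvPowerSeries.X (Sum.inl (p.1, 1)) * (2 * MvPowerSeries.C (δ p.1) +
        MvPowerSeries.X (Sum.inl (p.1, 0)) * MvPowerSeries.X (Sum.inl (p.1, 1)))] p.2)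
    (fun t => MvPowerSeries.X (Sum.inr t))

lemma val_mem (δ : ι → 𝒪) (hδ : ∀ v, δ v ∈ maximalIdeal 𝒪) (s : ι × Fin 3 ⊕ τ) :
    val τ δ s ∈ maximalIdeal (MvPowerSeries (ι × Fin 2 ⊕ τ) 𝒪) := by
  have hC : ∀ v, (MvPowerSeries.C (δ v) : MvPowerSeries (ι × Fin 2 ⊕ τ) 𝒪) ∈
      maximalIdeal (MvPowerSeries (ι × Fin 2 ⊕ τ) 𝒪) := by
    intro v
    rw [mem_maximalIdeal_mvPowerSeries_iff, MvPowerSeries.constantCoeff_C]
    exact hδ v
  rcases s with ⟨v, i⟩ | t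
  · fin_cases i
    · exact Ideal.add_mem _ (hC v) (Ideal.mul_mem_right _ _ (X_mem_maximalIdeal _))
    · exact X_mem_maximalIdeal _
    · exact Ideal.mul_mem_right _ _ (X_mem_maximalIdeal _)
  · exact X_mem_maximalIdeal _

/-- The parametrisation. -/
noncomputable def Th (τ : Type) [Fintype τ] (δ : ι → 𝒪) (hδ : ∀ v, δ v ∈ maximalIdeal 𝒪) :
    MvPowerSeries (ι × Fin 3 ⊕ τ) 𝒪 →ₐ[𝒪] MvPowerSeries (ι × Fin 2 ⊕ τ) 𝒪 :=
  ev (val τ δ) (val_mem δ hδ)

/-- The equations. -/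
noncomputable def eqn (τ : Type) (δ : ι → 𝒪) (v : ι) : MvPowerSeries (ι × Fin 3 ⊕ τ) 𝒪 :=
  MvPowerSeries.X (Sum.inl (v, 0)) ^ 2 -
    MvPowerSeries.X (Sum.inl (v, 1)) * MvPowerSeries.X (Sum.inl (v, 2)) - MvPowerSeries.C (δ v) ^ 2

lemma Th_eqn (δ : ι → 𝒪) (hδ : ∀ v, δ v ∈ maximalIdeal 𝒪) (v : ι) :
    Th τ δ hδ (eqn τ δ v) = 0 := by
  rw [eqn, map_sub, map_sub, map_pow, map_mul, map_pow, Th, ev_X, ev_X, ev_X, ev_C]
  simp only [val, Sum.elim_inl, Matrix.cons_val_zero, Matrix.cons_val_one, Matrix.cons_val]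
  rw [MvPowerSeries.algebraMap_apply, Algebra.algebraMap_self_apply]
  ring

lemma red_comp_Th [DecidableEq ι] [DecidableEq τ] (δ : ι → 𝒪) (hδ : ∀ v, δ v ∈ maximalIdeal 𝒪) :
    (red 𝒪 _).comp (Th τ δ hδ) =
      ((Cone.Phi (ResidueField 𝒪) ι τ).restrictScalars 𝒪).comp (red 𝒪 _) := by
  have h0 : ∀ v, residue 𝒪 (δ v) = 0 := fun v => (residue_eq_zero_iff _).mpr (hδ v)
  refine algHom_ext_of_mem (maximalIdeal _) ?_ ?_
  · intro s
    rw [AlgHom.comp_apply, Th, ev_X]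
    exact red_mem (val_mem δ hδ s)
  · rintro (⟨v, i⟩ | t)
    · (fin_cases i <;> simp [Th, val, Cone.Phi, h0]); ring
    · simp [Th, val, Cone.Phi]

/-- **The kernel of the parametrisation.** -/
theorem ker_Th (δ : ι → 𝒪) (hδ : ∀ v, δ v ∈ maximalIdeal 𝒪) :
    RingHom.ker (Th τ δ hδ) = Ideal.span (Set.range (eqn τ δ)) := by
  classical
  obtain ⟨ϖ, hϖ⟩ := IsDiscreteValuationRing.exists_irreducible 𝒪
  apply le_antisymm
  swap
  · rw [Ideal.span_le]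
    rintro _ ⟨v, rfl⟩
    exact Th_eqn δ hδ v
  set K := RingHom.ker (Th τ δ hδ) with hK
  set f := Ideal.span (Set.range (eqn τ δ)) with hf
  have hfK : f ≤ K := by
    rw [hf, Ideal.span_le]
    rintro _ ⟨v, rfl⟩
    exact Th_eqn δ hδ v
  refine Submodule.le_of_le_smul_of_le_jacobson_bot (I := maximalIdeal _)
    (IsNoetherian.noetherian K) (IsLocalRing.maximalIdeal_le_jacobson _) ?_
  intro F hF
  rw [hK, RingHom.mem_ker] at hF
  have h1 : Cone.Phi (ResidueField 𝒪) ι τ (red 𝒪 _ F) = 0 := by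
    have h := congrArg (fun g => g F) (red_comp_Th (τ := τ) δ hδ)
    simp only [AlgHom.comp_apply, AlgHom.restrictScalars_apply] at h
    rw [← h]
    erw [hF]
    rw [map_zero]
  have h2 := Cone.mem_of_Phi_eq_zero h1
  have h3 : red 𝒪 _ F ∈ f.map (red 𝒪 (ι × Fin 3 ⊕ τ) : _ →+* _) := by
    rw [hf, Ideal.map_span, ← Set.range_comp]
    have h4 : ((red 𝒪 (ι × Fin 3 ⊕ τ) : MvPowerSeries (ι × Fin 3 ⊕ τ) 𝒪 →+*
        MvPowerSeries (ι × Fin 3 ⊕ τ) (ResidueField 𝒪)) ∘ eqn τ δ) = fun v : ι =>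
        ((MvPowerSeries.X (Sum.inl (v, 0)) : MvPowerSeries (ι × Fin 3 ⊕ τ) (ResidueField 𝒪)) ^ 2 -
        MvPowerSeries.X (Sum.inl (v, 1)) * MvPowerSeries.X (Sum.inl (v, 2))) := by
      funext v
      have h0 : residue 𝒪 (δ v) = 0 := (residue_eq_zero_iff _).mpr (hδ v)
      simp [eqn, h0]
    rw [h4]
    exact h2
  rw [Ideal.mem_map_iff_of_surjective _ (by exact red_surjective)] at h3
  obtain ⟨g, hg, hg2⟩ := h3
  have h5 : red 𝒪 _ (F - g) = 0 := by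
    rw [map_sub, sub_eq_zero]
    exact hg2.symm
  obtain ⟨G, hG⟩ := exists_eq_C_mul_of_red_eq_zero hϖ h5
  have h6 : Th τ δ hδ (F - g) = 0 := by
    rw [map_sub]
    erw [hF, hfK hg]
    rw [sub_zero]
  rw [hG, map_mul, Th, ev_C, mul_eq_zero] at h6
  have h7 : G ∈ K := by
    rcases h6 with h6 | h6
    · exfalso
      rw [MvPowerSeries.algebraMap_apply, Algebra.algebraMap_self_apply] at h6
      have h8 := congrArg MvPowerSeries.constantCoeff h6
      rw [MvPowerSeries.constantCoeff_C, map_zero] at h8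
      exact hϖ.ne_zero h8
    · exact h6
  have h8 : F = g + MvPowerSeries.C ϖ * G := by rw [← hG]; ring
  rw [h8]
  refine Submodule.add_mem_sup hg ?_
  rw [smul_eq_mul]
  refine Ideal.mul_mem_mul ?_ h7
  rw [mem_maximalIdeal_mvPowerSeries_iff, MvPowerSeries.constantCoeff_C]
  exact (mem_maximalIdeal _).mpr hϖ.not_isUnit

end Quadric

end Fermat.Agent.LocRing
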