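import Mathlib
import Fermat.Agent.LocRing.Quadric

set_option autoImplicit false
set_option linter.unusedSectionVars false

/-!
# Analytic continuation along lines
-/

namespace Fermat.Agent.LocRing

open IsLocalRing Fermat.Agent.S53rep

section CoeffIdeal

variable {B : Type} [CommRing B]

/-- Power series with coefficients in `I`. -/
def coeffIdeal (I : Ideal B) : Ideal (PowerSeries B) where
  carrier := {H | ∀ n, PowerSeries.coeff n H ∈ I}
  zero_mem' := by intro n; simp
  add_mem' := by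
    intro a b ha hb n
    rw [map_add]
    exact I.add_mem (ha n) (hb n)
  smul_mem' := by
    intro c x hx n
    rw [smul_eq_mul, PowerSeries.coeff_mul]
    exact Ideal.sum_mem _ fun p _ => I.mul_mem_left _ (hx _)

lemma mem_coeffIdeal {I : Ideal B} {H : PowerSeries B} :
    H ∈ coeffIdeal I ↔ ∀ n, PowerSeries.coeff n H ∈ I := Iff.rfl

lemma coeffIdeal_pow_le (I : Ideal B) (n : ℕ) : (coeffIdeal I) ^ n ≤ coeffIdeal (I ^ n) := by
  induction n with
  | zero => intro x _ m; simp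
  | succ n ih =>
    rw [pow_succ, Ideal.mul_le]
    intro r hr s hs m
    rw [PowerSeries.coeff_mul, pow_succ]
    exact Ideal.sum_mem _ fun p _ => Ideal.mul_mem_mul (ih hr _) (hs _)

end CoeffIdeal

section EvalOne

variable {𝒪 B : Type} [CommRing 𝒪] [IsLocalRing 𝒪] [CommRing B] [IsLocalRing B]
  [IsNoetherianRing B] [IsAdicComplete (maximalIdeal B) B] [Algebra 𝒪 B]
  [IsLocalHom (algebraMap 𝒪 B)] {σ : Type} [Finite σ]

lemma C_mem_max {b : B} (hb : b ∈ maximalIdeal B) :
    (PowerSeries.C b : PowerSeries B) ∈ maximalIdeal (PowerSeries B) := by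
  have : MvPowerSeries.constantCoeff (PowerSeries.C b : PowerSeries B) ∈ maximalIdeal B := by
    change PowerSeries.constantCoeff (PowerSeries.C b : PowerSeries B) ∈ maximalIdeal B
    rw [PowerSeries.constantCoeff_C]
    exact hb
  exact (mem_maximalIdeal_mvPowerSeries_iff _).mpr this

lemma X_mem_max : (PowerSeries.X : PowerSeries B) ∈ maximalIdeal (PowerSeries B) :=
  X_mem_maximalIdeal _

/-- Analytic continuation of `F(t^e b)` to `t = 1`. -/
theorem ev_eq_zero_of_family (b : σ → B) (hb : ∀ s, b s ∈ maximalIdeal B) (e : σ → ℕ)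
    (h : MvPowerSeries σ 𝒪 →ₐ[𝒪] PowerSeries B)
    (hh : ∀ s, h (MvPowerSeries.X s) = PowerSeries.X ^ (e s) * PowerSeries.C (b s))
    {F : MvPowerSeries σ 𝒪} (hF : h F = 0) : ev b hb F = 0 := by
  refine IsHausdorff.haus (I := maximalIdeal B) (M := B) inferInstance _ fun n => ?_
  rw [SModEq.sub_mem, sub_zero, smul_eq_mul, Ideal.mul_top]
  obtain ⟨p, hp⟩ := exists_polynomial_sub_mem F n
  have h1 : h (F - p) ∈ coeffIdeal (maximalIdeal B ^ n) := by
    refine coeffIdeal_pow_le _ n (map_span_X_pow_mem h _ (fun s => ?_) hp)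
    rw [hh]
    refine Ideal.mul_mem_left _ _ ?_
    intro m
    rw [PowerSeries.coeff_C]
    split_ifs
    · exact hb s
    · exact Ideal.zero_mem _
  set P : Polynomial B := MvPolynomial.aeval
    (fun s => (Polynomial.X ^ (e s) * Polynomial.C (b s) : Polynomial B)) p with hP
  have h2 : h p = (P : PowerSeries B) := by
    rw [algHom_coe, hP]
    have : (MvPolynomial.aeval (R := 𝒪) (fun s => h (MvPowerSeries.X s))) =
        (Polynomial.coeToPowerSeries.algHom (R := B) B |>.restrictScalars 𝒪).comp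
        (MvPolynomial.aeval (fun s => (Polynomial.X ^ (e s) * Polynomial.C (b s) :
          Polynomial B))) := by
      apply MvPolynomial.algHom_ext
      intro s
      simp only [MvPolynomial.aeval_X, hh, AlgHom.comp_apply, AlgHom.restrictScalars_apply,
        Polynomial.coeToPowerSeries.algHom_apply]
      simp
      exact mul_comm _ _
    rw [this]
    simp [Polynomial.coeToPowerSeries.algHom_apply]
  have h3 : ∀ m, P.coeff m ∈ maximalIdeal B ^ n := by
    intro m
    have h4 := h1 m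
    rw [map_sub, hF, h2, zero_sub, map_neg, Polynomial.coeff_coe] at h4
    exact neg_mem_iff.mp h4
  have h4 : ev b hb (p : MvPowerSeries σ 𝒪) = P.eval 1 := by
    rw [ev_coe, hP]
    have : (MvPolynomial.aeval (R := 𝒪) b) =
        ((Polynomial.aeval (R := B) (1 : B)).restrictScalars 𝒪).comp
        (MvPolynomial.aeval (fun s => (Polynomial.X ^ (e s) * Polynomial.C (b s) :
          Polynomial B))) := by
      apply MvPolynomial.algHom_ext
      intro s
      simp
    rw [this]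
    simp [Polynomial.coe_aeval_eq_eval]
  have h5 : ev b hb F = ev b hb (F - (p : MvPowerSeries σ 𝒪)) +
      ev b hb (p : MvPowerSeries σ 𝒪) := by rw [map_sub]; ring
  rw [h5, h4]
  refine Ideal.add_mem _ (map_span_X_pow_mem _ _ (fun s => ?_) hp) ?_
  · rw [ev_X]; exact hb s
  · rw [Polynomial.eval_eq_sum, Polynomial.sum]
    exact Ideal.sum_mem _ fun m _ => Ideal.mul_mem_right _ _ (h3 m)

end EvalOne

section Rename

variable {𝒪 : Type} [CommRing 𝒪] {σ σ' : Type}

/-- A polynomial in some of the variables as a power series. -/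
noncomputable def rn (f : σ → σ') (q : MvPolynomial σ 𝒪) : MvPowerSeries σ' 𝒪 :=
  ((MvPolynomial.rename f q : MvPolynomial σ' 𝒪) : MvPowerSeries σ' 𝒪)

lemma map_rn {R : Type} [CommRing R] [Algebra 𝒪 R] [Finite σ'] (f : σ → σ')
    (h : MvPowerSeries σ' 𝒪 →ₐ[𝒪] R) (q : MvPolynomial σ 𝒪) :
    h (rn f q) = MvPolynomial.aeval (fun s => h (MvPowerSeries.X (f s))) q := by
  rw [rn, algHom_coe, MvPolynomial.aeval_rename]
  rfl

lemma aeval_X_rn [Finite σ'] (f : σ → σ') (q : MvPolynomial σ 𝒪) :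
    MvPolynomial.aeval (fun s => (MvPowerSeries.X (f s) : MvPowerSeries σ' 𝒪)) q = rn f q := by
  have := map_rn f (AlgHom.id 𝒪 (MvPowerSeries σ' 𝒪)) q
  simpa using this.symm

end Rename

section Gen

variable {𝒪 : Type} [CommRing 𝒪] [IsDomain 𝒪] [IsDiscreteValuationRing 𝒪]
  [IsAdicComplete (maximalIdeal 𝒪) 𝒪]
variable {ι τ β : Type} [Fintype ι] [Fintype τ] [Fintype β]

/-- Values of the parametrisation with line variables. -/
noncomputable def psiVal (τ : Type) (δ : ι → 𝒪) (idx : β → ι) (ω : β → MvPolynomial (ι × Fin 2) 𝒪) :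
    ι × Fin 3 ⊕ (τ ⊕ β) → MvPowerSeries (ι × Fin 2 ⊕ (τ ⊕ ι)) 𝒪 :=
  Sum.elim (fun p => Quadric.val (τ ⊕ ι) δ (Sum.inl p))
    (Sum.elim (fun t => MvPowerSeries.X (Sum.inr (Sum.inl t)))
      (fun j => MvPowerSeries.X (Sum.inr (Sum.inr (idx j))) * rn Sum.inl (ω j)))

lemma psiVal_mem (δ : ι → 𝒪) (hδ : ∀ v, δ v ∈ maximalIdeal 𝒪) (idx : β → ι)
    (ω : β → MvPolynomial (ι × Fin 2) 𝒪) (s : ι × Fin 3 ⊕ (τ ⊕ β)) :
    psiVal τ δ idx ω s ∈ maximalIdeal (MvPowerSeries (ι × Fin 2 ⊕ (τ ⊕ ι)) 𝒪) := by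
  rcases s with p | t | j
  · exact Quadric.val_mem (τ := τ ⊕ ι) δ hδ (Sum.inl p)
  · exact X_mem_maximalIdeal _
  · exact Ideal.mul_mem_right _ _ (X_mem_maximalIdeal _)

/-- The parametrisation with line variables. -/
noncomputable def Psi (τ : Type) [Fintype τ] (δ : ι → 𝒪) (hδ : ∀ v, δ v ∈ maximalIdeal 𝒪)
    (idx : β → ι) (ω : β → MvPolynomial (ι × Fin 2) 𝒪) :
    MvPowerSeries (ι × Fin 3 ⊕ (τ ⊕ β)) 𝒪 →ₐ[𝒪] MvPowerSeries (ι × Fin 2 ⊕ (τ ⊕ ι)) 𝒪 :=
  ev (psiVal τ δ idx ω) (psiVal_mem δ hδ idx ω)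

/-- The substitution `z_j = s_{idx j} g_j`. -/
noncomputable def chiVal (τ : Type) (idx : β → ι) (g : β → MvPolynomial (ι × Fin 3) 𝒪) :
    ι × Fin 3 ⊕ (τ ⊕ β) → MvPowerSeries (ι × Fin 3 ⊕ (τ ⊕ ι)) 𝒪 :=
  Sum.elim (fun p => MvPowerSeries.X (Sum.inl p))
    (Sum.elim (fun t => MvPowerSeries.X (Sum.inr (Sum.inl t)))
      (fun j => MvPowerSeries.X (Sum.inr (Sum.inr (idx j))) * rn Sum.inl (g j)))

lemma chiVal_mem (idx : β → ι) (g : β → MvPolynomial (ι × Fin 3) 𝒪) (s : ι × Fin 3 ⊕ (τ ⊕ β)) :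
    chiVal τ idx g s ∈ maximalIdeal (MvPowerSeries (ι × Fin 3 ⊕ (τ ⊕ ι)) 𝒪) := by
  rcases s with p | t | j
  · exact X_mem_maximalIdeal _
  · exact X_mem_maximalIdeal _
  · exact Ideal.mul_mem_right _ _ (X_mem_maximalIdeal _)

/-- Rescaling of the line variables. -/
noncomputable def rescVal (γ : ι → MvPowerSeries (ι × Fin 2 ⊕ (τ ⊕ ι)) 𝒪) :
    ι × Fin 2 ⊕ (τ ⊕ ι) → MvPowerSeries (ι × Fin 2 ⊕ (τ ⊕ ι)) 𝒪 :=
  Sum.elim (fun p => MvPowerSeries.X (Sum.inl p))
    (Sum.elim (fun t => MvPowerSeries.X (Sum.inr (Sum.inl t)))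
      (fun v => MvPowerSeries.X (Sum.inr (Sum.inr v)) * γ v))

lemma rescVal_mem (γ : ι → MvPowerSeries (ι × Fin 2 ⊕ (τ ⊕ ι)) 𝒪) (s : ι × Fin 2 ⊕ (τ ⊕ ι)) :
    rescVal γ s ∈ maximalIdeal (MvPowerSeries (ι × Fin 2 ⊕ (τ ⊕ ι)) 𝒪) := by
  rcases s with p | t | j
  · exact X_mem_maximalIdeal _
  · exact X_mem_maximalIdeal _
  · exact Ideal.mul_mem_right _ _ (X_mem_maximalIdeal _)

/-- **The general lemma on analytic continuation.** -/
theorem ev_eq_zero_of_Psi {B : Type} [CommRing B] [IsDomain B] [IsLocalRing B]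
    [IsNoetherianRing B] [IsAdicComplete (maximalIdeal B) B] [Algebra 𝒪 B]
    [IsLocalHom (algebraMap 𝒪 B)]
    (δ : ι → 𝒪) (hδ : ∀ v, δ v ∈ maximalIdeal 𝒪) (idx : β → ι)
    (ω : β → MvPolynomial (ι × Fin 2) 𝒪) (g : β → MvPolynomial (ι × Fin 3) 𝒪)
    (γ : ι → MvPowerSeries (ι × Fin 2 ⊕ (τ ⊕ ι)) 𝒪)
    (hγ : ∀ j, MvPolynomial.aeval (fun p => Quadric.val (τ ⊕ ι) δ (Sum.inl p)) (g j) =
      γ (idx j) * rn Sum.inl (ω j))
    (b : ι × Fin 3 ⊕ (τ ⊕ β) → B) (hb : ∀ s, b s ∈ maximalIdeal B)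
    (hq : ∀ v, b (Sum.inl (v, 0)) ^ 2 - b (Sum.inl (v, 1)) * b (Sum.inl (v, 2)) =
      algebraMap 𝒪 B (δ v) ^ 2)
    (c : B) (hc : c ≠ 0) (u : ι → B)
    (hu : ∀ j, c * b (Sum.inr (Sum.inr j)) =
      u (idx j) * MvPolynomial.aeval (fun p => b (Sum.inl p)) (g j))
    {F : MvPowerSeries (ι × Fin 3 ⊕ (τ ⊕ β)) 𝒪} (hF : Psi τ δ hδ idx ω F = 0) :
    ev b hb F = 0 := by
  classical
  let chi : MvPowerSeries (ι × Fin 3 ⊕ (τ ⊕ β)) 𝒪 →ₐ[𝒪]
      MvPowerSeries (ι × Fin 3 ⊕ (τ ⊕ ι)) 𝒪 := ev (chiVal τ idx g) (chiVal_mem idx g)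
  have hchi : chi = ev (chiVal τ idx g) (chiVal_mem idx g) := rfl
  let resc : MvPowerSeries (ι × Fin 2 ⊕ (τ ⊕ ι)) 𝒪 →ₐ[𝒪]
      MvPowerSeries (ι × Fin 2 ⊕ (τ ⊕ ι)) 𝒪 := ev (rescVal γ) (rescVal_mem γ)
  have hresc : resc = ev (rescVal γ) (rescVal_mem γ) := rfl
  have hrescv : ∀ p, resc (Quadric.val (τ ⊕ ι) δ (Sum.inl p)) =
      Quadric.val (τ ⊕ ι) δ (Sum.inl p) := by
    rintro ⟨v, i⟩
    fin_cases i <;>
      simp [hresc, Quadric.val, MvPowerSeries.algebraMap_apply, rescVal, map_ofNat]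
  have h1 : (Quadric.Th (τ ⊕ ι) δ hδ).comp chi = resc.comp (Psi τ δ hδ idx ω) := by
    refine algHom_ext_of_mem (maximalIdeal _) ?_ ?_
    · intro s
      rw [AlgHom.comp_apply]
      refine mem_maximalIdeal_of_mem _
        (fun s => by rw [Quadric.Th, ev_X]; exact Quadric.val_mem δ hδ s) ?_
      rw [hchi, ev_X]
      exact chiVal_mem idx g s
    · rintro (p | t | j)
      · rw [AlgHom.comp_apply, AlgHom.comp_apply, Psi, ev_X, ev_X]
        simp only [psiVal, chiVal, Sum.elim_inl]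
        rw [hrescv, Quadric.Th, ev_X]
      · rw [AlgHom.comp_apply, AlgHom.comp_apply, Psi, ev_X, ev_X]
        simp only [psiVal, chiVal, Sum.elim_inr, Sum.elim_inl]
        rw [Quadric.Th, ev_X, hresc, ev_X]
        simp only [Quadric.val, rescVal, Sum.elim_inr, Sum.elim_inl]
      · rw [AlgHom.comp_apply, AlgHom.comp_apply, Psi, ev_X, ev_X]
        simp only [psiVal, chiVal, Sum.elim_inr]
        rw [map_mul, map_mul, map_rn, map_rn, Quadric.Th]
        simp only [ev_X]
        rw [hγ, hresc]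
        simp only [ev_X, rescVal, Sum.elim_inr, Sum.elim_inl]
        rw [aeval_X_rn]
        simp only [Quadric.val, Sum.elim_inr]
        ring
  have h2 : chi F ∈ Ideal.span (Set.range (Quadric.eqn (τ ⊕ ι) δ)) := by
    rw [← Quadric.ker_Th δ hδ, RingHom.mem_ker]
    have h := congrArg (fun h => h F) h1
    simp only [AlgHom.comp_apply] at h
    rw [hF, map_zero] at h
    exact h
  -- the family
  let b2 : ι × Fin 3 ⊕ (τ ⊕ ι) → PowerSeries B :=
    Sum.elim (fun p => PowerSeries.C (b (Sum.inl p)))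
      (Sum.elim (fun t => PowerSeries.C (b (Sum.inr (Sum.inl t))))
        (fun v => PowerSeries.X * PowerSeries.C (u v)))
  have hb2 : ∀ s, b2 s ∈ maximalIdeal (PowerSeries B) := by
    rintro (p | t | v)
    · exact C_mem_max (hb _)
    · exact C_mem_max (hb _)
    · exact Ideal.mul_mem_right _ _ X_mem_max
  let h2' : MvPowerSeries (ι × Fin 3 ⊕ (τ ⊕ ι)) 𝒪 →ₐ[𝒪] PowerSeries B := ev b2 hb2
  have hh2' : h2' = ev b2 hb2 := rfl
  have h3 : h2' (chi F) = 0 := by
    have h4 : Ideal.span (Set.range (Quadric.eqn (τ ⊕ ι) δ)) ≤ RingHom.ker h2' := by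
      rw [Ideal.span_le]
      rintro _ ⟨v, rfl⟩
      rw [SetLike.mem_coe, RingHom.mem_ker, Quadric.eqn, map_sub, map_sub, map_pow, map_mul,
        map_pow, hh2', ev_X, ev_X, ev_X, ev_C]
      simp only [b2, Sum.elim_inl]
      have h5 : algebraMap 𝒪 (PowerSeries B) (δ v) = PowerSeries.C (algebraMap 𝒪 B (δ v)) := by
        rw [IsScalarTower.algebraMap_apply 𝒪 B (PowerSeries B)]
        rfl
      rw [← map_pow, ← map_mul, ← map_sub, hq v, map_pow, h5, sub_self]
    exact h4 h2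
  let e : ι × Fin 3 ⊕ (τ ⊕ β) → ℕ := Sum.elim (fun _ => 0) (Sum.elim (fun _ => 0) (fun _ => 1))
  let b0 : ι × Fin 3 ⊕ (τ ⊕ β) → PowerSeries B := fun s =>
    PowerSeries.X ^ (e s) * PowerSeries.C (b s)
  have hb0 : ∀ s, b0 s ∈ maximalIdeal (PowerSeries B) := fun s =>
    Ideal.mul_mem_left _ _ (C_mem_max (hb s))
  refine ev_eq_zero_of_family b hb e (ev b0 hb0) (fun s => ev_X _ _ _) ?_
  refine PowerSeries.rescale_injective hc ?_
  rw [map_zero, ← h3]
  let rs : PowerSeries B →ₐ[𝒪] PowerSeries B :=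
    { PowerSeries.rescale c with
      commutes' := by
        intro r
        change PowerSeries.rescale c (algebraMap 𝒪 (PowerSeries B) r) =
          algebraMap 𝒪 (PowerSeries B) r
        rw [IsScalarTower.algebraMap_apply 𝒪 B (PowerSeries B)]
        ext n
        rw [PowerSeries.coeff_rescale, ← PowerSeries.C_eq_algebraMap, PowerSeries.coeff_C]
        split_ifs with h
        · rw [h, pow_zero, one_mul]
        · rw [mul_zero] }
  have hrs : ∀ x, rs x = PowerSeries.rescale c x := fun x => rfl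
  have h5 : rs.comp (ev b0 hb0) = h2'.comp chi := by
    refine algHom_ext_of_mem (𝒪 := 𝒪) (maximalIdeal (PowerSeries B)) ?_ ?_
    · intro s
      rw [AlgHom.comp_apply, ev_X, hrs]
      simp only [b0]
      rw [map_mul]
      refine Ideal.mul_mem_left _ _ ?_
      have : PowerSeries.rescale c (PowerSeries.C (b s)) = PowerSeries.C (b s) := by
        ext n
        rw [PowerSeries.coeff_rescale, PowerSeries.coeff_C]
        split_ifs with h
        · rw [h, pow_zero, one_mul]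
        · rw [mul_zero]
      rw [this]
      exact C_mem_max (hb s)
    · intro s
      have hC : ∀ x : B, PowerSeries.rescale c (PowerSeries.C x) = PowerSeries.C x := by
        intro x
        ext n
        rw [PowerSeries.coeff_rescale, PowerSeries.coeff_C]
        split_ifs with h
        · rw [h, pow_zero, one_mul]
        · rw [mul_zero]
      rw [AlgHom.comp_apply, ev_X, hrs, AlgHom.comp_apply, hchi, ev_X]
      rcases s with p | t | j
      · simp only [b0, e, chiVal, Sum.elim_inl, pow_zero, one_mul]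
        rw [hC, hh2', ev_X]
        simp only [b2, Sum.elim_inl]
      · simp only [b0, e, chiVal, Sum.elim_inl, Sum.elim_inr, pow_zero, one_mul]
        rw [hC, hh2', ev_X]
        simp only [b2, Sum.elim_inl, Sum.elim_inr]
      · simp only [b0, e, chiVal, Sum.elim_inr, pow_one]
        rw [map_mul, hC, PowerSeries.rescale_X, map_mul, map_rn, hh2', ev_X]
        simp only [ev_X, b2, Sum.elim_inl, Sum.elim_inr]
        have h6 : MvPolynomial.aeval (R := 𝒪)
            (fun s => (PowerSeries.C (b (Sum.inl s)) : PowerSeries B)) (g j) =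
            PowerSeries.C (MvPolynomial.aeval (fun p => b (Sum.inl p)) (g j)) := by
          have h7 : MvPolynomial.aeval (R := 𝒪)
              (fun s => (PowerSeries.C (b (Sum.inl s)) : PowerSeries B)) =
              (IsScalarTower.toAlgHom 𝒪 B (PowerSeries B)).comp
                (MvPolynomial.aeval (fun p => b (Sum.inl p))) := by
            apply MvPolynomial.algHom_ext
            intro s
            rw [MvPolynomial.aeval_X, AlgHom.comp_apply, MvPolynomial.aeval_X]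
            rfl
          rw [h7]
          rfl
        have h8 := congrArg (PowerSeries.C : B →+* PowerSeries B) (hu j)
        rw [map_mul, map_mul] at h8
        rw [h6]
        linear_combination (PowerSeries.X : PowerSeries B) * h8
  have h6 := congrArg (fun h => h F) h5
  simp only [AlgHom.comp_apply, hrs] at h6
  exact h6

end Gen

end Fermat.Agent.LocRing
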