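import Mathlib
import Fermat.Agent.LocRing.TTrick
import Fermat.Agent.LocRing.Mat

set_option autoImplicit false
set_option linter.unusedSectionVars false

/-!
# The local relations at the primes `v ∈ T₀`

`Lam 𝒪 ι κ` is the power series ring on the entries of `Sg v - 1`, `Ph v - ε v` (`v : ι`) and on
further variables indexed by `κ`.
-/

namespace Fermat.Agent.LocRing

open IsLocalRing Fermat.Agent.S53rep Matrix

/-- The variables. -/
abbrev Var (ι κ : Type) : Type := ((ι × Bool) × Fin 2 × Fin 2) ⊕ κ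

/-- The ambient power series ring. -/
abbrev Lam (𝒪 : Type) [CommRing 𝒪] (ι κ : Type) : Type := MvPowerSeries (Var ι κ) 𝒪

section Defs

variable {𝒪 : Type} [CommRing 𝒪] {ι κ : Type}

/-- The universal image of tame inertia. -/
noncomputable def Sg (𝒪 : Type) [CommRing 𝒪] (κ : Type) {ι : Type} (v : ι) :
    Matrix (Fin 2) (Fin 2) (Lam 𝒪 ι κ) :=
  1 + Matrix.of fun i j => MvPowerSeries.X (Sum.inl ((v, false), (i, j)))

/-- The universal image of Frobenius. -/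
noncomputable def Ph (κ : Type) (ε : ι → 𝒪) (v : ι) : Matrix (Fin 2) (Fin 2) (Lam 𝒪 ι κ) :=
  (MvPowerSeries.C (ε v) : Lam 𝒪 ι κ) • (1 : Matrix (Fin 2) (Fin 2) (Lam 𝒪 ι κ)) +
    Matrix.of fun i j => MvPowerSeries.X (Sum.inl ((v, true), (i, j)))

/-- The relations at the primes `v`: tame relation, determinants, trace of inertia `= tr v`. -/
noncomputable def relSet (κ : Type) (q : ι → ℕ) (ε tr : ι → 𝒪) : Set (Lam 𝒪 ι κ) :=
  {x | ∃ v, x = (Sg 𝒪 κ v).det - 1 ∨ x = (Ph κ ε v).det - MvPowerSeries.C (q v : 𝒪) ∨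
    x = (Sg 𝒪 κ v).trace - MvPowerSeries.C (tr v) ∨
    ∃ i j, x = (Ph κ ε v * Sg 𝒪 κ v - (Sg 𝒪 κ v) ^ (q v) * Ph κ ε v) i j}

/-- The ideal of the local relations. -/
noncomputable def locI (κ : Type) (q : ι → ℕ) (ε tr : ι → 𝒪) : Ideal (Lam 𝒪 ι κ) :=
  Ideal.span (relSet κ q ε tr)

end Defs

section Maps

variable {𝒪 : Type} [CommRing 𝒪] {ι κ : Type} {R : Type} [CommRing R] [Algebra 𝒪 R]

/-- The image of `Sg v`. -/
noncomputable def mS (h : Lam 𝒪 ι κ →ₐ[𝒪] R) (v : ι) : Matrix (Fin 2) (Fin 2) R :=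
  (Sg 𝒪 κ v).map h

/-- The image of `Ph v`. -/
noncomputable def mF (ε : ι → 𝒪) (h : Lam 𝒪 ι κ →ₐ[𝒪] R) (v : ι) : Matrix (Fin 2) (Fin 2) R :=
  (Ph κ ε v).map h

lemma mS_apply (h : Lam 𝒪 ι κ →ₐ[𝒪] R) (v : ι) (i j : Fin 2) :
    mS h v i j = (1 : Matrix (Fin 2) (Fin 2) R) i j +
      h (MvPowerSeries.X (Sum.inl ((v, false), (i, j)))) := by
  rw [mS, Matrix.map_apply, Sg, Matrix.add_apply, map_add, Matrix.of_apply]
  congr 1
  rw [Matrix.one_apply, Matrix.one_apply]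
  split_ifs <;> simp

lemma algHom_C (h : Lam 𝒪 ι κ →ₐ[𝒪] R) (c : 𝒪) : h (MvPowerSeries.C c) = algebraMap 𝒪 R c := by
  have : (MvPowerSeries.C c : Lam 𝒪 ι κ) = algebraMap 𝒪 (Lam 𝒪 ι κ) c := by
    rw [MvPowerSeries.algebraMap_apply, Algebra.algebraMap_self_apply]
  rw [this, AlgHom.commutes]

lemma mF_apply (ε : ι → 𝒪) (h : Lam 𝒪 ι κ →ₐ[𝒪] R) (v : ι) (i j : Fin 2) :
    mF ε h v i j = algebraMap 𝒪 R (ε v) * (1 : Matrix (Fin 2) (Fin 2) R) i j +
      h (MvPowerSeries.X (Sum.inl ((v, true), (i, j)))) := by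
  rw [mF, Matrix.map_apply, Ph, Matrix.add_apply, map_add, Matrix.of_apply, Matrix.smul_apply,
    smul_eq_mul, map_mul, algHom_C]
  congr 2
  rw [Matrix.one_apply, Matrix.one_apply]
  split_ifs <;> simp

lemma mS_comp {R' : Type} [CommRing R'] [Algebra 𝒪 R'] (g : R →ₐ[𝒪] R')
    (h : Lam 𝒪 ι κ →ₐ[𝒪] R) (v : ι) : mS (g.comp h) v = (mS h v).map g := by
  rw [mS, mS, Matrix.map_map]
  rfl

lemma mF_comp {R' : Type} [CommRing R'] [Algebra 𝒪 R'] (g : R →ₐ[𝒪] R') (ε : ι → 𝒪)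
    (h : Lam 𝒪 ι κ →ₐ[𝒪] R) (v : ι) : mF ε (g.comp h) v = (mF ε h v).map g := by
  rw [mF, mF, Matrix.map_map]
  rfl

/-- A homomorphism kills the local relations iff the matrices satisfy them. -/
theorem locI_le_ker_iff (q : ι → ℕ) (ε tr : ι → 𝒪) (h : Lam 𝒪 ι κ →ₐ[𝒪] R) :
    locI κ q ε tr ≤ RingHom.ker h ↔ ∀ v, (mS h v).det = 1 ∧ (mF ε h v).det = (q v : R) ∧
      (mS h v).trace = algebraMap 𝒪 R (tr v) ∧
      mF ε h v * mS h v = (mS h v) ^ (q v) * mF ε h v := by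
  have e1 : ∀ v, h ((Sg 𝒪 κ v).det) = (mS h v).det := fun v => by
    rw [mS]
    exact RingHom.map_det (h : Lam 𝒪 ι κ →+* R) (Sg 𝒪 κ v)
  have e2 : ∀ v, h ((Ph κ ε v).det) = (mF ε h v).det := fun v => by
    rw [mF]
    exact RingHom.map_det (h : Lam 𝒪 ι κ →+* R) (Ph κ ε v)
  have e3 : ∀ v, h ((Sg 𝒪 κ v).trace) = (mS h v).trace := fun v => by
    rw [mS, Matrix.trace_fin_two, Matrix.trace_fin_two, map_add]
    rfl
  have e4 : ∀ v i j, h ((Ph κ ε v * Sg 𝒪 κ v - (Sg 𝒪 κ v) ^ (q v) * Ph κ ε v) i j) =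
      (mF ε h v * mS h v - (mS h v) ^ (q v) * mF ε h v) i j := fun v i j => by
    have h1 : (mF ε h v * mS h v - (mS h v) ^ (q v) * mF ε h v) =
        (h : Lam 𝒪 ι κ →+* R).mapMatrix
          (Ph κ ε v * Sg 𝒪 κ v - (Sg 𝒪 κ v) ^ (q v) * Ph κ ε v) := by
      rw [map_sub, map_mul, map_mul, map_pow]
      rfl
    rw [h1]
    rfl
  rw [locI, Ideal.span_le]
  constructor
  · intro hh v
    refine ⟨?_, ?_, ?_, ?_⟩
    · have := hh ⟨v, Or.inl rfl⟩
      rw [SetLike.mem_coe, RingHom.mem_ker, map_sub, map_one, sub_eq_zero] at this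
      rw [← e1]; exact this
    · have := hh ⟨v, Or.inr (Or.inl rfl)⟩
      rw [SetLike.mem_coe, RingHom.mem_ker, map_sub, algHom_C, sub_eq_zero, map_natCast] at this
      rw [← e2]; exact this
    · have := hh ⟨v, Or.inr (Or.inr (Or.inl rfl))⟩
      rw [SetLike.mem_coe, RingHom.mem_ker, map_sub, algHom_C, sub_eq_zero] at this
      rw [← e3]; exact this
    · rw [← sub_eq_zero]
      ext i j
      have := hh ⟨v, Or.inr (Or.inr (Or.inr ⟨i, j, rfl⟩))⟩
      rw [SetLike.mem_coe, RingHom.mem_ker, e4] at this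
      exact this
  · intro hh x hx
    rw [SetLike.mem_coe, RingHom.mem_ker]
    obtain ⟨v, hx | hx | hx | ⟨i, j, hx⟩⟩ := hx
    · rw [hx, map_sub, map_one, e1, (hh v).1, sub_self]
    · rw [hx, map_sub, algHom_C, e2, (hh v).2.1, map_natCast, sub_self]
    · rw [hx, map_sub, algHom_C, e3, (hh v).2.2.1, sub_self]
    · rw [hx, e4, (hh v).2.2.2, sub_self]
      rfl

/-- Extensionality in terms of the matrices. -/
theorem algHom_ext_mat [Finite ι] [Finite κ] (I : Ideal R) [IsHausdorff I R] (ε : ι → 𝒪)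
    {γ γ' : Lam 𝒪 ι κ →ₐ[𝒪] R} (hI : ∀ s, γ (MvPowerSeries.X s) ∈ I)
    (hS : ∀ v, mS γ v = mS γ' v) (hF : ∀ v, mF ε γ v = mF ε γ' v)
    (hu : ∀ t, γ (MvPowerSeries.X (Sum.inr t)) = γ' (MvPowerSeries.X (Sum.inr t))) : γ = γ' := by
  refine algHom_ext_of_mem I hI ?_
  rintro (⟨⟨v, b⟩, i, j⟩ | t)
  · cases b
    · have h := congrFun (congrFun (hS v) i) j
      rw [mS_apply, mS_apply] at h
      exact add_left_cancel h
    · have h := congrFun (congrFun (hF v) i) j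
      rw [mF_apply, mF_apply] at h
      exact add_left_cancel h
  · exact hu t

section EvM

variable [IsLocalRing R] [IsAdicComplete (maximalIdeal R) R] [Finite ι] [Finite κ]

/-- The values of `evM`. -/
def evMval (ε : ι → 𝒪) (S F : ι → Matrix (Fin 2) (Fin 2) R) (u : κ → R) : Var ι κ → R :=
  Sum.elim (fun p => if p.1.2 then
      F p.1.1 p.2.1 p.2.2 - algebraMap 𝒪 R (ε p.1.1) * (1 : Matrix (Fin 2) (Fin 2) R) p.2.1 p.2.2
    else S p.1.1 p.2.1 p.2.2 - (1 : Matrix (Fin 2) (Fin 2) R) p.2.1 p.2.2) u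

lemma evMval_mem (ε : ι → 𝒪) (S F : ι → Matrix (Fin 2) (Fin 2) R) (u : κ → R)
    (hS : ∀ v i j, S v i j - (1 : Matrix (Fin 2) (Fin 2) R) i j ∈ maximalIdeal R)
    (hF : ∀ v i j, F v i j - algebraMap 𝒪 R (ε v) * (1 : Matrix (Fin 2) (Fin 2) R) i j ∈
      maximalIdeal R) (hu : ∀ t, u t ∈ maximalIdeal R) (s : Var ι κ) :
    evMval ε S F u s ∈ maximalIdeal R := by
  rcases s with ⟨⟨v, b⟩, i, j⟩ | t
  · cases b
    · exact hS v i j
    · exact hF v i j
  · exact hu t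

/-- The homomorphism with given matrices. -/
noncomputable def evM (ε : ι → 𝒪) (S F : ι → Matrix (Fin 2) (Fin 2) R) (u : κ → R)
    (hS : ∀ v i j, S v i j - (1 : Matrix (Fin 2) (Fin 2) R) i j ∈ maximalIdeal R)
    (hF : ∀ v i j, F v i j - algebraMap 𝒪 R (ε v) * (1 : Matrix (Fin 2) (Fin 2) R) i j ∈
      maximalIdeal R) (hu : ∀ t, u t ∈ maximalIdeal R) : Lam 𝒪 ι κ →ₐ[𝒪] R :=
  ev (evMval ε S F u) (evMval_mem ε S F u hS hF hu)

variable {ε : ι → 𝒪} {S F : ι → Matrix (Fin 2) (Fin 2) R} {u : κ → R}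
    {hS : ∀ v i j, S v i j - (1 : Matrix (Fin 2) (Fin 2) R) i j ∈ maximalIdeal R}
    {hF : ∀ v i j, F v i j - algebraMap 𝒪 R (ε v) * (1 : Matrix (Fin 2) (Fin 2) R) i j ∈
      maximalIdeal R} {hu : ∀ t, u t ∈ maximalIdeal R}

@[simp] lemma mS_evM (v : ι) : mS (evM ε S F u hS hF hu) v = S v := by
  ext i j
  rw [mS_apply, evM, ev_X]
  simp only [evMval, Sum.elim_inl]
  simp

@[simp] lemma mF_evM (v : ι) : mF ε (evM ε S F u hS hF hu) v = F v := by
  ext i j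
  rw [mF_apply, evM, ev_X]
  simp only [evMval, Sum.elim_inl]
  simp

@[simp] lemma evM_inr (t : κ) : evM ε S F u hS hF hu (MvPowerSeries.X (Sum.inr t)) = u t := by
  rw [evM, ev_X]
  rfl

lemma evM_X_mem (s : Var ι κ) : evM ε S F u hS hF hu (MvPowerSeries.X s) ∈ maximalIdeal R := by
  rw [evM, ev_X]
  exact evMval_mem ε S F u hS hF hu s

end EvM

end Maps

section Sqrt

variable {R : Type} [CommRing R] [IsLocalRing R]

theorem exists_sqrt [IsAdicComplete (maximalIdeal R) R] (h2 : IsUnit (2 : R)) {x : R}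
    (hx : x - 1 ∈ maximalIdeal R) : ∃ a : R, a ^ 2 = x ∧ a - 1 ∈ maximalIdeal R := by
  have := IsAdicComplete.henselianRing R (maximalIdeal R)
  obtain ⟨a, ha, ha1⟩ := HenselianRing.is_henselian (I := maximalIdeal R)
    (Polynomial.X ^ 2 - Polynomial.C x) (Polynomial.monic_X_pow_sub_C x two_ne_zero) 1
    (by
      simp only [Polynomial.eval_sub, Polynomial.eval_pow, Polynomial.eval_X, Polynomial.eval_C,
        one_pow]
      rw [← neg_sub]
      exact neg_mem_iff.mpr hx)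
    (by
      simp only [Polynomial.derivative_sub, Polynomial.derivative_X_pow, Polynomial.derivative_C,
        Polynomial.eval_mul, Polynomial.eval_pow, Polynomial.eval_X, sub_zero,
        Polynomial.eval_C, one_pow, mul_one]
      refine IsUnit.map _ ?_
      simpa using h2)
  refine ⟨a, ?_, ha1⟩
  have := ha.eq_zero
  simpa [sub_eq_zero] using this

theorem sqrt_unique (h2 : IsUnit (2 : R)) {a b : R} (h : a ^ 2 = b ^ 2)
    (ha : a - 1 ∈ maximalIdeal R) (hb : b - 1 ∈ maximalIdeal R) : a = b := by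
  have h1 : (a - b) * (a + b) = 0 := by linear_combination h
  have h3 : IsUnit (a + b) := by
    by_contra hn
    have h4 : a + b ∈ maximalIdeal R := (mem_maximalIdeal _).mpr hn
    have h5 : (2 : R) ∈ maximalIdeal R := by
      have : (2 : R) = (a + b) - (a - 1) - (b - 1) := by ring
      rw [this]
      exact Ideal.sub_mem _ (Ideal.sub_mem _ h4 ha) hb
    exact (mem_maximalIdeal _).mp h5 h2
  have := (IsUnit.mul_left_eq_zero h3).mp h1
  exact sub_eq_zero.mp this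

end Sqrt

end Fermat.Agent.LocRing
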