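import Mathlib
import Fermat.Agent.LocRing.Defs
import Fermat.Prelude.Thm_IsLocalRing_isAdicComplete_of_module_finite

set_option autoImplicit false
set_option linter.unusedSectionVars false

/-!
# Quotients of complete local rings, square roots, Frobenius matrices, the source ring
-/

namespace Fermat.Agent.LocRing

open IsLocalRing Fermat.Agent.S53rep Matrix

section Quot

variable {A : Type} [CommRing A] [IsLocalRing A] (P : Ideal A) [hP : P.IsPrime]

instance isLocalRing_quot : IsLocalRing (A ⧸ P) :=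
  haveI : Nontrivial (A ⧸ P) := Ideal.Quotient.nontrivial_iff.mpr hP.ne_top
  IsLocalRing.of_surjective' (Ideal.Quotient.mk P) Ideal.Quotient.mk_surjective

instance isLocalHom_mk : IsLocalHom (Ideal.Quotient.mk P) :=
  haveI : Nontrivial (A ⧸ P) := Ideal.Quotient.nontrivial_iff.mpr hP.ne_top
  IsLocalHom.of_surjective (Ideal.Quotient.mk P) Ideal.Quotient.mk_surjective

instance isLocalHom_algebraMap : IsLocalHom (algebraMap A (A ⧸ P)) :=
  isLocalHom_mk P

instance isAdicComplete_quot [IsNoetherianRing A] [IsAdicComplete (maximalIdeal A) A] :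
    IsAdicComplete (maximalIdeal (A ⧸ P)) (A ⧸ P) :=
  IsLocalRing.isAdicComplete_of_module_finite (𝒪 := A)

instance isLocalHom_algebraMap_base {𝒪 : Type} [CommRing 𝒪] [Algebra 𝒪 A]
    [IsLocalHom (algebraMap 𝒪 A)] : IsLocalHom (algebraMap 𝒪 (A ⧸ P)) := by
  rw [IsScalarTower.algebraMap_eq 𝒪 A (A ⧸ P)]
  exact RingHom.isLocalHom_comp _ _

end Quot

section Sq

variable {R : Type} [CommRing R] [IsLocalRing R]

open Classical in
/-- The square root of `x` congruent to `1`. -/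
noncomputable def sq (x : R) : R := if h : ∃ a : R, a ^ 2 = x ∧ a - 1 ∈ maximalIdeal R then h.choose else 1

theorem sq_spec [IsAdicComplete (maximalIdeal R) R] (h2 : IsUnit (2 : R)) {x : R}
    (hx : x - 1 ∈ maximalIdeal R) : (sq x) ^ 2 = x ∧ sq x - 1 ∈ maximalIdeal R := by
  have h := exists_sqrt h2 hx
  rw [sq, dif_pos h]
  exact h.choose_spec

theorem eq_sq [IsAdicComplete (maximalIdeal R) R] (h2 : IsUnit (2 : R)) {x a : R}
    (ha : a ^ 2 = x) (ha1 : a - 1 ∈ maximalIdeal R) : a = sq x := by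
  have hx : x - 1 ∈ maximalIdeal R := by
    have : x - 1 = (a - 1) * (a + 1) := by rw [← ha]; ring
    rw [this]
    exact Ideal.mul_mem_right _ _ ha1
  obtain ⟨h1, h3⟩ := sq_spec h2 hx
  exact sqrt_unique h2 (by rw [ha, h1]) ha1 h3

theorem map_sq [IsAdicComplete (maximalIdeal R) R] {R' : Type} [CommRing R'] [IsLocalRing R']
    [IsAdicComplete (maximalIdeal R') R'] (h2 : IsUnit (2 : R)) (g : R →+* R')
    (hg : ∀ x ∈ maximalIdeal R, g x ∈ maximalIdeal R') {x : R}
    (hx : x - 1 ∈ maximalIdeal R) : g (sq x) = sq (g x) := by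
  obtain ⟨h1, h3⟩ := sq_spec h2 hx
  have h2' : IsUnit (2 : R') := by
    have := h2.map g
    rwa [map_ofNat] at this
  refine eq_sq h2' (by rw [← map_pow, h1]) ?_
  have := hg _ h3
  rwa [map_sub, map_one] at this

end Sq

section Frob

variable {R : Type} [CommRing R] [IsLocalRing R] [IsAdicComplete (maximalIdeal R) R]

/-- The radicand. -/
def rad (q : ℕ) (w : Fin 3 → R) : R := q + w 0 ^ 2 - w 1 * w 2

/-- The matrix `ε (a + B)` with `det = q`, `B` the trace zero matrix with coordinates `w`. -/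
noncomputable def frob (e : R) (q : ℕ) (w : Fin 3 → R) : Matrix (Fin 2) (Fin 2) R :=
  e • (sq (rad q w) • (1 : Matrix (Fin 2) (Fin 2) R) + tm w)

lemma rad_mem {q : ℕ} (hq : (q : R) - 1 ∈ maximalIdeal R) {w : Fin 3 → R}
    (hw : ∀ i, w i ∈ maximalIdeal R) : rad q w - 1 ∈ maximalIdeal R := by
  have : rad q w - 1 = ((q : R) - 1) + w 0 * w 0 - w 1 * w 2 := by rw [rad]; ring
  rw [this]
  exact Ideal.sub_mem _ (Ideal.add_mem _ hq (Ideal.mul_mem_left _ _ (hw 0)))
    (Ideal.mul_mem_left _ _ (hw 2))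

lemma det_frob (h2 : IsUnit (2 : R)) {e : R} (he : e ^ 2 = 1) {q : ℕ}
    (hq : (q : R) - 1 ∈ maximalIdeal R) {w : Fin 3 → R} (hw : ∀ i, w i ∈ maximalIdeal R) :
    (frob e q w).det = q := by
  obtain ⟨h1, -⟩ := sq_spec h2 (rad_mem hq hw)
  rw [frob, Matrix.det_fin_two]
  simp only [Matrix.smul_apply, Matrix.add_apply, tm, Matrix.of_apply, Matrix.cons_val', smul_eq_mul,
    Matrix.cons_val_zero, Matrix.cons_val_one, Matrix.one_apply_eq,
    Matrix.cons_val_fin_one, ne_eq, zero_ne_one, one_ne_zero, not_false_eq_true,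
    Matrix.one_apply_ne]
  have h1' : sq (rad q w) ^ 2 = (q : R) + w 0 ^ 2 - w 1 * w 2 := h1
  linear_combination h1' * e ^ 2 + (q : R) * he

lemma trace_frob (e : R) (q : ℕ) (w : Fin 3 → R) :
    (frob e q w).trace = e * (2 * sq (rad q w)) := by
  rw [frob, Matrix.trace_fin_two]
  simp only [Matrix.smul_apply, Matrix.add_apply, tm, Matrix.of_apply, Matrix.cons_val', smul_eq_mul,
    Matrix.cons_val_zero, Matrix.cons_val_one, Matrix.one_apply_eq,
    Matrix.cons_val_fin_one]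
  ring

lemma frob_mem (h2 : IsUnit (2 : R)) (e : R) {q : ℕ} (hq : (q : R) - 1 ∈ maximalIdeal R)
    {w : Fin 3 → R} (hw : ∀ i, w i ∈ maximalIdeal R) (i j : Fin 2) :
    frob e q w i j - e * (1 : Matrix (Fin 2) (Fin 2) R) i j ∈ maximalIdeal R := by
  obtain ⟨-, h1⟩ := sq_spec h2 (rad_mem hq hw)
  have : frob e q w i j - e * (1 : Matrix (Fin 2) (Fin 2) R) i j =
      e * ((sq (rad q w) - 1) * (1 : Matrix (Fin 2) (Fin 2) R) i j + tm w i j) := by
    simp only [frob, Matrix.smul_apply, Matrix.add_apply, smul_eq_mul]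
    ring
  rw [this]
  refine Ideal.mul_mem_left _ _ (Ideal.add_mem _ (Ideal.mul_mem_right _ _ h1) ?_)
  fin_cases i <;> fin_cases j
  · exact hw 0
  · exact hw 1
  · exact (neg_mem_iff (S := Ideal R)).mpr (hw 2)
  · exact (neg_mem_iff (S := Ideal R)).mpr (hw 0)

/-- Recognising `frob`. -/
lemma eq_frob (h2 : IsUnit (2 : R)) {e : R} (he : e ^ 2 = 1) {q : ℕ}
    {F : Matrix (Fin 2) (Fin 2) R} (hdet : F.det = q)
    (hF : ∀ i j, F i j - e * (1 : Matrix (Fin 2) (Fin 2) R) i j ∈ maximalIdeal R)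
    {w : Fin 3 → R} (h0 : 2 * w 0 = e * (F 0 0 - F 1 1)) (h1 : w 1 = e * F 0 1)
    (h3 : w 2 = -(e * F 1 0)) : F = frob e q w := by
  obtain ⟨c, hc⟩ := h2
  have hc1 : 2 * (↑c⁻¹ : R) = 1 := by rw [← hc]; exact c.mul_inv
  have h2 : IsUnit (2 : R) := ⟨c, hc⟩
  set a : R := e * ((↑c⁻¹ : R) * (F 0 0 + F 1 1)) with ha
  have ha2 : 2 * a = e * (F 0 0 + F 1 1) := by
    rw [ha]
    linear_combination e * (F 0 0 + F 1 1) * hc1
  have hdet' : F 0 0 * F 1 1 - F 0 1 * F 1 0 = q := by rw [← hdet, Matrix.det_fin_two]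
  have h4 : (4 : R) * (a ^ 2 - rad q w) = 0 := by
    rw [rad, h1, h3]
    have : (4 : R) * (a ^ 2 - ((q : R) + w 0 ^ 2 - (e * F 0 1) * -(e * F 1 0))) =
      (2 * a) ^ 2 - 4 * q - (2 * w 0) ^ 2 - 4 * e ^ 2 * (F 0 1 * F 1 0) := by ring
    rw [this, ha2, h0]
    linear_combination (4 * (F 0 0 * F 1 1) - 4 * (F 0 1 * F 1 0)) * he + 4 * hdet'
  have h5 : a ^ 2 = rad q w := by
    have h6 : IsUnit (4 : R) := by
      have := h2.mul h2
      norm_num at this
      exact this
    exact sub_eq_zero.mp ((h6.mul_right_eq_zero).mp h4)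
  have h6 : a - 1 ∈ maximalIdeal R := by
    have e1 := hF 0 0
    have e2 := hF 1 1
    rw [Matrix.one_apply_eq, mul_one] at e1 e2
    have : a - 1 = (↑c⁻¹ : R) * e * ((F 0 0 - e) + (F 1 1 - e)) := by
      rw [ha]
      linear_combination hc1 + (2 * (↑c⁻¹ : R)) * he
    rw [this]
    exact Ideal.mul_mem_left _ _ (Ideal.add_mem _ e1 e2)
  have h7 := eq_sq h2 h5 h6
  have hh : ∀ x y : R, 2 * x = 2 * y → x = y := fun x y hxy => h2.mul_right_injective hxy
  ext i j
  rw [frob, ← h7]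
  fin_cases i <;> fin_cases j
  · simp [tm]
    refine hh _ _ ?_
    linear_combination (-e) * ha2 - e * h0 - (2 * F 0 0) * he
  · simp [tm]
    linear_combination (-e) * h1 - (F 0 1) * he
  · simp [tm]
    linear_combination (e) * h3 - (F 1 0) * he
  · simp [tm]
    refine hh _ _ ?_
    linear_combination (-e) * ha2 + e * h0 - (2 * F 1 1) * he

lemma map_frob {R' : Type} [CommRing R'] [IsLocalRing R'] [IsAdicComplete (maximalIdeal R') R']
    (h2 : IsUnit (2 : R)) (g : R →+* R') (hg : ∀ x ∈ maximalIdeal R, g x ∈ maximalIdeal R')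
    (e : R) {q : ℕ} (hq : (q : R) - 1 ∈ maximalIdeal R) {w : Fin 3 → R}
    (hw : ∀ i, w i ∈ maximalIdeal R) :
    (frob e q w).map g = frob (g e) q (fun i => g (w i)) := by
  have h1 : g (sq (rad q w)) = sq (rad q (fun i => g (w i))) := by
    rw [map_sq h2 g hg (rad_mem hq hw)]
    congr 1
    simp [rad]
  ext i j
  rw [Matrix.map_apply, frob, frob, Matrix.smul_apply, Matrix.smul_apply, smul_eq_mul, smul_eq_mul,
    map_mul, Matrix.add_apply, Matrix.add_apply, map_add, Matrix.smul_apply, Matrix.smul_apply,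
    smul_eq_mul, smul_eq_mul, map_mul, h1]
  congr 2
  · congr 1
    rw [Matrix.one_apply, Matrix.one_apply]
    split_ifs <;> simp
  · fin_cases i <;> fin_cases j <;> simp [tm]

end Frob

end Fermat.Agent.LocRing
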