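import Mathlib
import Fermat.Agent.LocRing.Quot

set_option autoImplicit false
set_option linter.unusedSectionVars false

/-!
# The relations with nontrivial inertial type
-/

namespace Fermat.Agent.LocRing

open IsLocalRing Fermat.Agent.S53rep Matrix

section Gen

variable {𝒪 : Type} [CommRing 𝒪] [IsDomain 𝒪] [IsDiscreteValuationRing 𝒪]
  [IsAdicComplete (maximalIdeal 𝒪) 𝒪]
variable {ι τ β : Type} [Fintype ι] [Fintype τ] [Fintype β]

/-- The general lemma, with one scaling factor for each `v`. -/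
theorem ev_eq_zero_of_Psi' {B : Type} [CommRing B] [IsDomain B] [IsLocalRing B]
    [IsNoetherianRing B] [IsAdicComplete (maximalIdeal B) B] [Algebra 𝒪 B]
    [IsLocalHom (algebraMap 𝒪 B)]
    (δ : ι → 𝒪) (hδ : ∀ v, δ v ∈ maximalIdeal 𝒪) (idx : β → ι)
    (ω : β → MvPolynomial (ι × Fin 2) 𝒪) (g : β → MvPolynomial (ι × Fin 3) 𝒪)
    (γ : ι → MvPowerSeries (ι × Fin 2 ⊕ (τ ⊕ ι)) 𝒪)
    (hγ : ∀ j, MvPolynomial.aeval (fun p => Quadric.val (τ ⊕ ι) δ (Sum.inl p)) (g j) =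
      γ (idx j) * rn Sum.inl (ω j))
    (b : ι × Fin 3 ⊕ (τ ⊕ β) → B) (hb : ∀ s, b s ∈ maximalIdeal B)
    (hq : ∀ v, b (Sum.inl (v, 0)) ^ 2 - b (Sum.inl (v, 1)) * b (Sum.inl (v, 2)) =
      algebraMap 𝒪 B (δ v) ^ 2)
    (c : ι → B) (hc : ∀ v, c v ≠ 0) (u : ι → B)
    (hu : ∀ j, c (idx j) * b (Sum.inr (Sum.inr j)) =
      u (idx j) * MvPolynomial.aeval (fun p => b (Sum.inl p)) (g j))
    {F : MvPowerSeries (ι × Fin 3 ⊕ (τ ⊕ β)) 𝒪} (hF : Psi τ δ hδ idx ω F = 0) :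
    ev b hb F = 0 := by
  classical
  refine ev_eq_zero_of_Psi δ hδ idx ω g γ hγ b hb hq (∏ v, c v)
    (Finset.prod_ne_zero_iff.mpr fun v _ => hc v)
    (fun v => u v * ∏ w ∈ Finset.univ.erase v, c w) (fun j => ?_) hF
  rw [← Finset.mul_prod_erase Finset.univ c (Finset.mem_univ (idx j))]
  linear_combination (∏ w ∈ Finset.univ.erase (idx j), c w) * hu j

end Gen

/-- The variables of the source ring: coordinates on the quadrics, free coordinates, further
variables, coordinates on the lines. -/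
abbrev Src (ι κ : Type) : Type := ι × Fin 3 ⊕ ((ι × Fin 3 ⊕ κ) ⊕ ι × Fin 3)

section Rn

variable {𝒪 : Type} [CommRing 𝒪] {σ σ' : Type} (f : σ → σ')

lemma rn_add (p q : MvPolynomial σ 𝒪) : rn f (p + q) = rn f p + rn f q := by
  simp [rn]

lemma rn_mul (p q : MvPolynomial σ 𝒪) : rn f (p * q) = rn f p * rn f q := by
  simp [rn]

lemma rn_X (s : σ) : rn f (MvPolynomial.X s : MvPolynomial σ 𝒪) = MvPowerSeries.X (f s) := by
  simp [rn]

lemma rn_C (c : 𝒪) : rn f (MvPolynomial.C c : MvPolynomial σ 𝒪) = MvPowerSeries.C c := by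
  simp [rn]

lemma rn_ofNat : rn f (2 : MvPolynomial σ 𝒪) = 2 := by
  have h : (2 : MvPolynomial σ 𝒪) = MvPolynomial.C 2 := (map_ofNat MvPolynomial.C 2).symm
  rw [h, rn_C, map_ofNat]

end Rn

section Src

variable {ι κ : Type} {R : Type} [CommRing R]

/-- Quadric coordinates. -/
def qd (b : Src ι κ → R) (v : ι) : Fin 3 → R := fun i => b (Sum.inl (v, i))

/-- Free coordinates. -/
def fr (b : Src ι κ → R) (v : ι) : Fin 3 → R := fun i => b (Sum.inr (Sum.inl (Sum.inl (v, i))))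

/-- Line coordinates. -/
def ln (b : Src ι κ → R) (v : ι) : Fin 3 → R := fun i => b (Sum.inr (Sum.inr (v, i)))

/-- Further coordinates. -/
def kp (b : Src ι κ → R) (t : κ) : R := b (Sum.inr (Sum.inl (Sum.inr t)))

/-- Assembling a point. -/
def mkSrc (Q F L : ι → Fin 3 → R) (u : κ → R) : Src ι κ → R :=
  Sum.elim (fun p => Q p.1 p.2) (Sum.elim (Sum.elim (fun p => F p.1 p.2) u) (fun p => L p.1 p.2))

@[simp] lemma qd_mkSrc (Q F L : ι → Fin 3 → R) (u : κ → R) : qd (mkSrc Q F L u) = Q := rfl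
@[simp] lemma fr_mkSrc (Q F L : ι → Fin 3 → R) (u : κ → R) : fr (mkSrc Q F L u) = F := rfl
@[simp] lemma ln_mkSrc (Q F L : ι → Fin 3 → R) (u : κ → R) : ln (mkSrc Q F L u) = L := rfl
@[simp] lemma kp_mkSrc (Q F L : ι → Fin 3 → R) (u : κ → R) : kp (mkSrc Q F L u) = u := rfl

lemma mkSrc_mem [IsLocalRing R] {Q F L : ι → Fin 3 → R} {u : κ → R}
    (hQ : ∀ v i, Q v i ∈ maximalIdeal R) (hF : ∀ v i, F v i ∈ maximalIdeal R)
    (hL : ∀ v i, L v i ∈ maximalIdeal R) (hu : ∀ t, u t ∈ maximalIdeal R) (s : Src ι κ) :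
    mkSrc Q F L u s ∈ maximalIdeal R := by
  rcases s with p | (p | t) | p
  · exact hQ _ _
  · exact hF _ _
  · exact hu _
  · exact hL _ _

/-- The tautological point. -/
noncomputable def Xs (𝒪 : Type) [CommRing 𝒪] (ι κ : Type) : Src ι κ → MvPowerSeries (Src ι κ) 𝒪 :=
  MvPowerSeries.X

end Src

section TmLemmas

variable {R : Type} [CommRing R]

lemma tm_mem [IsLocalRing R] {w : Fin 3 → R} (hw : ∀ i, w i ∈ maximalIdeal R) (i j : Fin 2) :
    tm w i j ∈ maximalIdeal R := by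
  fin_cases i <;> fin_cases j
  · exact hw 0
  · exact hw 1
  · exact (neg_mem_iff (S := Ideal R)).mpr (hw 2)
  · exact (neg_mem_iff (S := Ideal R)).mpr (hw 0)

lemma map_tm {R' : Type} [CommRing R'] (g : R →+* R') (w : Fin 3 → R) :
    (tm w).map g = tm (fun i => g (w i)) := by
  ext i j
  fin_cases i <;> fin_cases j <;> simp [tm]

end TmLemmas

section ChiMap

variable {R : Type} [CommRing R]

/-- The inertia matrix in the case of nontrivial type. -/
def sgc (t : R) (w : Fin 3 → R) : Matrix (Fin 2) (Fin 2) R :=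
  t • (1 : Matrix (Fin 2) (Fin 2) R) + tm w

lemma sgc_mem [IsLocalRing R] {t : R} (ht : t - 1 ∈ maximalIdeal R) {w : Fin 3 → R}
    (hw : ∀ i, w i ∈ maximalIdeal R) (i j : Fin 2) :
    sgc t w i j - (1 : Matrix (Fin 2) (Fin 2) R) i j ∈ maximalIdeal R := by
  have : sgc t w i j - (1 : Matrix (Fin 2) (Fin 2) R) i j =
      (t - 1) * (1 : Matrix (Fin 2) (Fin 2) R) i j + tm w i j := by
    simp only [sgc, Matrix.add_apply, Matrix.smul_apply, smul_eq_mul]
    ring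
  rw [this]
  exact Ideal.add_mem _ (Ideal.mul_mem_right _ _ ht) (tm_mem hw i j)

lemma map_sgc {R' : Type} [CommRing R'] (g : R →+* R') (t : R) (w : Fin 3 → R) :
    (sgc t w).map g = sgc (g t) (fun i => g (w i)) := by
  ext i j
  fin_cases i <;> fin_cases j <;> simp [sgc, tm]

lemma det_sgc (t : R) (w : Fin 3 → R) : (sgc t w).det = t ^ 2 - w 0 ^ 2 + w 1 * w 2 := by
  rw [sgc, Matrix.det_fin_two]
  simp [tm]
  ring

lemma trace_sgc (t : R) (w : Fin 3 → R) : (sgc t w).trace = 2 * t := by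
  rw [sgc, Matrix.trace_fin_two]
  simp [tm]
  ring

end ChiMap

section Chi

variable {𝒪 : Type} [CommRing 𝒪] [IsDomain 𝒪] [IsDiscreteValuationRing 𝒪]
  [IsAdicComplete (maximalIdeal 𝒪) 𝒪]
variable {ι κ : Type} [Fintype ι] [Fintype κ]

lemma Xs_mem (s : Src ι κ) : Xs 𝒪 ι κ s ∈ maximalIdeal (MvPowerSeries (Src ι κ) 𝒪) :=
  X_mem_maximalIdeal s

lemma C_sub_one_mem {σ : Type} {a : 𝒪} (ha : a - 1 ∈ maximalIdeal 𝒪) :
    (MvPowerSeries.C a : MvPowerSeries σ 𝒪) - 1 ∈ maximalIdeal (MvPowerSeries σ 𝒪) := by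
  rw [mem_maximalIdeal_mvPowerSeries_iff, map_sub, MvPowerSeries.constantCoeff_C, map_one]
  exact ha

lemma natCast_sub_one_mem {R : Type} [CommRing R] [IsLocalRing R] [Algebra 𝒪 R]
    [IsLocalHom (algebraMap 𝒪 R)] {q : ℕ} (hq : (q : 𝒪) - 1 ∈ maximalIdeal 𝒪) :
    (q : R) - 1 ∈ maximalIdeal R := by
  have := map_maximalIdeal_le (algebraMap 𝒪 R) (Ideal.mem_map_of_mem _ hq)
  rwa [map_sub, map_natCast, map_one] at this

lemma two_unit {R : Type} [CommRing R] [Algebra 𝒪 R] (h2 : IsUnit (2 : 𝒪)) :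
    IsUnit (2 : R) := by
  have := h2.map (algebraMap 𝒪 R)
  rwa [map_ofNat] at this

/-- The map to the source ring in the case of nontrivial type. -/
noncomputable def toChi (κ : Type) [Fintype κ] (h2 : IsUnit (2 : 𝒪)) (q : ι → ℕ) (ε t : ι → 𝒪)
    (hq : ∀ v, (q v : 𝒪) - 1 ∈ maximalIdeal 𝒪) (ht : ∀ v, t v - 1 ∈ maximalIdeal 𝒪) :
    Lam 𝒪 ι κ →ₐ[𝒪] MvPowerSeries (Src ι κ) 𝒪 :=
  evM ε (fun v => sgc (MvPowerSeries.C (t v)) (qd (Xs 𝒪 ι κ) v))
    (fun v => frob (algebraMap 𝒪 _ (ε v)) (q v) (ln (Xs 𝒪 ι κ) v)) (kp (Xs 𝒪 ι κ))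
    (fun v i j => sgc_mem (C_sub_one_mem (ht v)) (fun _ => Xs_mem _) i j)
    (fun v i j => frob_mem (two_unit h2) _ (natCast_sub_one_mem (hq v)) (fun _ => Xs_mem _) i j)
    (fun _ => Xs_mem _)

/-- The polynomials describing the lines in the case of nontrivial type. -/
noncomputable def omc (δ : ι → 𝒪) : ι × Fin 3 → MvPolynomial (ι × Fin 2) 𝒪 := fun p =>
  ![MvPolynomial.C (δ p.1) + MvPolynomial.X (p.1, 0) * MvPolynomial.X (p.1, 1),
    MvPolynomial.X (p.1, 0),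
    MvPolynomial.X (p.1, 1) * (2 * MvPolynomial.C (δ p.1) +
      MvPolynomial.X (p.1, 0) * MvPolynomial.X (p.1, 1))] p.2

/-- The parametrisation of the component of nontrivial type. -/
noncomputable def parChi (κ : Type) [Fintype κ] (h2 : IsUnit (2 : 𝒪)) (q : ι → ℕ) (ε t δ : ι → 𝒪)
    (hq : ∀ v, (q v : 𝒪) - 1 ∈ maximalIdeal 𝒪) (ht : ∀ v, t v - 1 ∈ maximalIdeal 𝒪)
    (hδ : ∀ v, δ v ∈ maximalIdeal 𝒪) :
    Lam 𝒪 ι κ →ₐ[𝒪] MvPowerSeries (ι × Fin 2 ⊕ ((ι × Fin 3 ⊕ κ) ⊕ ι)) 𝒪 :=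
  (Psi (ι × Fin 3 ⊕ κ) δ hδ Prod.fst (omc δ)).comp (toChi κ h2 q ε t hq ht)

/-- The generic point of the locus of nontrivial type. -/
noncomputable def Qchi (κ : Type) [Fintype κ] (h2 : IsUnit (2 : 𝒪)) (q : ι → ℕ) (ε t δ : ι → 𝒪)
    (hq : ∀ v, (q v : 𝒪) - 1 ∈ maximalIdeal 𝒪) (ht : ∀ v, t v - 1 ∈ maximalIdeal 𝒪)
    (hδ : ∀ v, δ v ∈ maximalIdeal 𝒪) : Ideal (Lam 𝒪 ι κ) :=
  RingHom.ker (parChi κ h2 q ε t δ hq ht hδ)

variable (h2 : IsUnit (2 : 𝒪)) (q : ι → ℕ) (ε t δ : ι → 𝒪)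
    (hq : ∀ v, (q v : 𝒪) - 1 ∈ maximalIdeal 𝒪) (ht : ∀ v, t v - 1 ∈ maximalIdeal 𝒪)
    (hδ : ∀ v, δ v ∈ maximalIdeal 𝒪)

lemma mS_toChi (v : ι) : mS (toChi κ h2 q ε t hq ht) v =
    sgc (MvPowerSeries.C (t v)) (qd (Xs 𝒪 ι κ) v) := mS_evM v

lemma mF_toChi (v : ι) : mF ε (toChi κ h2 q ε t hq ht) v =
    frob (algebraMap 𝒪 _ (ε v)) (q v) (ln (Xs 𝒪 ι κ) v) := mF_evM v

lemma toChi_inr (s : κ) : toChi κ h2 q ε t hq ht (MvPowerSeries.X (Sum.inr s)) =
    kp (Xs 𝒪 ι κ) s := evM_inr s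

lemma rn_omc (δ : ι → 𝒪) (p : ι × Fin 3) : rn (Sum.inl : _ → ι × Fin 2 ⊕ ((ι × Fin 3 ⊕ κ) ⊕ ι))
    (omc δ p) = Quadric.val ((ι × Fin 3 ⊕ κ) ⊕ ι) δ (Sum.inl p) := by
  obtain ⟨v, i⟩ := p
  fin_cases i
  · simp [Quadric.val, omc, rn_add, rn_mul, rn_X, rn_C]
  · simp [Quadric.val, omc, rn_X]
  · simp [Quadric.val, omc, rn_add, rn_mul, rn_X, rn_C, rn_ofNat]

instance isDomain_mvPowerSeries {σ : Type} {R : Type} [CommRing R] [IsDomain R] :
    IsDomain (MvPowerSeries σ R) := NoZeroDivisors.to_isDomain _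

theorem Qchi_isPrime : (Qchi κ h2 q ε t δ hq ht hδ).IsPrime :=
  RingHom.ker_isPrime _

/-- **Irreducibility of the locus of nontrivial type** (evaluation form). -/
theorem Qchi_le_ker (hε : ∀ v, ε v ^ 2 = 1) (htδ : ∀ v, t v ^ 2 - δ v ^ 2 = 1)
    (hδ0 : ∀ v, δ v ≠ 0)
    (hp1 : ∀ v, (t v + δ v) ^ q v = t v + δ v) (hp2 : ∀ v, (t v - δ v) ^ q v = t v - δ v)
    {B : Type} [CommRing B] [IsDomain B] [IsLocalRing B]
    [IsNoetherianRing B] [IsAdicComplete (maximalIdeal B) B] [Algebra 𝒪 B]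
    [IsLocalHom (algebraMap 𝒪 B)] (h : Lam 𝒪 ι κ →ₐ[𝒪] B)
    (hm : ∀ s, h (MvPowerSeries.X s) ∈ maximalIdeal B)
    (hinj : Function.Injective (algebraMap 𝒪 B))
    (hI : locI κ q ε (fun v => 2 * t v) ≤ RingHom.ker h) :
    Qchi κ h2 q ε t δ hq ht hδ ≤ RingHom.ker h := by
  classical
  rw [locI_le_ker_iff] at hI
  have h2B : IsUnit (2 : B) := two_unit h2
  obtain ⟨c2, hc2⟩ := h2B
  have hc21 : 2 * (↑c2⁻¹ : B) = 1 := by rw [← hc2]; exact c2.mul_inv
  have h2B : IsUnit (2 : B) := ⟨c2, hc2⟩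
  have hcanc : ∀ x y : B, 2 * x = 2 * y → x = y := fun x y hxy => h2B.mul_right_injective hxy
  -- abbreviations
  set S := fun v => mS h v with hS
  set F := fun v => mF ε h v with hF
  set al := algebraMap 𝒪 B with hal
  have hSm : ∀ v i j, S v i j - (1 : Matrix (Fin 2) (Fin 2) B) i j ∈ maximalIdeal B := by
    intro v i j
    rw [hS]
    simp only [mS_apply, add_sub_cancel_left]
    exact hm _
  have hFm : ∀ v i j, F v i j - al (ε v) * (1 : Matrix (Fin 2) (Fin 2) B) i j ∈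
      maximalIdeal B := by
    intro v i j
    change mF ε h v i j - _ ∈ _
    rw [mF_apply, add_sub_cancel_left]
    exact hm _
  have hal' : ∀ x ∈ maximalIdeal 𝒪, al x ∈ maximalIdeal B := fun x hx =>
    map_maximalIdeal_le al (Ideal.mem_map_of_mem _ hx)
  have hεB : ∀ v, al (ε v) ^ 2 = 1 := fun v => by rw [← map_pow, hε, map_one]
  have hdet : ∀ v, (S v).det = 1 := fun v => (hI v).1
  have hdetF : ∀ v, (F v).det = (q v : B) := fun v => (hI v).2.1
  have htr : ∀ v, (S v).trace = 2 * al (t v) := fun v => by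
    rw [hS]; rw [(hI v).2.2.1, map_mul, map_ofNat]
  have htδB : ∀ v, al (t v) ^ 2 - al (δ v) ^ 2 = 1 := fun v => by
    rw [← map_pow, ← map_pow, ← map_sub, htδ, map_one]
  have hpow : ∀ v, (S v) ^ (q v) = S v := by
    intro v
    refine pow_eq_self (ζ := al (t v + δ v)) (ζ' := al (t v - δ v)) ?_ ?_ ?_ ?_ ?_
    · rw [htr, map_add, map_sub]; ring
    · rw [hdet, map_add, map_sub, ← htδB v]; ring
    · intro heq
      have h1 := hinj heq
      have h3 : 2 * δ v = 0 := by linear_combination h1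
      rcases mul_eq_zero.mp h3 with h4 | h4
      · exact h2.ne_zero h4
      · exact hδ0 v h4
    · rw [← map_pow, hp1]
    · rw [← map_pow, hp2]
  have hcomm : ∀ v, F v * S v = S v * F v := fun v => by
    have := (hI v).2.2.2
    rw [hS, hF]
    rw [this]
    have h3 := hpow v
    rw [hS] at h3
    rw [h3]
  -- coordinates
  set Q : ι → Fin 3 → B := fun v => ![S v 0 0 - al (t v), S v 0 1, -(S v 1 0)] with hQ
  set L : ι → Fin 3 → B := fun v => ![al (ε v) * (↑c2⁻¹ * (F v 0 0 - F v 1 1)),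
    al (ε v) * F v 0 1, -(al (ε v) * F v 1 0)] with hL
  have hQm : ∀ v i, Q v i ∈ maximalIdeal B := by
    intro v i
    fin_cases i
    · have e1 := hSm v 0 0
      rw [Matrix.one_apply_eq] at e1
      have e2 := hal' _ (ht v)
      rw [map_sub, map_one] at e2
      have : Q v 0 = (S v 0 0 - 1) - (al (t v) - 1) := by
        simp only [hQ, Matrix.cons_val_zero]; ring
      change Q v 0 ∈ _
      rw [this]
      exact Ideal.sub_mem _ e1 e2
    · have e1 := hSm v 0 1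
      rw [Matrix.one_apply_ne (by decide), sub_zero] at e1
      exact e1
    · have e1 := hSm v 1 0
      rw [Matrix.one_apply_ne (by decide), sub_zero] at e1
      exact (neg_mem_iff (S := Ideal B)).mpr e1
  have hLm : ∀ v i, L v i ∈ maximalIdeal B := by
    intro v i
    fin_cases i
    · have e1 := hFm v 0 0
      have e2 := hFm v 1 1
      rw [Matrix.one_apply_eq] at e1 e2
      have : L v 0 = al (ε v) * ↑c2⁻¹ * ((F v 0 0 - al (ε v) * 1) - (F v 1 1 - al (ε v) * 1)) := by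
        simp only [hL, Matrix.cons_val_zero]; ring
      change L v 0 ∈ _
      rw [this]
      exact Ideal.mul_mem_left _ _ (Ideal.sub_mem _ e1 e2)
    · have e1 := hFm v 0 1
      rw [Matrix.one_apply_ne (by decide), mul_zero, sub_zero] at e1
      exact Ideal.mul_mem_left _ _ e1
    · have e1 := hFm v 1 0
      rw [Matrix.one_apply_ne (by decide), mul_zero, sub_zero] at e1
      exact (neg_mem_iff (S := Ideal B)).mpr (Ideal.mul_mem_left _ _ e1)
  have hum : ∀ t, h (MvPowerSeries.X (Sum.inr t)) ∈ maximalIdeal B := fun t => hm _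
  let b : Src ι κ → B := mkSrc Q (fun _ _ => 0) L (fun t => h (MvPowerSeries.X (Sum.inr t)))
  have hb : ∀ s, b s ∈ maximalIdeal B :=
    mkSrc_mem hQm (fun _ _ => Ideal.zero_mem _) hLm hum
  -- the factorisation
  have hfac : (ev b hb).comp (toChi κ h2 q ε t hq ht) = h := by
    symm
    refine algHom_ext_mat (maximalIdeal B) ε hm ?_ ?_ ?_
    · intro v
      rw [mS_comp, mS_toChi]
      have e1 := map_sgc ((ev b hb : MvPowerSeries (Src ι κ) 𝒪 →ₐ[𝒪] B) : _ →+* B)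
        (MvPowerSeries.C (t v)) (qd (Xs 𝒪 ι κ) v)
      have e2 : (sgc (MvPowerSeries.C (t v)) (qd (Xs 𝒪 ι κ) v)).map
          (ev b hb : MvPowerSeries (Src ι κ) 𝒪 →ₐ[𝒪] B) = sgc (al (t v)) (Q v) := by
        refine e1.trans ?_
        congr 1
        · simp [hal]
        · funext i
          simp [qd, Xs, b, mkSrc]
      rw [e2]
      have htr' := htr v
      rw [Matrix.trace_fin_two] at htr'
      change S v = _
      ext i j
      fin_cases i <;> fin_cases j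
      · simp [sgc, tm, hQ]
      · simp [sgc, tm, hQ]
      · simp [sgc, tm, hQ]
      · simp [sgc, tm, hQ]
        linear_combination htr'
    · intro v
      rw [mF_comp, mF_toChi]
      have e1 := map_frob (two_unit h2) ((ev b hb : MvPowerSeries (Src ι κ) 𝒪 →ₐ[𝒪] B) : _ →+* B)
        (fun x hx => mem_maximalIdeal_of_mem _ (fun s => by rw [ev_X]; exact hb s) hx)
        (algebraMap 𝒪 (MvPowerSeries (Src ι κ) 𝒪) (ε v)) (natCast_sub_one_mem (hq v))
        (w := ln (Xs 𝒪 ι κ) v) (fun _ => Xs_mem _)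
      have e2 : (frob (algebraMap 𝒪 _ (ε v)) (q v) (ln (Xs 𝒪 ι κ) v)).map
          (ev b hb : MvPowerSeries (Src ι κ) 𝒪 →ₐ[𝒪] B) = frob (al (ε v)) (q v) (L v) := by
        refine e1.trans ?_
        congr 1
        · simp [hal]
        · funext i
          simp [ln, Xs, b, mkSrc]
      rw [e2]
      change F v = _
      refine eq_frob h2B (hεB v) (hdetF v) (hFm v) ?_ ?_ ?_
      · simp only [hL, Matrix.cons_val_zero]
        linear_combination al (ε v) * (F v 0 0 - F v 1 1) * hc21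
      · simp only [hL, Matrix.cons_val_one, Matrix.cons_val_zero]
      · simp only [hL, Matrix.cons_val]
    · intro s
      rw [AlgHom.comp_apply, toChi_inr]
      simp [kp, Xs, b, mkSrc]
  intro f hf
  rw [RingHom.mem_ker, ← hfac]
  rw [Qchi, RingHom.mem_ker, parChi, AlgHom.comp_apply] at hf
  change ev b hb (toChi κ h2 q ε t hq ht f) = 0
  have hSdet : ∀ v, S v 0 0 * S v 1 1 - S v 0 1 * S v 1 0 = 1 := fun v => by
    rw [← hdet v, Matrix.det_fin_two]
  have hStr : ∀ v, S v 0 0 + S v 1 1 = 2 * al (t v) := fun v => by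
    rw [← htr v, Matrix.trace_fin_two]
  refine ev_eq_zero_of_Psi' δ hδ Prod.fst (omc δ) (fun p => MvPolynomial.X p)
    (fun _ => 1) ?_ b hb ?_ (fun v => al (δ v) ^ 2) ?_
    (fun v => Q v 0 * L v 0 - ↑c2⁻¹ * (Q v 1 * L v 2 + Q v 2 * L v 1)) ?_ hf
  · rintro ⟨v, i⟩
    rw [MvPolynomial.aeval_X, one_mul, rn_omc]
  · intro v
    change Q v 0 ^ 2 - Q v 1 * Q v 2 = _
    simp only [hQ, Matrix.cons_val_zero, Matrix.cons_val_one, Matrix.cons_val]
    linear_combination (-1 : B) * hSdet v + (S v 0 0) * hStr v + htδB v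
  · intro v
    refine pow_ne_zero 2 ?_
    intro h0
    exact hδ0 v (hinj (by rw [map_zero]; exact h0))
  · rintro ⟨v, i⟩
    rw [MvPolynomial.aeval_X]
    -- the commutation relations
    have hc := hcomm v
    have c00 := congrFun (congrFun hc 0) 0
    have c01 := congrFun (congrFun hc 0) 1
    have c10 := congrFun (congrFun hc 1) 0
    simp only [Matrix.mul_apply, Fin.sum_univ_two] at c00 c01 c10
    have q1 : Q v 1 * L v 2 = Q v 2 * L v 1 := by
      simp only [hQ, hL, Matrix.cons_val_one, Matrix.cons_val]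
      linear_combination al (ε v) * c00
    have q2 : Q v 0 * L v 1 = Q v 1 * L v 0 := by
      apply hcanc
      simp only [hQ, hL, Matrix.cons_val_zero, Matrix.cons_val_one]
      linear_combination (-al (ε v)) * c01 + al (ε v) * F v 0 1 * hStr v -
        al (ε v) * S v 0 1 * (F v 0 0 - F v 1 1) * hc21
    have q3 : Q v 0 * L v 2 = Q v 2 * L v 0 := by
      apply hcanc
      simp only [hQ, hL, Matrix.cons_val_zero, Matrix.cons_val]
      linear_combination (-al (ε v)) * c10 - al (ε v) * F v 1 0 * hStr v +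
        al (ε v) * S v 1 0 * (F v 0 0 - F v 1 1) * hc21
    have hq0 : Q v 0 ^ 2 - Q v 1 * Q v 2 = al (δ v) ^ 2 := by
      simp only [hQ, Matrix.cons_val_zero, Matrix.cons_val_one, Matrix.cons_val]
      linear_combination (-1 : B) * hSdet v + (S v 0 0) * hStr v + htδB v
    fin_cases i
    · change al (δ v) ^ 2 * L v 0 = (Q v 0 * L v 0 - ↑c2⁻¹ * (Q v 1 * L v 2 + Q v 2 * L v 1)) * Q v 0
      rw [← hq0]
      linear_combination Q v 2 * q2 + ↑c2⁻¹ * Q v 0 * q1 + Q v 0 * Q v 2 * L v 1 * hc21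
    · change al (δ v) ^ 2 * L v 1 = (Q v 0 * L v 0 - ↑c2⁻¹ * (Q v 1 * L v 2 + Q v 2 * L v 1)) * Q v 1
      rw [← hq0]
      linear_combination Q v 0 * q2 + ↑c2⁻¹ * Q v 1 * q1 + Q v 1 * Q v 2 * L v 1 * hc21
    · change al (δ v) ^ 2 * L v 2 = (Q v 0 * L v 0 - ↑c2⁻¹ * (Q v 1 * L v 2 + Q v 2 * L v 1)) * Q v 2
      rw [← hq0]
      linear_combination Q v 0 * q3 - ↑c2⁻¹ * Q v 2 * q1 + Q v 1 * Q v 2 * L v 2 * hc21

end Chi

end Fermat.Agent.LocRing
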