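import Mathlib
import Fermat.Agent.LocRing.Chi

set_option autoImplicit false
set_option linter.unusedSectionVars false

/-!
# The relations with unipotent inertia: the components
-/

namespace Fermat.Agent.LocRing

open IsLocalRing Fermat.Agent.S53rep Matrix

section Npr

variable {R : Type} [CommRing R]

/-- The matrix `B + η`. -/
def plusM (η : R) (w : Fin 3 → R) : Matrix (Fin 2) (Fin 2) R := sgc η w

/-- The matrix `B - η`. -/
def minusM (η : R) (w : Fin 3 → R) : Matrix (Fin 2) (Fin 2) R := sgc (-η) w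

/-- The coordinates of `(B + η) E_{i₀ j₀} (B - η)`. -/
def npr (η : R) (w : Fin 3 → R) (i₀ j₀ : Fin 2) : Fin 3 → R :=
  ![plusM η w 0 i₀ * minusM η w j₀ 0, plusM η w 0 i₀ * minusM η w j₀ 1,
    -(plusM η w 1 i₀ * minusM η w j₀ 0)]

lemma map_npr {R' : Type} [CommRing R'] (g : R →+* R') (η : R) (w : Fin 3 → R) (i₀ j₀ : Fin 2)
    (i : Fin 3) : g (npr η w i₀ j₀ i) = npr (g η) (fun i => g (w i)) i₀ j₀ i := by
  have h1 : ∀ a b, g (plusM η w a b) = plusM (g η) (fun i => g (w i)) a b := fun a b => by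
    have := congrFun (congrFun (map_sgc g η w) a) b
    exact this
  have h2 : ∀ a b, g (minusM η w a b) = minusM (g η) (fun i => g (w i)) a b := fun a b => by
    have := congrFun (congrFun (map_sgc g (-η) w) a) b
    rw [map_neg] at this
    exact this
  fin_cases i
  · simp [npr, h1, h2]
  · simp [npr, h1, h2]
  · simp [npr, h1, h2]

/-- The first factor of `γ`. -/
def rhoF (η E W : R) : Fin 2 → R := ![2 * η + E * W, E]

/-- The second factor of `γ`. -/
def lamF (η E W : R) : Fin 2 → R := ![E, -(2 * η + E * W)]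

lemma npr_val (η E W : R) (i₀ j₀ : Fin 2) (i : Fin 3) :
    npr η ![η + E * W, E, W * (2 * η + E * W)] i₀ j₀ i =
      (rhoF η E W i₀ * lamF η E W j₀) * (![W, 1, W ^ 2] : Fin 3 → R) i := by
  fin_cases i₀ <;> fin_cases j₀ <;> fin_cases i <;>
    simp [npr, plusM, minusM, sgc, tm, rhoF, lamF] <;> ring

end Npr

section One

variable {𝒪 : Type} [CommRing 𝒪] [IsDomain 𝒪] [IsDiscreteValuationRing 𝒪]
  [IsAdicComplete (maximalIdeal 𝒪) 𝒪]
variable {ι κ : Type} [Fintype ι] [Fintype κ]

/-- The inertia matrix on the component `c`. -/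
noncomputable def oneS (𝒪 : Type) [CommRing 𝒪] (κ : Type) (c : ι → Bool) (v : ι) :
    Matrix (Fin 2) (Fin 2) (MvPowerSeries (Src ι κ) 𝒪) :=
  if c v then sgc 1 (ln (Xs 𝒪 ι κ) v) else 1

/-- The Frobenius matrix on the component `c`. -/
noncomputable def oneF (κ : Type) (q : ι → ℕ) (ε η : ι → 𝒪) (c : ι → Bool) (v : ι) :
    Matrix (Fin 2) (Fin 2) (MvPowerSeries (Src ι κ) 𝒪) :=
  if c v then algebraMap 𝒪 (MvPowerSeries (Src ι κ) 𝒪) (ε v) •
    sgc (algebraMap 𝒪 (MvPowerSeries (Src ι κ) 𝒪) (η v + 1)) (qd (Xs 𝒪 ι κ) v)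
  else frob (algebraMap 𝒪 _ (ε v)) (q v) (fr (Xs 𝒪 ι κ) v)

lemma oneS_mem (c : ι → Bool) (v : ι) (i j : Fin 2) :
    oneS 𝒪 κ c v i j - (1 : Matrix (Fin 2) (Fin 2) (MvPowerSeries (Src ι κ) 𝒪)) i j ∈
      maximalIdeal (MvPowerSeries (Src ι κ) 𝒪) := by
  rw [oneS]
  split_ifs
  · exact sgc_mem (by rw [sub_self]; exact Ideal.zero_mem _) (fun _ => Xs_mem _) i j
  · rw [sub_self]; exact Ideal.zero_mem _

lemma oneF_mem (h2 : IsUnit (2 : 𝒪)) (q : ι → ℕ) (ε η : ι → 𝒪)
    (hq : ∀ v, (q v : 𝒪) - 1 ∈ maximalIdeal 𝒪) (hη : ∀ v, η v ∈ maximalIdeal 𝒪)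
    (c : ι → Bool) (v : ι) (i j : Fin 2) :
    oneF κ q ε η c v i j - algebraMap 𝒪 _ (ε v) *
      (1 : Matrix (Fin 2) (Fin 2) (MvPowerSeries (Src ι κ) 𝒪)) i j ∈
      maximalIdeal (MvPowerSeries (Src ι κ) 𝒪) := by
  rw [oneF]
  split_ifs
  · rw [Matrix.smul_apply, smul_eq_mul, ← mul_sub]
    refine Ideal.mul_mem_left _ _ (sgc_mem ?_ (fun _ => Xs_mem _) i j)
    rw [map_add, map_one, add_sub_cancel_right]
    exact map_maximalIdeal_le _ (Ideal.mem_map_of_mem _ (hη v))
  · exact frob_mem (two_unit h2) _ (natCast_sub_one_mem (hq v)) (fun _ => Xs_mem _) i j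

/-- The map to the source ring for the component `c`. -/
noncomputable def toOne (κ : Type) [Fintype κ] (h2 : IsUnit (2 : 𝒪)) (q : ι → ℕ) (ε η : ι → 𝒪)
    (hq : ∀ v, (q v : 𝒪) - 1 ∈ maximalIdeal 𝒪) (hη : ∀ v, η v ∈ maximalIdeal 𝒪)
    (c : ι → Bool) : Lam 𝒪 ι κ →ₐ[𝒪] MvPowerSeries (Src ι κ) 𝒪 :=
  evM ε (oneS 𝒪 κ c) (oneF κ q ε η c) (kp (Xs 𝒪 ι κ)) (oneS_mem c)
    (oneF_mem h2 q ε η hq hη c) (fun _ => Xs_mem _)

/-- The polynomials describing the lines on the Steinberg component. -/
noncomputable def omo (𝒪 : Type) [CommRing 𝒪] (ι : Type) : ι × Fin 3 → MvPolynomial (ι × Fin 2) 𝒪 :=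
  fun p => ![MvPolynomial.X (p.1, 1), 1, MvPolynomial.X (p.1, 1) ^ 2] p.2

/-- The parametrisation of the component `c`. -/
noncomputable def parOne (κ : Type) [Fintype κ] (h2 : IsUnit (2 : 𝒪)) (q : ι → ℕ) (ε η : ι → 𝒪)
    (hq : ∀ v, (q v : 𝒪) - 1 ∈ maximalIdeal 𝒪) (hη : ∀ v, η v ∈ maximalIdeal 𝒪)
    (c : ι → Bool) :
    Lam 𝒪 ι κ →ₐ[𝒪] MvPowerSeries (ι × Fin 2 ⊕ ((ι × Fin 3 ⊕ κ) ⊕ ι)) 𝒪 :=
  (Psi (ι × Fin 3 ⊕ κ) η hη Prod.fst (omo 𝒪 ι)).comp (toOne κ h2 q ε η hq hη c)

/-- The generic point of the component `c` (`c v = false`: unramified at `v`, `c v = true`: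
Steinberg at `v`). -/
noncomputable def Pone (κ : Type) [Fintype κ] (h2 : IsUnit (2 : 𝒪)) (q : ι → ℕ) (ε η : ι → 𝒪)
    (hq : ∀ v, (q v : 𝒪) - 1 ∈ maximalIdeal 𝒪) (hη : ∀ v, η v ∈ maximalIdeal 𝒪)
    (c : ι → Bool) : Ideal (Lam 𝒪 ι κ) :=
  RingHom.ker (parOne κ h2 q ε η hq hη c)

variable (h2 : IsUnit (2 : 𝒪)) (q : ι → ℕ) (ε η : ι → 𝒪)
    (hq : ∀ v, (q v : 𝒪) - 1 ∈ maximalIdeal 𝒪) (hη : ∀ v, η v ∈ maximalIdeal 𝒪) (c : ι → Bool)

lemma mS_toOne (v : ι) : mS (toOne κ h2 q ε η hq hη c) v = oneS 𝒪 κ c v := mS_evM v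

lemma mF_toOne (v : ι) : mF ε (toOne κ h2 q ε η hq hη c) v = oneF κ q ε η c v := mF_evM v

lemma toOne_inr (s : κ) : toOne κ h2 q ε η hq hη c (MvPowerSeries.X (Sum.inr s)) =
    kp (Xs 𝒪 ι κ) s := evM_inr s

theorem Pone_isPrime : (Pone κ h2 q ε η hq hη c).IsPrime :=
  RingHom.ker_isPrime _

lemma rn_omo (p : ι × Fin 3) : rn (Sum.inl : _ → ι × Fin 2 ⊕ ((ι × Fin 3 ⊕ κ) ⊕ ι))
    (omo 𝒪 ι p) = (![MvPowerSeries.X (Sum.inl (p.1, 1)), 1,
      MvPowerSeries.X (Sum.inl (p.1, 1)) ^ 2] : Fin 3 → _) p.2 := by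
  obtain ⟨v, i⟩ := p
  have h1 : rn (Sum.inl : _ → ι × Fin 2 ⊕ ((ι × Fin 3 ⊕ κ) ⊕ ι)) (1 : MvPolynomial (ι × Fin 2) 𝒪)
      = 1 := by simp [rn]
  fin_cases i
  · simp [omo, rn_X]
  · simp [omo, h1]
  · simp [omo, rn_mul, rn_X, pow_two]

set_option maxHeartbeats 1600000 in
/-- **The components of the locus of unipotent inertia** (evaluation form). -/
theorem Pone_le_ker [CharZero 𝒪] (hε : ∀ v, ε v ^ 2 = 1) (hηq : ∀ v, 2 * η v = (q v : 𝒪) - 1)
    (hq2 : ∀ v, 2 ≤ q v)
    {B : Type} [CommRing B] [IsDomain B] [IsLocalRing B]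
    [IsNoetherianRing B] [IsAdicComplete (maximalIdeal B) B] [Algebra 𝒪 B]
    [IsLocalHom (algebraMap 𝒪 B)] (h : Lam 𝒪 ι κ →ₐ[𝒪] B)
    (hm : ∀ s, h (MvPowerSeries.X s) ∈ maximalIdeal B)
    (hinj : Function.Injective (algebraMap 𝒪 B))
    (hI : locI κ q ε (fun _ => 2) ≤ RingHom.ker h)
    (hc : ∀ v, c v = true ↔ ∃ i j, h (MvPowerSeries.X (Sum.inl ((v, false), (i, j)))) ≠ 0) :
    Pone κ h2 q ε η hq hη c ≤ RingHom.ker h := by
  classical
  rw [locI_le_ker_iff] at hI
  have h2B : IsUnit (2 : B) := two_unit h2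
  obtain ⟨c2, hc2⟩ := h2B
  have hc21 : 2 * (↑c2⁻¹ : B) = 1 := by rw [← hc2]; exact c2.mul_inv
  have h2B : IsUnit (2 : B) := ⟨c2, hc2⟩
  have hcanc : ∀ x y : B, 2 * x = 2 * y → x = y := fun x y hxy => h2B.mul_right_injective hxy
  set S := fun v => mS h v with hS
  set F := fun v => mF ε h v with hF
  set al := algebraMap 𝒪 B with hal
  have hSm : ∀ v i j, S v i j - (1 : Matrix (Fin 2) (Fin 2) B) i j ∈ maximalIdeal B := by
    intro v i j
    change mS h v i j - _ ∈ _
    rw [mS_apply, add_sub_cancel_left]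
    exact hm _
  have hFm : ∀ v i j, F v i j - al (ε v) * (1 : Matrix (Fin 2) (Fin 2) B) i j ∈
      maximalIdeal B := by
    intro v i j
    change mF ε h v i j - _ ∈ _
    rw [mF_apply, add_sub_cancel_left]
    exact hm _
  have hal' : ∀ x ∈ maximalIdeal 𝒪, al x ∈ maximalIdeal B := fun x hx =>
    map_maximalIdeal_le al (Ideal.mem_map_of_mem _ hx)
  have hεB : ∀ v, al (ε v) ^ 2 = 1 := fun v => by rw [← map_pow, hε, map_one]
  have hdet : ∀ v, (S v).det = 1 := fun v => (hI v).1
  have hdetF : ∀ v, (F v).det = (q v : B) := fun v => (hI v).2.1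
  have htr : ∀ v, (S v).trace = 2 := fun v => by
    rw [hS]; rw [(hI v).2.2.1, map_ofNat]
  have hηB : ∀ v, 2 * al (η v) = (q v : B) - 1 := fun v => by
    have := congrArg al (hηq v)
    rwa [map_mul, map_ofNat, map_sub, map_natCast, map_one] at this
  have hqne : ∀ v (n : ℕ), q v ≠ n → (q v : B) ≠ n := by
    intro v n hne heq
    apply hne
    have : al (q v : 𝒪) = al (n : 𝒪) := by rw [map_natCast, map_natCast]; exact heq
    exact_mod_cast hinj this
  have hq0 : ∀ v, (q v : B) ≠ 0 := fun v => by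
    have := hqne v 0 (by have := hq2 v; omega)
    simpa using this
  have hq1 : ∀ v, (q v : B) ≠ 1 := fun v => by
    have := hqne v 1 (by have := hq2 v; omega)
    simpa using this
  have hqp1 : ∀ v, (q v : B) + 1 ≠ 0 := by
    intro v heq
    have h3 : al ((q v + 1 : ℕ) : 𝒪) = al 0 := by
      rw [map_natCast, map_zero]; push_cast; exact heq
    have h4 := hinj h3
    exact Nat.cast_ne_zero.mpr (Nat.succ_ne_zero (q v)) h4
  -- the nilpotent part
  set N := fun v => S v - 1 with hN
  have hNtr : ∀ v, (N v).trace = 0 := fun v => by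
    rw [hN]; simp only [Matrix.trace_sub, htr, Matrix.trace_one]; simp
  have hNdet : ∀ v, (N v).det = 0 := fun v => by
    have e1 := hdet v
    have e2 := htr v
    rw [Matrix.det_fin_two] at e1
    rw [Matrix.trace_fin_two] at e2
    rw [hN, Matrix.det_fin_two]
    simp only [Matrix.sub_apply, Matrix.one_apply_eq, Matrix.one_apply_ne, ne_eq, zero_ne_one,
      one_ne_zero, not_false_eq_true, sub_zero]
    linear_combination e1 - e2
  have hNN : ∀ v, N v * N v = 0 := fun v => by
    rw [ch2, hNtr, hNdet, zero_smul, zero_smul, sub_zero]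
  have hSN : ∀ v, S v = 1 + N v := fun v => by rw [hN]; simp
  have hFN : ∀ v, F v * N v = (q v : B) • (N v * F v) := by
    intro v
    have e1 : F v * S v = (S v) ^ (q v) * F v := (hI v).2.2.2
    rw [hSN, one_add_pow_of_sq_zero (hNN v), mul_add, add_mul, mul_one, one_mul,
      smul_mul_assoc] at e1
    exact add_left_cancel e1
  have hN0 : ∀ v, c v = true ↔ N v ≠ 0 := by
    intro v
    rw [hc v]
    constructor
    · rintro ⟨i, j, hij⟩ h0
      apply hij
      have := congrFun (congrFun h0 i) j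
      rw [hN] at this
      simp only [Matrix.sub_apply, Matrix.zero_apply, hS, mS_apply, add_sub_cancel_left] at this
      exact this
    · intro h0
      by_contra hne
      push Not at hne
      apply h0
      ext i j
      rw [hN]
      simp only [Matrix.sub_apply, Matrix.zero_apply, hS, mS_apply, add_sub_cancel_left]
      exact hne i j
  -- the Steinberg relations
  have hSt : ∀ v, c v = true → (F v).trace = al (ε v) * ((q v : B) + 1) ∧
      N v * F v = al (ε v) • N v := by
    intro v hv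
    obtain ⟨h3, h4⟩ := trace_sq_of_ne_zero (hq0 v) (hq1 v) (hNtr v) (hdetF v) (hFN v)
      ((hN0 v).mp hv)
    have h5 : ((F v).trace - al (ε v) * ((q v : B) + 1)) *
        ((F v).trace + al (ε v) * ((q v : B) + 1)) = 0 := by
      linear_combination h3 - ((q v : B) + 1) ^ 2 * hεB v
    have h6 : (F v).trace = al (ε v) * ((q v : B) + 1) := by
      rcases mul_eq_zero.mp h5 with h6 | h6
      · exact sub_eq_zero.mp h6
      · exfalso
        have e1 := hFm v 0 0
        have e2 := hFm v 1 1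
        rw [Matrix.one_apply_eq, mul_one] at e1 e2
        have e3 : (q v : B) - 1 ∈ maximalIdeal B := natCast_sub_one_mem (hq v)
        rw [Matrix.trace_fin_two] at h6
        have e4 : al (ε v) * 4 ∈ maximalIdeal B := by
          have : al (ε v) * 4 = -((F v 0 0 - al (ε v)) + (F v 1 1 - al (ε v)) +
            al (ε v) * ((q v : B) - 1)) + (F v 0 0 + F v 1 1 + al (ε v) * ((q v : B) + 1)) := by
            ring
          rw [this, h6, add_zero]
          exact (neg_mem_iff (S := Ideal B)).mpr (Ideal.add_mem _ (Ideal.add_mem _ e1 e2)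
            (Ideal.mul_mem_left _ _ e3))
        have e5 : IsUnit (al (ε v) * 4) := by
          refine IsUnit.mul ?_ ?_
          · exact IsUnit.of_mul_eq_one (al (ε v)) (by rw [← pow_two]; exact hεB v)
          · have := h2B.mul h2B
            norm_num at this
            exact this
        exact (mem_maximalIdeal _).mp e4 e5
    refine ⟨h6, ?_⟩
    rw [h6] at h4
    ext i j
    have h7 := congrFun (congrFun h4 i) j
    simp only [Matrix.smul_apply, smul_eq_mul] at h7 ⊢
    refine mul_left_cancel₀ (hqp1 v) ?_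
    rw [h7]; ring
  -- coordinates
  set W : ι → Fin 3 → B := fun v => ![al (ε v) * (↑c2⁻¹ * (F v 0 0 - F v 1 1)),
    al (ε v) * F v 0 1, -(al (ε v) * F v 1 0)] with hW
  have hWm : ∀ v i, W v i ∈ maximalIdeal B := by
    intro v i
    fin_cases i
    · have e1 := hFm v 0 0
      have e2 := hFm v 1 1
      rw [Matrix.one_apply_eq] at e1 e2
      have : W v 0 = al (ε v) * ↑c2⁻¹ * ((F v 0 0 - al (ε v) * 1) - (F v 1 1 - al (ε v) * 1)) := by
        simp only [hW, Matrix.cons_val_zero]; ring
      change W v 0 ∈ _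
      rw [this]
      exact Ideal.mul_mem_left _ _ (Ideal.sub_mem _ e1 e2)
    · have e1 := hFm v 0 1
      rw [Matrix.one_apply_ne (by decide), mul_zero, sub_zero] at e1
      exact Ideal.mul_mem_left _ _ e1
    · have e1 := hFm v 1 0
      rw [Matrix.one_apply_ne (by decide), mul_zero, sub_zero] at e1
      exact (neg_mem_iff (S := Ideal B)).mpr (Ideal.mul_mem_left _ _ e1)
  set L : ι → Fin 3 → B := fun v => ![S v 0 0 - 1, S v 0 1, -(S v 1 0)] with hL
  have hLm : ∀ v i, L v i ∈ maximalIdeal B := by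
    intro v i
    fin_cases i
    · have e1 := hSm v 0 0
      rw [Matrix.one_apply_eq] at e1
      exact e1
    · have e1 := hSm v 0 1
      rw [Matrix.one_apply_ne (by decide), sub_zero] at e1
      exact e1
    · have e1 := hSm v 1 0
      rw [Matrix.one_apply_ne (by decide), sub_zero] at e1
      exact (neg_mem_iff (S := Ideal B)).mpr e1
  have htmL : ∀ v, tm (L v) = N v := by
    intro v
    have e2 := htr v
    rw [Matrix.trace_fin_two] at e2
    ext i j
    fin_cases i <;> fin_cases j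
    · simp [tm, hL, hN]
    · simp [tm, hL, hN]
    · simp [tm, hL, hN]
    · simp [tm, hL, hN]
      linear_combination (-1 : B) * e2
  let b : Src ι κ → B := mkSrc (fun v => if c v then W v else ![al (η v), 0, 0])
    (fun v => if c v then (fun _ => 0) else W v) (fun v => if c v then L v else (fun _ => 0))
    (fun t => h (MvPowerSeries.X (Sum.inr t)))
  have hb : ∀ s, b s ∈ maximalIdeal B := by
    refine mkSrc_mem ?_ ?_ ?_ (fun t => hm _)
    · intro v i
      by_cases hv : c v
      · simp only [hv, if_true]; exact hWm v i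
      · simp only [hv, Bool.false_eq_true, if_false]
        fin_cases i
        · exact hal' _ (hη v)
        · exact Ideal.zero_mem _
        · exact Ideal.zero_mem _
    · intro v i
      by_cases hv : c v
      · simp only [hv, if_true]; exact Ideal.zero_mem _
      · simp only [hv, Bool.false_eq_true, if_false]; exact hWm v i
    · intro v i
      by_cases hv : c v
      · simp only [hv, if_true]; exact hLm v i
      · simp only [hv, Bool.false_eq_true, if_false]; exact Ideal.zero_mem _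
  have hbq : ∀ v i, b (Sum.inl (v, i)) = if c v then W v i else (![al (η v), 0, 0] : Fin 3 → B) i := by
    intro v i
    change (if c v then W v else ![al (η v), 0, 0]) i = _
    split_ifs <;> rfl
  have hbf : ∀ v i, b (Sum.inr (Sum.inl (Sum.inl (v, i)))) = if c v then 0 else W v i := by
    intro v i
    change (if c v then (fun _ => 0) else W v) i = _
    split_ifs <;> rfl
  have hbl : ∀ v i, b (Sum.inr (Sum.inr (v, i))) = if c v then L v i else 0 := by
    intro v i
    change (if c v then L v else (fun _ => 0)) i = _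
    split_ifs <;> rfl
  -- the matrices in the Steinberg case
  have htmW : ∀ v, c v = true → ∀ s : B, sgc s (W v) = al (ε v) • F v + (s - al (η v) - 1) •
      (1 : Matrix (Fin 2) (Fin 2) B) := by
    intro v hv s
    have e2 := (hSt v hv).1
    rw [Matrix.trace_fin_two] at e2
    ext i j
    fin_cases i <;> fin_cases j
    · simp [tm, sgc, hW]
      refine hcanc _ _ ?_
      linear_combination (-al (ε v)) * e2 + al (ε v) * (F v 0 0 - F v 1 1) * hc21 -
        ((q v : B) + 1) * hεB v + hηB v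
    · simp [tm, sgc, hW]
    · simp [tm, sgc, hW]
    · simp [tm, sgc, hW]
      refine hcanc _ _ ?_
      linear_combination (-al (ε v)) * e2 - al (ε v) * (F v 0 0 - F v 1 1) * hc21 -
        ((q v : B) + 1) * hεB v + hηB v
  -- the factorisation
  have hfac : (ev b hb).comp (toOne κ h2 q ε η hq hη c) = h := by
    symm
    refine algHom_ext_mat (maximalIdeal B) ε hm ?_ ?_ ?_
    · intro v
      rw [mS_comp, mS_toOne]
      change S v = _
      by_cases hv : c v
      · have e1 := map_sgc ((ev b hb : MvPowerSeries (Src ι κ) 𝒪 →ₐ[𝒪] B) : _ →+* B)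
          1 (ln (Xs 𝒪 ι κ) v)
        have e2 : (oneS 𝒪 κ c v).map (ev b hb : MvPowerSeries (Src ι κ) 𝒪 →ₐ[𝒪] B) =
            sgc 1 (L v) := by
          rw [oneS, if_pos hv]
          refine e1.trans ?_
          congr 1
          · simp
          · funext i
            simp [ln, Xs, hbl, hv]
        rw [e2, sgc, one_smul, htmL, ← hSN]
      · rw [oneS, if_neg hv]
        have h3 : N v = 0 := by
          by_contra h0
          exact hv ((hN0 v).mpr h0)
        rw [hSN, h3, add_zero]
        ext i j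
        rw [Matrix.map_apply, Matrix.one_apply, Matrix.one_apply]
        split_ifs <;> simp
    · intro v
      rw [mF_comp, mF_toOne]
      change F v = _
      by_cases hv : c v
      · have e1 := map_sgc ((ev b hb : MvPowerSeries (Src ι κ) 𝒪 →ₐ[𝒪] B) : _ →+* B)
          (algebraMap 𝒪 (MvPowerSeries (Src ι κ) 𝒪) (η v + 1)) (qd (Xs 𝒪 ι κ) v)
        have e2 : (oneF κ q ε η c v).map (ev b hb : MvPowerSeries (Src ι κ) 𝒪 →ₐ[𝒪] B) =
            al (ε v) • sgc (al (η v) + 1) (W v) := by
          rw [oneF, if_pos hv]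
          ext i j
          rw [Matrix.map_apply, Matrix.smul_apply, Matrix.smul_apply, smul_eq_mul, smul_eq_mul,
            map_mul, AlgHom.commutes]
          congr 1
          have e3 := congrFun (congrFun e1 i) j
          refine Eq.trans e3 ?_
          congr 2
          · simp [hal]
          · funext i
            simp [qd, Xs, hbq, hv]
        rw [e2, htmW v hv]
        ext i j
        simp only [Matrix.smul_apply, Matrix.add_apply, smul_eq_mul]
        linear_combination (-(F v i j)) * hεB v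
      · have e1 := map_frob (two_unit h2) ((ev b hb : MvPowerSeries (Src ι κ) 𝒪 →ₐ[𝒪] B) : _ →+* B)
          (fun x hx => mem_maximalIdeal_of_mem _ (fun s => by rw [ev_X]; exact hb s) hx)
          (algebraMap 𝒪 (MvPowerSeries (Src ι κ) 𝒪) (ε v)) (natCast_sub_one_mem (hq v))
          (w := fr (Xs 𝒪 ι κ) v) (fun _ => Xs_mem _)
        have e2 : (oneF κ q ε η c v).map (ev b hb : MvPowerSeries (Src ι κ) 𝒪 →ₐ[𝒪] B) =
            frob (al (ε v)) (q v) (W v) := by
          rw [oneF, if_neg hv]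
          refine e1.trans ?_
          congr 1
          · simp [hal]
          · funext i
            simp [fr, Xs, hbf, hv]
        rw [e2]
        refine eq_frob h2B (hεB v) (hdetF v) (hFm v) ?_ ?_ ?_
        · simp only [hW, Matrix.cons_val_zero]
          linear_combination al (ε v) * (F v 0 0 - F v 1 1) * hc21
        · simp only [hW, Matrix.cons_val_one, Matrix.cons_val_zero]
        · simp only [hW, Matrix.cons_val]
    · intro s
      rw [AlgHom.comp_apply, toOne_inr]
      simp [kp, Xs, b, mkSrc]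
  intro f hf
  rw [RingHom.mem_ker, ← hfac]
  rw [Pone, RingHom.mem_ker, parOne, AlgHom.comp_apply] at hf
  change ev b hb (toOne κ h2 q ε η hq hη c f) = 0
  -- the choices
  have hchoice : ∀ v, ∃ a i₀ j₀ b₀ : Fin 2, c v = true →
      plusM (al (η v)) (W v) a i₀ ≠ 0 ∧ minusM (al (η v)) (W v) j₀ b₀ ≠ 0 := by
    intro v
    by_cases hv : c v
    · have h3 : plusM (al (η v)) (W v) ≠ 0 := by
        intro h0
        have h4 := congrArg Matrix.trace h0
        rw [plusM, htmW v hv, Matrix.trace_add, Matrix.trace_smul, Matrix.trace_smul,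
          (hSt v hv).1, Matrix.trace_one, Matrix.trace_zero] at h4
        simp only [Fintype.card_fin, smul_eq_mul, Nat.cast_ofNat] at h4
        apply hq1 v
        linear_combination h4 - ((q v : B) + 1) * hεB v
      have h4 : minusM (al (η v)) (W v) ≠ 0 := by
        intro h0
        have h4 := congrArg Matrix.trace h0
        rw [minusM, htmW v hv, Matrix.trace_add, Matrix.trace_smul, Matrix.trace_smul,
          (hSt v hv).1, Matrix.trace_one, Matrix.trace_zero] at h4
        simp only [Fintype.card_fin, smul_eq_mul, Nat.cast_ofNat] at h4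
        apply hq1 v
        linear_combination (-1 : B) * h4 + ((q v : B) + 1) * hεB v - 2 * hηB v
      obtain ⟨a, i₀, hai⟩ : ∃ a i₀, plusM (al (η v)) (W v) a i₀ ≠ 0 := by
        by_contra hne
        push Not at hne
        exact h3 (by ext i j; exact hne i j)
      obtain ⟨j₀, b₀, hjb⟩ : ∃ j₀ b₀, minusM (al (η v)) (W v) j₀ b₀ ≠ 0 := by
        by_contra hne
        push Not at hne
        exact h4 (by ext i j; exact hne i j)
      exact ⟨a, i₀, j₀, b₀, fun _ => ⟨hai, hjb⟩⟩
    · exact ⟨0, 0, 0, 0, fun h => absurd h hv⟩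
  choose a i₀ j₀ b₀ hch using hchoice
  refine ev_eq_zero_of_Psi' η hη Prod.fst (omo 𝒪 ι)
    (fun p => npr (MvPolynomial.C (η p.1)) (fun i => MvPolynomial.X (p.1, i)) (i₀ p.1) (j₀ p.1) p.2)
    (fun v => rhoF (MvPowerSeries.C (η v)) (MvPowerSeries.X (Sum.inl (v, 0)))
      (MvPowerSeries.X (Sum.inl (v, 1))) (i₀ v) * lamF (MvPowerSeries.C (η v))
      (MvPowerSeries.X (Sum.inl (v, 0))) (MvPowerSeries.X (Sum.inl (v, 1))) (j₀ v)) ?_ b hb ?_
    (fun v => if c v then plusM (al (η v)) (W v) (a v) (i₀ v) *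
      minusM (al (η v)) (W v) (j₀ v) (b₀ v) else 1) ?_
    (fun v => if c v then N v (a v) (b₀ v) else 0) ?_ hf
  · rintro ⟨v, i⟩
    rw [rn_omo, ← npr_val]
    have e1 := map_npr (MvPolynomial.aeval
      (fun p => Quadric.val ((ι × Fin 3 ⊕ κ) ⊕ ι) η (Sum.inl p)) :
        MvPolynomial (ι × Fin 3) 𝒪 →ₐ[𝒪] _).toRingHom (MvPolynomial.C (η v))
      (fun i => MvPolynomial.X (v, i)) (i₀ v) (j₀ v) i
    refine Eq.trans e1 ?_
    congr 1
    · simp [MvPowerSeries.algebraMap_apply]
    · funext k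
      fin_cases k <;> simp [Quadric.val]
  · intro v
    rw [hbq, hbq, hbq]
    by_cases hv : c v
    · simp only [hv, if_true]
      have e2 := (hSt v hv).1
      rw [Matrix.trace_fin_two] at e2
      have e3 := hdetF v
      rw [Matrix.det_fin_two] at e3
      have h4 : (4 : B) * (W v 0 ^ 2 - W v 1 * W v 2) = 4 * al (η v) ^ 2 := by
        simp only [hW, Matrix.cons_val_zero, Matrix.cons_val_one, Matrix.cons_val]
        have e4 : (4 : B) * ((al (ε v) * (↑c2⁻¹ * (F v 0 0 - F v 1 1))) ^ 2 -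
            al (ε v) * F v 0 1 * -(al (ε v) * F v 1 0)) = al (ε v) ^ 2 * ((2 * ↑c2⁻¹) ^ 2 *
            (F v 0 0 - F v 1 1) ^ 2 + 4 * (F v 0 1 * F v 1 0)) := by ring
        rw [e4, hεB, hc21]
        have e5 : (F v 0 0 + F v 1 1) ^ 2 = ((q v : B) + 1) ^ 2 := by
          rw [e2, mul_pow, hεB, one_mul]
        linear_combination e5 - 4 * e3 - (2 * al (η v) + (q v : B) - 1) * hηB v
      have h6 : IsUnit (4 : B) := by
        have := h2B.mul h2B
        norm_num at this
        exact this
      exact h6.mul_right_injective h4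
    · simp only [hv, Bool.false_eq_true, if_false]
      simp [hal]
  · intro v
    by_cases hv : c v
    · simp only [hv, if_true]
      exact mul_ne_zero (hch v hv).1 (hch v hv).2
    · simp only [hv, Bool.false_eq_true, if_false]
      exact one_ne_zero
  · rintro ⟨v, i⟩
    rw [hbl]
    by_cases hv : c v
    · simp only [hv, if_true]
      have e1 := map_npr (MvPolynomial.aeval (fun p => b (Sum.inl p)) :
        MvPolynomial (ι × Fin 3) 𝒪 →ₐ[𝒪] B).toRingHom (MvPolynomial.C (η v))
        (fun i => MvPolynomial.X (v, i)) (i₀ v) (j₀ v) i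
      have e2 : MvPolynomial.aeval (fun p => b (Sum.inl p))
          (npr (MvPolynomial.C (η v)) (fun i => MvPolynomial.X (v, i)) (i₀ v) (j₀ v) i) =
          npr (al (η v)) (W v) (i₀ v) (j₀ v) i := by
        refine Eq.trans e1 ?_
        congr 1
        · simp [hal]
        · funext k
          simp [hbq, hv]
      rw [e2]
      set P := plusM (al (η v)) (W v) with hP
      set M := minusM (al (η v)) (W v) with hM
      have hP' : P = al (ε v) • F v - (1 : Matrix (Fin 2) (Fin 2) B) := by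
        rw [hP, plusM, htmW v hv]
        rw [sub_self, zero_sub, neg_smul, one_smul, sub_eq_add_neg]
      have hM' : M = al (ε v) • F v - (q v : B) • (1 : Matrix (Fin 2) (Fin 2) B) := by
        rw [hM, minusM, htmW v hv]
        rw [sub_eq_add_neg (al (ε v) • F v), ← neg_smul]
        congr 2
        linear_combination (-1 : B) * hηB v
      have hNF := (hSt v hv).2
      have hFN' : F v * N v = ((q v : B) * al (ε v)) • N v := by
        rw [hFN, hNF, smul_smul]
      have hMN : M * N v = 0 := by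
        rw [hM', sub_mul, smul_mul_assoc, hFN', smul_mul_assoc, one_mul, smul_smul, ← sub_smul]
        have : al (ε v) * ((q v : B) * al (ε v)) - (q v : B) = 0 := by
          linear_combination (q v : B) * hεB v
        rw [this, zero_smul]
      have hNP : N v * P = 0 := by
        rw [hP', mul_sub, mul_smul_comm, hNF, mul_one, smul_smul, ← pow_two, hεB, one_smul,
          sub_self]
      have hMP : M * P = 0 := by
        have e3 := ch2 (F v)
        rw [hdetF, (hSt v hv).1] at e3
        rw [hM', hP', sub_mul, mul_sub, mul_sub, smul_mul_smul_comm, mul_one, mul_one, smul_mul_assoc,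
          one_mul, ← pow_two, hεB, one_smul, e3]
        ext i j
        simp only [Matrix.smul_apply, Matrix.sub_apply, smul_eq_mul, Matrix.zero_apply]
        ring
      have hP0 : P ≠ 0 := fun h0 => (hch v hv).1 (by rw [← hP, h0]; rfl)
      have hM0 : M ≠ 0 := fun h0 => (hch v hv).2 (by rw [← hM, h0]; rfl)
      have key : ∀ k l, P (a v) (i₀ v) * M (j₀ v) (b₀ v) * N v k l =
          N v (a v) (b₀ v) * (P k (i₀ v) * M (j₀ v) l) := by
        intro k l
        have k1 := col_minor hM0 hMN hMP (a v) k l (i₀ v)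
        have k2 := row_minor hP0 hNP hMP (a v) l (b₀ v) (j₀ v)
        linear_combination M (j₀ v) (b₀ v) * k1 + P k (i₀ v) * k2
      have hL0 : L v 0 = N v 0 0 := by rw [← htmL]; rfl
      have hL1 : L v 1 = N v 0 1 := by rw [← htmL]; rfl
      have hL2 : L v 2 = -(N v 1 0) := by rw [← htmL]; simp [tm]
      fin_cases i
      · change _ * L v 0 = N v (a v) (b₀ v) * (P 0 (i₀ v) * M (j₀ v) 0)
        rw [hL0, key]
      · change _ * L v 1 = N v (a v) (b₀ v) * (P 0 (i₀ v) * M (j₀ v) 1)
        rw [hL1, key]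
      · change _ * L v 2 = N v (a v) (b₀ v) * -(P 1 (i₀ v) * M (j₀ v) 0)
        rw [hL2, mul_neg, key, mul_neg]
    · simp only [hv, Bool.false_eq_true, if_false]
      simp

end One

end Fermat.Agent.LocRing
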