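import Mathlib
import Fermat.Agent.LocRing.One

set_option autoImplicit false
set_option linter.unusedSectionVars false

/-!
# The components satisfy the relations
-/

namespace Fermat.Agent.LocRing

open IsLocalRing Fermat.Agent.S53rep Matrix

section Algebra

variable {R : Type} [CommRing R]

/-- The matrix relations on the Steinberg component. -/
lemma steinberg_rel (η E W lam e : R) (q : ℕ) (hq : 2 * η = (q : R) - 1)
    (w l : Fin 3 → R) (hw0 : w 0 = η + E * W) (hw1 : w 1 = E) (hw2 : w 2 = W * (2 * η + E * W))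
    (hl0 : l 0 = lam * W) (hl1 : l 1 = lam) (hl2 : l 2 = lam * W ^ 2) (he : e ^ 2 = 1) :
    (sgc 1 l).det = 1 ∧ (e • sgc (η + 1) w).det = q ∧ (sgc 1 l).trace = 2 ∧
      (e • sgc (η + 1) w).trace = e * ((q : R) + 1) ∧
      (e • sgc (η + 1) w) * sgc 1 l = (sgc 1 l) ^ q * (e • sgc (η + 1) w) := by
  refine ⟨?_, ?_, ?_, ?_, ?_⟩
  · rw [det_sgc, hl0, hl1, hl2]; ring
  · rw [Matrix.det_smul, det_sgc, hw0, hw1, hw2, Fintype.card_fin, he]
    linear_combination hq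
  · rw [trace_sgc]; ring
  · rw [Matrix.trace_smul, trace_sgc, smul_eq_mul]
    linear_combination e * hq
  · have h1 : sgc 1 l = 1 + tm l := by rw [sgc, one_smul]
    have h2 : tm l * tm l = 0 := by
      ext i j
      fin_cases i <;> fin_cases j <;> simp [tm, Matrix.mul_apply, Fin.sum_univ_two, hl0, hl1, hl2] <;> ring
    rw [h1, one_add_pow_of_sq_zero h2, mul_add, mul_one, add_mul, one_mul]
    congr 1
    ext i j
    fin_cases i <;> fin_cases j <;>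
      simp [tm, sgc, Matrix.mul_apply, Fin.sum_univ_two, hl0, hl1, hl2, hw0, hw1, hw2]
    · linear_combination (e * lam * W) * hq
    · linear_combination (e * lam) * hq
    · linear_combination (-e * lam * W ^ 2) * hq
    · linear_combination (-e * lam * W) * hq

end Algebra

section One

variable {𝒪 : Type} [CommRing 𝒪] [IsDomain 𝒪] [IsDiscreteValuationRing 𝒪]
  [IsAdicComplete (maximalIdeal 𝒪) 𝒪]
variable {ι κ : Type} [Fintype ι] [Fintype κ]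
variable (h2 : IsUnit (2 : 𝒪)) (q : ι → ℕ) (ε η : ι → 𝒪)
    (hq : ∀ v, (q v : 𝒪) - 1 ∈ maximalIdeal 𝒪) (hη : ∀ v, η v ∈ maximalIdeal 𝒪) (c : ι → Bool)

/-- The target ring of the parametrisation. -/
abbrev Tgt (𝒪 : Type) [CommRing 𝒪] (ι κ : Type) : Type :=
  MvPowerSeries (ι × Fin 2 ⊕ ((ι × Fin 3 ⊕ κ) ⊕ ι)) 𝒪

lemma mS_parOne (v : ι) : mS (parOne κ h2 q ε η hq hη c) v =
    if c v then sgc 1 (fun i => (MvPowerSeries.X (Sum.inr (Sum.inr v)) : Tgt 𝒪 ι κ) *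
      (![MvPowerSeries.X (Sum.inl (v, 1)), 1,
      MvPowerSeries.X (Sum.inl (v, 1)) ^ 2] : Fin 3 → Tgt 𝒪 ι κ) i) else 1 := by
  rw [parOne, mS_comp, mS_toOne, oneS]
  split_ifs with hv
  · have e1 := map_sgc ((Psi (ι × Fin 3 ⊕ κ) η hη Prod.fst (omo 𝒪 ι) :
      MvPowerSeries (Src ι κ) 𝒪 →ₐ[𝒪] Tgt 𝒪 ι κ) : _ →+* Tgt 𝒪 ι κ) 1 (ln (Xs 𝒪 ι κ) v)
    refine e1.trans ?_
    congr 1
    · simp
    · funext i
      change Psi (ι × Fin 3 ⊕ κ) η hη Prod.fst (omo 𝒪 ι) (ln (Xs 𝒪 ι κ) v i) = _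
      rw [ln, Xs, Psi, ev_X]
      simp only [psiVal, Sum.elim_inr]
      rw [rn_omo]
  · ext i j
    rw [Matrix.map_apply, Matrix.one_apply, Matrix.one_apply]
    split_ifs <;> simp

lemma mF_parOne_of (v : ι) (hv : c v = true) : mF ε (parOne κ h2 q ε η hq hη c) v =
    (algebraMap 𝒪 (Tgt 𝒪 ι κ) (ε v)) • sgc (algebraMap 𝒪 (Tgt 𝒪 ι κ) (η v) + 1)
      (fun i => Quadric.val ((ι × Fin 3 ⊕ κ) ⊕ ι) η (Sum.inl (v, i))) := by
  rw [parOne, mF_comp, mF_toOne, oneF, if_pos hv]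
  have e1 := map_sgc ((Psi (ι × Fin 3 ⊕ κ) η hη Prod.fst (omo 𝒪 ι) :
      MvPowerSeries (Src ι κ) 𝒪 →ₐ[𝒪] Tgt 𝒪 ι κ) : _ →+* Tgt 𝒪 ι κ)
      (algebraMap 𝒪 (MvPowerSeries (Src ι κ) 𝒪) (η v + 1)) (qd (Xs 𝒪 ι κ) v)
  ext1 i j
  rw [Matrix.map_apply, Matrix.smul_apply, Matrix.smul_apply, smul_eq_mul, smul_eq_mul,
    map_mul, AlgHom.commutes]
  congr 1
  have e3 := congrFun (congrFun e1 i) j
  refine Eq.trans e3 ?_
  congr 2
  · change Psi (ι × Fin 3 ⊕ κ) η hη Prod.fst (omo 𝒪 ι) _ = _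
    rw [AlgHom.commutes, map_add, map_one]
  · funext i
    change Psi (ι × Fin 3 ⊕ κ) η hη Prod.fst (omo 𝒪 ι) (qd (Xs 𝒪 ι κ) v i) = _
    rw [qd, Xs, Psi, ev_X]
    simp only [psiVal, Sum.elim_inl]

lemma mF_parOne_not (v : ι) (hv : c v = false) : ∃ w : Fin 3 → Tgt 𝒪 ι κ,
    (∀ i, w i ∈ maximalIdeal (Tgt 𝒪 ι κ)) ∧ mF ε (parOne κ h2 q ε η hq hη c) v =
    frob (algebraMap 𝒪 (Tgt 𝒪 ι κ) (ε v)) (q v) w := by
  have hmem : ∀ x ∈ maximalIdeal (MvPowerSeries (Src ι κ) 𝒪),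
      Psi (ι × Fin 3 ⊕ κ) η hη Prod.fst (omo 𝒪 ι) x ∈ maximalIdeal (Tgt 𝒪 ι κ) := fun x hx =>
    mem_maximalIdeal_of_mem _ (fun s => by rw [Psi, ev_X]; exact psiVal_mem η hη _ _ s) hx
  refine ⟨fun i => Psi (ι × Fin 3 ⊕ κ) η hη Prod.fst (omo 𝒪 ι) (fr (Xs 𝒪 ι κ) v i),
    fun i => hmem _ (Xs_mem _), ?_⟩
  rw [parOne, mF_comp, mF_toOne, oneF, if_neg (by simp [hv])]
  have e1 := map_frob (two_unit h2) ((Psi (ι × Fin 3 ⊕ κ) η hη Prod.fst (omo 𝒪 ι) :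
      MvPowerSeries (Src ι κ) 𝒪 →ₐ[𝒪] Tgt 𝒪 ι κ) : _ →+* Tgt 𝒪 ι κ) hmem
      (algebraMap 𝒪 (MvPowerSeries (Src ι κ) 𝒪) (ε v)) (natCast_sub_one_mem (hq v))
      (w := fr (Xs 𝒪 ι κ) v) (fun _ => Xs_mem _)
  refine e1.trans ?_
  congr 1
  exact AlgHom.commutes _ _

/-- The components satisfy the relations. -/
theorem locI_le_Pone (hε : ∀ v, ε v ^ 2 = 1) (hηq : ∀ v, 2 * η v = (q v : 𝒪) - 1) :
    locI κ q ε (fun _ => 2) ≤ Pone κ h2 q ε η hq hη c := by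
  rw [Pone, locI_le_ker_iff]
  intro v
  have h2T : IsUnit (2 : Tgt 𝒪 ι κ) := two_unit h2
  have hεT : algebraMap 𝒪 (Tgt 𝒪 ι κ) (ε v) ^ 2 = 1 := by rw [← map_pow, hε, map_one]
  rw [map_ofNat]
  cases hv : c v
  · obtain ⟨w, hw, hF⟩ := mF_parOne_not h2 q ε η hq hη c v hv (κ := κ)
    have hS : mS (parOne κ h2 q ε η hq hη c) v = 1 := by
      rw [mS_parOne, if_neg (by simp [hv])]
    rw [hF, hS]
    refine ⟨Matrix.det_one, det_frob h2T hεT (natCast_sub_one_mem (hq v)) hw, ?_, ?_⟩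
    · rw [Matrix.trace_one]; simp
    · rw [one_pow, one_mul, mul_one]
  · have hS := mS_parOne h2 q ε η hq hη c v (κ := κ)
    rw [if_pos hv] at hS
    have hF := mF_parOne_of h2 q ε η hq hη c v hv (κ := κ)
    rw [hS, hF]
    have hηT : 2 * algebraMap 𝒪 (Tgt 𝒪 ι κ) (η v) = (q v : Tgt 𝒪 ι κ) - 1 := by
      have := congrArg (algebraMap 𝒪 (Tgt 𝒪 ι κ)) (hηq v)
      rwa [map_mul, map_ofNat, map_sub, map_natCast, map_one] at this
    obtain ⟨h3, h4, h5, -, h6⟩ := steinberg_rel (algebraMap 𝒪 (Tgt 𝒪 ι κ) (η v))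
      (MvPowerSeries.X (Sum.inl (v, 0))) (MvPowerSeries.X (Sum.inl (v, 1)))
      (MvPowerSeries.X (Sum.inr (Sum.inr v))) (algebraMap 𝒪 (Tgt 𝒪 ι κ) (ε v)) (q v) hηT
      (fun i => Quadric.val ((ι × Fin 3 ⊕ κ) ⊕ ι) η (Sum.inl (v, i)))
      (fun i => (MvPowerSeries.X (Sum.inr (Sum.inr v)) : Tgt 𝒪 ι κ) *
        (![MvPowerSeries.X (Sum.inl (v, 1)), 1,
        MvPowerSeries.X (Sum.inl (v, 1)) ^ 2] : Fin 3 → Tgt 𝒪 ι κ) i)
      (by simp [Quadric.val, MvPowerSeries.algebraMap_apply])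
      (by simp [Quadric.val]) (by simp [Quadric.val, MvPowerSeries.algebraMap_apply])
      (by simp) (by simp) (by simp) hεT
    exact ⟨h3, h4, h5, h6⟩

/-- On the unramified components. -/
theorem Sg_sub_one_mem_Pone (v : ι) (hv : c v = false) (i j : Fin 2) :
    (Sg 𝒪 κ v - 1) i j ∈ Pone κ h2 q ε η hq hη c := by
  have hS : mS (parOne κ h2 q ε η hq hη c) v = 1 := by
    rw [mS_parOne, if_neg (by simp [hv])]
  rw [Pone, RingHom.mem_ker, Matrix.sub_apply, map_sub]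
  have h1 : parOne κ h2 q ε η hq hη c (Sg 𝒪 κ v i j) = mS (parOne κ h2 q ε η hq hη c) v i j := rfl
  rw [h1, hS]
  rw [Matrix.one_apply, Matrix.one_apply]
  split_ifs <;> simp

/-- On the Steinberg components. -/
theorem trace_Ph_sub_mem_Pone (hηq : ∀ v, 2 * η v = (q v : 𝒪) - 1) (v : ι) (hv : c v = true) :
    (Ph κ ε v).trace - MvPowerSeries.C (ε v * ((q v : 𝒪) + 1)) ∈ Pone κ h2 q ε η hq hη c := by
  have hF := mF_parOne_of h2 q ε η hq hη c v hv (κ := κ)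
  rw [Pone, RingHom.mem_ker, map_sub]
  have h1 : parOne κ h2 q ε η hq hη c ((Ph κ ε v).trace) =
      (mF ε (parOne κ h2 q ε η hq hη c) v).trace := by
    rw [mF, Matrix.trace_fin_two, Matrix.trace_fin_two, map_add]
    rfl
  have hηT : 2 * algebraMap 𝒪 (Tgt 𝒪 ι κ) (η v) = (q v : Tgt 𝒪 ι κ) - 1 := by
    have := congrArg (algebraMap 𝒪 (Tgt 𝒪 ι κ)) (hηq v)
    rwa [map_mul, map_ofNat, map_sub, map_natCast, map_one] at this
  rw [h1, hF, Matrix.trace_smul, trace_sgc, algHom_C, smul_eq_mul, map_mul, map_add, map_natCast,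
    map_one]
  linear_combination (algebraMap 𝒪 (Tgt 𝒪 ι κ) (ε v)) * hηT

end One

end Fermat.Agent.LocRing
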