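import Mathlib
import Fermat.Agent.LocRing.OneRel

set_option autoImplicit false
set_option linter.unusedSectionVars false

/-!
# The local relations at `T = T₀ ⊔ V`

`ι₀`: primes `v` with scalar residual Frobenius (`= ε v`), `8` variables for each `v`.
`ι₁`: primes `v` with non-scalar residual Frobenius, which is put in companion form
`(0, -v; 1, t)`, `5` variables for each `v`: the entries of `σ_v - 1` and `t - tb v`.
-/

namespace Fermat.Agent.LocRing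

open IsLocalRing Fermat.Agent.S53rep Matrix

/-- The types of components. -/
inductive Ty : Type
  | nr : Ty
  | st (s : Bool) : Ty
  deriving DecidableEq

/-- Steinberg? -/
def Ty.isSt : Ty → Bool
  | .nr => false
  | .st _ => true

/-- The sign. -/
def sg (R : Type) [Ring R] (s : Bool) : R := if s then 1 else -1

section Sg

variable {R : Type} [CommRing R]

@[simp] lemma sg_mul_self (s : Bool) : sg R s * sg R s = 1 := by cases s <;> simp [sg]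

lemma sg_sq (s : Bool) : sg R s ^ 2 = 1 := by cases s <;> simp [sg]

@[simp] lemma map_sg {R' : Type} [CommRing R'] (f : R →+* R') (s : Bool) : f (sg R s) = sg R' s := by
  cases s <;> simp [sg]

lemma isUnit_sg (s : Bool) : IsUnit (sg R s) := IsUnit.of_mul_eq_one _ (sg_mul_self s)

/-- The direction of the monodromy in companion form. -/
def stM (R : Type) [CommRing R] (s : Bool) : Matrix (Fin 2) (Fin 2) R :=
  !![1, sg R s; -sg R s, -1]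

/-- The companion matrix. -/
def comp2 (q : R) (t : R) : Matrix (Fin 2) (Fin 2) R := !![0, -q; 1, t]

/-- The relations in companion form, on a domain. -/
lemma comp_rel [IsDomain R] (S : Matrix (Fin 2) (Fin 2) R) (t : R) (q : ℕ) (hq : (q : R) ≠ 0)
    (hdet : S.det = 1) (htr : S.trace = 2)
    (hrel : comp2 (q : R) t * S = S ^ q * comp2 (q : R) t) :
    S = 1 ∨ ∃ s : Bool, t = sg R s * (q + 1) ∧ S = 1 + (S 0 0 - 1) • stM R s := by
  set N := S - 1 with hN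
  have hSN : S = 1 + N := by rw [hN]; simp
  have h11 : N 1 1 = - N 0 0 := by
    rw [Matrix.trace_fin_two] at htr
    simp only [hN, Matrix.sub_apply, Matrix.one_apply_eq]
    linear_combination htr
  have hdetN : N 0 0 * N 0 0 + N 0 1 * N 1 0 = 0 := by
    rw [Matrix.det_fin_two] at hdet
    have h1 : S 0 0 = 1 + N 0 0 := by simp [hN]
    have h2 : S 1 1 = 1 - N 0 0 := by
      have : S 1 1 = 1 + N 1 1 := by simp [hN]
      rw [this, h11]; ring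
    have h3 : S 0 1 = N 0 1 := by simp [hN]
    have h4 : S 1 0 = N 1 0 := by simp [hN]
    rw [h1, h2, h3, h4] at hdet
    linear_combination (-1 : R) * hdet
  have hNN : N * N = 0 := by
    ext i j
    fin_cases i <;> fin_cases j <;> simp [Matrix.mul_apply, Fin.sum_univ_two, h11]
    · linear_combination hdetN
    · ring
    · ring
    · linear_combination hdetN
  have hFN : comp2 (q : R) t * N = (q : R) • (N * comp2 (q : R) t) := by
    rw [hSN, one_add_pow_of_sq_zero hNN, mul_add, add_mul, mul_one, one_mul,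
      smul_mul_assoc] at hrel
    exact add_left_cancel hrel
  have e00 := congrFun (congrFun hFN 0) 0
  have e01 := congrFun (congrFun hFN 0) 1
  simp only [comp2, Matrix.mul_apply, Fin.sum_univ_two, Matrix.smul_apply, smul_eq_mul,
    Matrix.of_apply, Matrix.cons_val', Matrix.cons_val_zero, Matrix.cons_val_one,
    Matrix.cons_val_fin_one, h11] at e00 e01
  have hc : N 1 0 = - N 0 1 := by
    refine mul_left_cancel₀ hq ?_
    linear_combination -e00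
  have hab : (N 0 0 - N 0 1) * (N 0 0 + N 0 1) = 0 := by
    rw [hc] at hdetN
    linear_combination hdetN
  have hat : N 0 0 * (q + 1) = t * N 0 1 := by
    refine mul_left_cancel₀ hq ?_
    linear_combination e01
  by_cases ha : N 0 0 = 0
  · left
    have hb : N 0 1 = 0 := by
      rw [ha] at hab
      simpa using hab
    rw [hSN]
    have : N = 0 := by
      ext i j
      fin_cases i <;> fin_cases j
      · simpa using ha
      · simpa using hb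
      · simpa [hb] using hc
      · simpa [ha] using h11
    rw [this, add_zero]
  · right
    have h00 : S 0 0 - 1 = N 0 0 := by simp [hN]
    rcases mul_eq_zero.mp hab with h | h
    · refine ⟨true, ?_, ?_⟩
      · refine mul_left_cancel₀ ha ?_
        simp only [sg, if_true]
        linear_combination (-1 : R) * hat + t * h
      · rw [h00, hSN]
        congr 1
        ext i j
        fin_cases i <;> fin_cases j <;> simp [stM, sg]
        · linear_combination -h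
        · linear_combination hc + h
        · exact h11
    · refine ⟨false, ?_, ?_⟩
      · refine mul_left_cancel₀ ha ?_
        simp only [sg, Bool.false_eq_true, if_false]
        linear_combination hat + t * h
      · rw [h00, hSN]
        congr 1
        ext i j
        fin_cases i <;> fin_cases j <;> simp [stM, sg]
        · linear_combination h
        · linear_combination hc - h
        · exact h11

/-- The converse. -/
lemma comp_rel_conv (n t : R) (s : Bool) (q : ℕ) (ht : t = sg R s * (q + 1)) :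
    (1 + n • stM R s).det = 1 ∧ (1 + n • stM R s).trace = 2 ∧
      comp2 (q : R) t * (1 + n • stM R s) = (1 + n • stM R s) ^ q * comp2 (q : R) t := by
  have hs := sg_mul_self (R := R) s
  refine ⟨?_, ?_, ?_⟩
  · rw [Matrix.det_fin_two]
    simp [stM]
    linear_combination n ^ 2 * hs
  · rw [Matrix.trace_fin_two]
    simp [stM]
    ring
  · have h2 : (n • stM R s) * (n • stM R s) = 0 := by
      ext i j
      fin_cases i <;> fin_cases j <;> simp [stM, Matrix.mul_apply, Fin.sum_univ_two]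
      · linear_combination (-n ^ 2) * hs
      · ring
      · ring
      · linear_combination (-n ^ 2) * hs
    rw [one_add_pow_of_sq_zero h2, mul_add, mul_one, add_mul, one_mul, smul_mul_assoc]
    congr 1
    ext i j
    fin_cases i <;> fin_cases j <;>
      simp [stM, comp2, Matrix.mul_apply, Fin.sum_univ_two, ht]
    · linear_combination (-(q : R) * n * (q + 1)) * hs
    · linear_combination (-n * (q + 1)) * hs
    · ring

end Sg

/-- The local data at `T = T₀ ⊔ V`. -/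
structure LocData (𝒪 : Type) [CommRing 𝒪] [IsLocalRing 𝒪] (ι₀ ι₁ : Type) where
  /-- the primes of `T₀` -/
  q₀ : ι₀ → ℕ
  /-- the primes of `V` -/
  q₁ : ι₁ → ℕ
  /-- the residual Frobenius at `v ∈ T₀` -/
  ε : ι₀ → 𝒪
  /-- a lift of the trace of the residual Frobenius at `v ∈ V` -/
  tb : ι₁ → 𝒪
  h2 : IsUnit (2 : 𝒪)
  hq : ∀ v, (q₀ v : 𝒪) - 1 ∈ maximalIdeal 𝒪
  hε : ∀ v, ε v ^ 2 = 1
  hq₀ : ∀ v, 2 ≤ q₀ v
  hq₁ : ∀ v, IsUnit (q₁ v : 𝒪)

namespace LocData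

variable {𝒪 : Type} [CommRing 𝒪] [IsLocalRing 𝒪] {ι₀ ι₁ : Type} (D : LocData 𝒪 ι₀ ι₁)

/-- Half of `v - 1`. -/
noncomputable def η (v : ι₀) : 𝒪 := (↑(D.h2.unit⁻¹) : 𝒪) * ((D.q₀ v : 𝒪) - 1)

lemma hηq (v : ι₀) : 2 * D.η v = (D.q₀ v : 𝒪) - 1 := by
  rw [η, ← mul_assoc]
  have : (2 : 𝒪) * (↑(D.h2.unit⁻¹) : 𝒪) = 1 := by
    have h := D.h2.mul_val_inv
    exact h
  rw [this, one_mul]

lemma hη (v : ι₀) : D.η v ∈ maximalIdeal 𝒪 := Ideal.mul_mem_left _ _ (D.hq v)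

/-- All the primes. -/
def qT : ι₀ ⊕ ι₁ → ℕ := Sum.elim D.q₀ D.q₁

/-- Lifts of the residual traces. -/
def tbT : ι₀ ⊕ ι₁ → 𝒪 := Sum.elim (fun v => 2 * D.ε v) D.tb

@[simp] lemma qT_inl (v : ι₀) : D.qT (Sum.inl v) = D.q₀ v := rfl
@[simp] lemma qT_inr (v : ι₁) : D.qT (Sum.inr v) = D.q₁ v := rfl
@[simp] lemma tbT_inl (v : ι₀) : D.tbT (Sum.inl v) = 2 * D.ε v := rfl
@[simp] lemma tbT_inr (v : ι₁) : D.tbT (Sum.inr v) = D.tb v := rfl

/-- The components compatible with the residual traces. -/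
def Allowed (c : ι₀ ⊕ ι₁ → Ty) : Prop :=
  ∀ v s, c v = Ty.st s → sg 𝒪 s * ((D.qT v : 𝒪) + 1) - D.tbT v ∈ maximalIdeal 𝒪

end LocData

/-- The further variables. -/
abbrev Ka (ι₁ κ : Type) : Type := (ι₁ × Fin 2 × Fin 2) ⊕ (ι₁ ⊕ κ)

/-- The ambient power series ring. -/
abbrev LamT (𝒪 : Type) [CommRing 𝒪] (ι₀ ι₁ κ : Type) : Type := Lam 𝒪 ι₀ (Ka ι₁ κ)

section Defs

variable {𝒪 : Type} [CommRing 𝒪] {ι₀ ι₁ κ : Type}

/-- The universal image of inertia at `v ∈ V`. -/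
noncomputable def Sg₁ (𝒪 : Type) [CommRing 𝒪] (ι₀ κ : Type) {ι₁ : Type} (v : ι₁) :
    Matrix (Fin 2) (Fin 2) (LamT 𝒪 ι₀ ι₁ κ) :=
  1 + Matrix.of fun i j => MvPowerSeries.X (Sum.inr (Sum.inl (v, i, j)))

/-- The universal images of tame inertia. -/
noncomputable def SgT (𝒪 : Type) [CommRing 𝒪] (κ : Type) {ι₀ ι₁ : Type} :
    ι₀ ⊕ ι₁ → Matrix (Fin 2) (Fin 2) (LamT 𝒪 ι₀ ι₁ κ) :=
  Sum.elim (fun v => Sg 𝒪 (Ka ι₁ κ) v) (fun v => Sg₁ 𝒪 ι₀ κ v)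

/-- The universal trace of Frobenius at `v ∈ V`. -/
noncomputable def tr₁ (ι₀ κ : Type) (tb : ι₁ → 𝒪) (v : ι₁) : LamT 𝒪 ι₀ ι₁ κ :=
  MvPowerSeries.C (tb v) + MvPowerSeries.X (Sum.inr (Sum.inr (Sum.inl v)))

/-- The universal traces of Frobenius. -/
noncomputable def trT [IsLocalRing 𝒪] (κ : Type) (D : LocData 𝒪 ι₀ ι₁) :
    ι₀ ⊕ ι₁ → LamT 𝒪 ι₀ ι₁ κ :=
  Sum.elim (fun v => (Ph (Ka ι₁ κ) D.ε v).trace) (fun v => tr₁ ι₀ κ D.tb v)

/-- The relations at the primes `v ∈ V`. -/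
noncomputable def relSet₁ (ι₀ κ : Type) (q : ι₁ → ℕ) (tb : ι₁ → 𝒪) : Set (LamT 𝒪 ι₀ ι₁ κ) :=
  {x | ∃ v, x = (Sg₁ 𝒪 ι₀ κ v).det - 1 ∨ x = (Sg₁ 𝒪 ι₀ κ v).trace - 2 ∨
    ∃ i j, x = (comp2 (q v : LamT 𝒪 ι₀ ι₁ κ) (tr₁ ι₀ κ tb v) * Sg₁ 𝒪 ι₀ κ v -
      (Sg₁ 𝒪 ι₀ κ v) ^ (q v) * comp2 (q v : LamT 𝒪 ι₀ ι₁ κ) (tr₁ ι₀ κ tb v)) i j}

/-- The ideal of all local relations (unipotent inertia). -/
noncomputable def IT [IsLocalRing 𝒪] (κ : Type) (D : LocData 𝒪 ι₀ ι₁) : Ideal (LamT 𝒪 ι₀ ι₁ κ) :=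
  locI (Ka ι₁ κ) D.q₀ D.ε (fun _ => 2) ⊔ Ideal.span (relSet₁ ι₀ κ D.q₁ D.tb)

/-- The ideal of local relations with trivial inertia outside `S`. -/
noncomputable def ITS [IsLocalRing 𝒪] (κ : Type) (D : LocData 𝒪 ι₀ ι₁) (S : Set (ι₀ ⊕ ι₁)) :
    Ideal (LamT 𝒪 ι₀ ι₁ κ) :=
  IT κ D ⊔ Ideal.span {x | ∃ v ∉ S, ∃ i j, x = (SgT 𝒪 κ v - 1) i j}

variable {R : Type} [CommRing R] [Algebra 𝒪 R]

/-- The image of `Sg₁ v`. -/
noncomputable def mS₁ (h : LamT 𝒪 ι₀ ι₁ κ →ₐ[𝒪] R) (v : ι₁) : Matrix (Fin 2) (Fin 2) R :=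
  (Sg₁ 𝒪 ι₀ κ v).map h

/-- The image of `SgT v`. -/
noncomputable def mST (h : LamT 𝒪 ι₀ ι₁ κ →ₐ[𝒪] R) (v : ι₀ ⊕ ι₁) : Matrix (Fin 2) (Fin 2) R :=
  (SgT 𝒪 κ v).map h

@[simp] lemma mST_inl (h : LamT 𝒪 ι₀ ι₁ κ →ₐ[𝒪] R) (v : ι₀) : mST h (Sum.inl v) = mS h v := rfl
@[simp] lemma mST_inr (h : LamT 𝒪 ι₀ ι₁ κ →ₐ[𝒪] R) (v : ι₁) : mST h (Sum.inr v) = mS₁ h v := rfl

lemma mS₁_apply (h : LamT 𝒪 ι₀ ι₁ κ →ₐ[𝒪] R) (v : ι₁) (i j : Fin 2) :
    mS₁ h v i j = (1 : Matrix (Fin 2) (Fin 2) R) i j +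
      h (MvPowerSeries.X (Sum.inr (Sum.inl (v, i, j)))) := by
  rw [mS₁, Matrix.map_apply, Sg₁, Matrix.add_apply, map_add, Matrix.of_apply]
  congr 1
  rw [Matrix.one_apply, Matrix.one_apply]
  split_ifs <;> simp

lemma map_tr₁ (h : LamT 𝒪 ι₀ ι₁ κ →ₐ[𝒪] R) (tb : ι₁ → 𝒪) (v : ι₁) :
    h (tr₁ ι₀ κ tb v) = algebraMap 𝒪 R (tb v) +
      h (MvPowerSeries.X (Sum.inr (Sum.inr (Sum.inl v)))) := by
  rw [tr₁, map_add, algHom_C]

lemma map_trT_inl [IsLocalRing 𝒪] (h : LamT 𝒪 ι₀ ι₁ κ →ₐ[𝒪] R) (D : LocData 𝒪 ι₀ ι₁) (v : ι₀) :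
    h (trT κ D (Sum.inl v)) = (mF D.ε h v).trace := by
  change h ((Ph (Ka ι₁ κ) D.ε v).trace) = _
  rw [mF, Matrix.trace_fin_two, Matrix.trace_fin_two, map_add]
  rfl

lemma map_trT_inr [IsLocalRing 𝒪] (h : LamT 𝒪 ι₀ ι₁ κ →ₐ[𝒪] R) (D : LocData 𝒪 ι₀ ι₁) (v : ι₁) :
    h (trT κ D (Sum.inr v)) = algebraMap 𝒪 R (D.tb v) +
      h (MvPowerSeries.X (Sum.inr (Sum.inr (Sum.inl v)))) := map_tr₁ h D.tb v

lemma mS₁_comp {R' : Type} [CommRing R'] [Algebra 𝒪 R'] (g : R →ₐ[𝒪] R')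
    (h : LamT 𝒪 ι₀ ι₁ κ →ₐ[𝒪] R) (v : ι₁) : mS₁ (g.comp h) v = (mS₁ h v).map g := by
  rw [mS₁, mS₁, Matrix.map_map]
  rfl

/-- A homomorphism kills the local relations iff the matrices satisfy them. -/
theorem span_relSet₁_le_ker_iff (q : ι₁ → ℕ) (tb : ι₁ → 𝒪) (h : LamT 𝒪 ι₀ ι₁ κ →ₐ[𝒪] R) :
    Ideal.span (relSet₁ ι₀ κ q tb) ≤ RingHom.ker h ↔ ∀ v, (mS₁ h v).det = 1 ∧
      (mS₁ h v).trace = 2 ∧
      comp2 (q v : R) (h (tr₁ ι₀ κ tb v)) * mS₁ h v =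
        (mS₁ h v) ^ (q v) * comp2 (q v : R) (h (tr₁ ι₀ κ tb v)) := by
  have e1 : ∀ v, h ((Sg₁ 𝒪 ι₀ κ v).det) = (mS₁ h v).det := fun v => by
    rw [mS₁]
    exact RingHom.map_det (h : LamT 𝒪 ι₀ ι₁ κ →+* R) (Sg₁ 𝒪 ι₀ κ v)
  have e3 : ∀ v, h ((Sg₁ 𝒪 ι₀ κ v).trace) = (mS₁ h v).trace := fun v => by
    rw [mS₁, Matrix.trace_fin_two, Matrix.trace_fin_two, map_add]
    rfl
  have e4 : ∀ v i j, h ((comp2 (q v : LamT 𝒪 ι₀ ι₁ κ) (tr₁ ι₀ κ tb v) * Sg₁ 𝒪 ι₀ κ v -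
      (Sg₁ 𝒪 ι₀ κ v) ^ (q v) * comp2 (q v : LamT 𝒪 ι₀ ι₁ κ) (tr₁ ι₀ κ tb v)) i j) =
      (comp2 (q v : R) (h (tr₁ ι₀ κ tb v)) * mS₁ h v -
        (mS₁ h v) ^ (q v) * comp2 (q v : R) (h (tr₁ ι₀ κ tb v))) i j := fun v i j => by
    have h0 : comp2 (q v : R) (h (tr₁ ι₀ κ tb v)) = (h : LamT 𝒪 ι₀ ι₁ κ →+* R).mapMatrix
        (comp2 (q v : LamT 𝒪 ι₀ ι₁ κ) (tr₁ ι₀ κ tb v)) := by
      ext a b
      fin_cases a <;> fin_cases b <;> simp [comp2]
    have h1 : (comp2 (q v : R) (h (tr₁ ι₀ κ tb v)) * mS₁ h v -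
        (mS₁ h v) ^ (q v) * comp2 (q v : R) (h (tr₁ ι₀ κ tb v))) =
        (h : LamT 𝒪 ι₀ ι₁ κ →+* R).mapMatrix
          (comp2 (q v : LamT 𝒪 ι₀ ι₁ κ) (tr₁ ι₀ κ tb v) * Sg₁ 𝒪 ι₀ κ v -
      (Sg₁ 𝒪 ι₀ κ v) ^ (q v) * comp2 (q v : LamT 𝒪 ι₀ ι₁ κ) (tr₁ ι₀ κ tb v)) := by
      rw [map_sub, map_mul, map_mul, map_pow, h0]
      rfl
    rw [h1]
    rfl
  rw [Ideal.span_le]
  constructor
  · intro hh v
    refine ⟨?_, ?_, ?_⟩
    · have := hh ⟨v, Or.inl rfl⟩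
      rw [SetLike.mem_coe, RingHom.mem_ker, map_sub, map_one, sub_eq_zero] at this
      rw [← e1]; exact this
    · have := hh ⟨v, Or.inr (Or.inl rfl)⟩
      rw [SetLike.mem_coe, RingHom.mem_ker, map_sub, map_ofNat, sub_eq_zero] at this
      rw [← e3]; exact this
    · rw [← sub_eq_zero]
      ext i j
      have := hh ⟨v, Or.inr (Or.inr ⟨i, j, rfl⟩)⟩
      rw [SetLike.mem_coe, RingHom.mem_ker, e4] at this
      exact this
  · intro hh x hx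
    rw [SetLike.mem_coe, RingHom.mem_ker]
    obtain ⟨v, hx | hx | ⟨i, j, hx⟩⟩ := hx
    · rw [hx, map_sub, map_one, e1, (hh v).1, sub_self]
    · rw [hx, map_sub, map_ofNat, e3, (hh v).2.1, sub_self]
    · rw [hx, e4, (hh v).2.2, sub_self]
      rfl

/-- A homomorphism kills `IT` iff the matrices satisfy the relations. -/
theorem IT_le_ker_iff [IsLocalRing 𝒪] (D : LocData 𝒪 ι₀ ι₁) (h : LamT 𝒪 ι₀ ι₁ κ →ₐ[𝒪] R) :
    IT κ D ≤ RingHom.ker h ↔ (∀ v, (mS h v).det = 1 ∧ (mF D.ε h v).det = (D.q₀ v : R) ∧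
      (mS h v).trace = 2 ∧ mF D.ε h v * mS h v = (mS h v) ^ (D.q₀ v) * mF D.ε h v) ∧
      ∀ v, (mS₁ h v).det = 1 ∧ (mS₁ h v).trace = 2 ∧
      comp2 (D.q₁ v : R) (h (trT κ D (Sum.inr v))) * mS₁ h v =
        (mS₁ h v) ^ (D.q₁ v) * comp2 (D.q₁ v : R) (h (trT κ D (Sum.inr v))) := by
  rw [IT, sup_le_iff, locI_le_ker_iff, span_relSet₁_le_ker_iff]
  simp only [map_ofNat]
  rfl

lemma mem_ker_SgT_iff (h : LamT 𝒪 ι₀ ι₁ κ →ₐ[𝒪] R) (v : ι₀ ⊕ ι₁) :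
    (∀ i j, (SgT 𝒪 κ v - 1) i j ∈ RingHom.ker h) ↔ mST h v = 1 := by
  have e1 : ∀ i j, h ((SgT 𝒪 κ v - 1) i j) = (mST h v - 1) i j := by
    intro i j
    rw [Matrix.sub_apply, map_sub, Matrix.sub_apply]
    congr 1
    rw [Matrix.one_apply, Matrix.one_apply]
    split_ifs <;> simp
  simp only [RingHom.mem_ker, e1]
  rw [← sub_eq_zero (a := mST h v)]
  constructor
  · intro hh
    ext i j
    exact hh i j
  · intro hh i j
    rw [hh]
    rfl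

/-- A homomorphism kills `ITS` iff the matrices satisfy the relations. -/
theorem ITS_le_ker_iff [IsLocalRing 𝒪] (D : LocData 𝒪 ι₀ ι₁) (S : Set (ι₀ ⊕ ι₁))
    (h : LamT 𝒪 ι₀ ι₁ κ →ₐ[𝒪] R) :
    ITS κ D S ≤ RingHom.ker h ↔ IT κ D ≤ RingHom.ker h ∧ ∀ v ∉ S, mST h v = 1 := by
  rw [ITS, sup_le_iff]
  refine and_congr_right fun _ => ?_
  rw [Ideal.span_le]
  constructor
  · intro hh v hv
    rw [← mem_ker_SgT_iff]
    intro i j
    exact hh ⟨v, hv, i, j, rfl⟩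
  · rintro hh x ⟨v, hv, i, j, rfl⟩
    exact (mem_ker_SgT_iff h v).mpr (hh v hv) i j

end Defs

end Fermat.Agent.LocRing
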