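import Mathlib
import Fermat.Agent.LocRing.LocT

set_option autoImplicit false
set_option linter.unusedSectionVars false
set_option linter.unusedSimpArgs false

/-!
# The generic points of the components at `T = T₀ ⊔ V`
-/

namespace Fermat.Agent.LocRing

open IsLocalRing Fermat.Agent.S53rep Matrix

section PT

variable {𝒪 : Type} [CommRing 𝒪] [IsDomain 𝒪] [IsDiscreteValuationRing 𝒪]
  [IsAdicComplete (maximalIdeal 𝒪) 𝒪]
variable {ι₀ ι₁ κ : Type} [Fintype ι₀] [Fintype ι₁] [Fintype κ]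
variable (D : LocData 𝒪 ι₀ ι₁)

/-- Values of the substitution at the variables of `σ_v - 1`, `v ∈ V`. -/
noncomputable def thS (𝒪 : Type) [CommRing 𝒪] (ι₀ κ : Type) {ι₁ : Type} (c : ι₁ → Ty) (v : ι₁) :
    Matrix (Fin 2) (Fin 2) (Lam 𝒪 ι₀ (ι₁ ⊕ κ)) :=
  match c v with
  | .nr => 0
  | .st s => (MvPowerSeries.X (Sum.inr (Sum.inl v)) : Lam 𝒪 ι₀ (ι₁ ⊕ κ)) • stM _ s

/-- Values of the substitution at the variables `t_v - tb_v`, `v ∈ V`. -/
noncomputable def thT (ι₀ κ : Type) (q : ι₁ → ℕ) (tb : ι₁ → 𝒪) (c : ι₁ → Ty) (v : ι₁) :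
    Lam 𝒪 ι₀ (ι₁ ⊕ κ) :=
  match c v with
  | .nr => MvPowerSeries.X (Sum.inr (Sum.inl v))
  | .st s => MvPowerSeries.C (sg 𝒪 s * ((q v : 𝒪) + 1) - tb v)

/-- Values of the substitution. -/
noncomputable def thVal (κ : Type) (c : ι₀ ⊕ ι₁ → Ty) :
    Var ι₀ (Ka ι₁ κ) → Lam 𝒪 ι₀ (ι₁ ⊕ κ) :=
  Sum.elim (fun p => MvPowerSeries.X (Sum.inl p))
    (Sum.elim (fun p => thS 𝒪 ι₀ κ (fun v => c (Sum.inr v)) p.1 p.2.1 p.2.2)
      (Sum.elim (fun v => thT ι₀ κ D.q₁ D.tb (fun v => c (Sum.inr v)) v)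
        (fun t => MvPowerSeries.X (Sum.inr (Sum.inr t)))))

lemma thVal_mem {c : ι₀ ⊕ ι₁ → Ty} (hc : D.Allowed c) (s : Var ι₀ (Ka ι₁ κ)) :
    thVal D κ c s ∈ maximalIdeal (Lam 𝒪 ι₀ (ι₁ ⊕ κ)) := by
  rcases s with p | ⟨v, i, j⟩ | v | t
  · exact X_mem_maximalIdeal _
  · change thS 𝒪 ι₀ κ (fun v => c (Sum.inr v)) v i j ∈ _
    rw [thS]
    cases hv : c (Sum.inr v) with
    | nr =>
      simp only [hv]
      exact Ideal.zero_mem _
    | st s =>
      simp only [hv]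
      exact Ideal.mul_mem_right _ _ (X_mem_maximalIdeal _)
  · change thT ι₀ κ D.q₁ D.tb (fun v => c (Sum.inr v)) v ∈ _
    rw [thT]
    cases hv : c (Sum.inr v) with
    | nr =>
      simp only [hv]
      exact X_mem_maximalIdeal _
    | st s =>
      simp only [hv]
      rw [mem_maximalIdeal_mvPowerSeries_iff, MvPowerSeries.constantCoeff_C]
      exact hc (Sum.inr v) s hv
  · exact X_mem_maximalIdeal _

/-- The substitution. -/
noncomputable def th (κ : Type) [Fintype κ] {c : ι₀ ⊕ ι₁ → Ty} (hc : D.Allowed c) :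
    LamT 𝒪 ι₀ ι₁ κ →ₐ[𝒪] Lam 𝒪 ι₀ (ι₁ ⊕ κ) := ev (thVal D κ c) (thVal_mem D hc)

/-- The parametrisation. -/
noncomputable def parT (κ : Type) [Fintype κ] {c : ι₀ ⊕ ι₁ → Ty} (hc : D.Allowed c) :
    LamT 𝒪 ι₀ ι₁ κ →ₐ[𝒪] Tgt 𝒪 ι₀ (ι₁ ⊕ κ) :=
  (parOne (ι₁ ⊕ κ) D.h2 D.q₀ D.ε D.η D.hq D.hη (fun v => (c (Sum.inl v)).isSt)).comp (th D κ hc)

/-- **The generic points of the components.** -/
noncomputable def PT (κ : Type) [Fintype κ] {c : ι₀ ⊕ ι₁ → Ty} (hc : D.Allowed c) :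
    Ideal (LamT 𝒪 ι₀ ι₁ κ) := RingHom.ker (parT D κ hc)

theorem PT_isPrime {c : ι₀ ⊕ ι₁ → Ty} (hc : D.Allowed c) : (PT D κ hc).IsPrime :=
  RingHom.ker_isPrime _

variable {c : ι₀ ⊕ ι₁ → Ty} (hc : D.Allowed c)

lemma th_inl (p : (ι₀ × Bool) × Fin 2 × Fin 2) :
    th D κ hc (MvPowerSeries.X (Sum.inl p)) = MvPowerSeries.X (Sum.inl p) := by
  rw [th, ev_X]; rfl

lemma mS_th (v : ι₀) : mS (th D κ hc) v = Sg 𝒪 (ι₁ ⊕ κ) v := by
  ext1 i j
  rw [mS_apply, th_inl, Sg, Matrix.add_apply]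
  rfl

lemma mF_th (v : ι₀) : mF D.ε (th D κ hc) v = Ph (ι₁ ⊕ κ) D.ε v := by
  ext1 i j
  rw [mF_apply, th_inl, Ph, Matrix.add_apply, Matrix.smul_apply, smul_eq_mul,
    MvPowerSeries.algebraMap_apply, Algebra.algebraMap_self_apply]
  rfl

lemma mS₁_th (v : ι₁) : mS₁ (th D κ hc) v = 1 + thS 𝒪 ι₀ κ (fun v => c (Sum.inr v)) v := by
  ext1 i j
  rw [mS₁_apply, th, ev_X, Matrix.add_apply]
  rfl

lemma t_th (v : ι₁) : th D κ hc (MvPowerSeries.X (Sum.inr (Sum.inr (Sum.inl v)))) =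
    thT ι₀ κ D.q₁ D.tb (fun v => c (Sum.inr v)) v := by
  rw [th, ev_X]; rfl

lemma k_th (t : κ) : th D κ hc (MvPowerSeries.X (Sum.inr (Sum.inr (Sum.inr t)))) =
    MvPowerSeries.X (Sum.inr (Sum.inr t)) := by
  rw [th, ev_X]; rfl

lemma mS_parT (v : ι₀) : mS (parT D κ hc) v =
    mS (parOne (ι₁ ⊕ κ) D.h2 D.q₀ D.ε D.η D.hq D.hη (fun v => (c (Sum.inl v)).isSt)) v := by
  rw [parT, mS_comp, mS_th]; rfl

lemma mF_parT (v : ι₀) : mF D.ε (parT D κ hc) v =
    mF D.ε (parOne (ι₁ ⊕ κ) D.h2 D.q₀ D.ε D.η D.hq D.hη (fun v => (c (Sum.inl v)).isSt)) v := by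
  rw [parT, mF_comp, mF_th]; rfl

lemma mS₁_parT_nr (v : ι₁) (hv : c (Sum.inr v) = Ty.nr) : mS₁ (parT D κ hc) v = 1 := by
  rw [parT, mS₁_comp, mS₁_th, thS]
  simp only [hv, add_zero]
  ext i j
  rw [Matrix.map_apply, Matrix.one_apply, Matrix.one_apply]
  split_ifs <;> simp

lemma mS₁_parT_st (v : ι₁) (s : Bool) (hv : c (Sum.inr v) = Ty.st s) :
    ∃ n : Tgt 𝒪 ι₀ (ι₁ ⊕ κ), mS₁ (parT D κ hc) v = 1 + n • stM (Tgt 𝒪 ι₀ (ι₁ ⊕ κ)) s := by
  refine ⟨parOne (ι₁ ⊕ κ) D.h2 D.q₀ D.ε D.η D.hq D.hη (fun v => (c (Sum.inl v)).isSt)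
    (MvPowerSeries.X (Sum.inr (Sum.inl v))), ?_⟩
  rw [parT, mS₁_comp, mS₁_th, thS]
  simp only [hv]
  ext1 i j
  rw [Matrix.map_apply, Matrix.add_apply, map_add, Matrix.smul_apply, smul_eq_mul, map_mul,
    Matrix.add_apply, Matrix.smul_apply, smul_eq_mul]
  congr 1
  · rw [Matrix.one_apply, Matrix.one_apply]
    split_ifs <;> simp
  · congr 1
    cases s <;> fin_cases i <;> fin_cases j <;> simp [stM, sg]

lemma trT_parT_st (v : ι₁) (s : Bool) (hv : c (Sum.inr v) = Ty.st s) :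
    parT D κ hc (trT κ D (Sum.inr v)) = sg _ s * ((D.q₁ v : Tgt 𝒪 ι₀ (ι₁ ⊕ κ)) + 1) := by
  rw [map_trT_inr, parT, AlgHom.comp_apply, t_th, thT]
  simp only [hv]
  rw [algHom_C, map_sub, map_mul, map_sg, map_add, map_natCast, map_one]
  ring

/-- The components satisfy the relations. -/
theorem IT_le_PT : IT κ D ≤ PT D κ hc := by
  rw [PT, IT_le_ker_iff]
  constructor
  · intro v
    have h1 := (locI_le_ker_iff D.q₀ D.ε (fun _ => 2) _).mp
      (locI_le_Pone (κ := ι₁ ⊕ κ) D.h2 D.q₀ D.ε D.η D.hq D.hη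
      (fun v => (c (Sum.inl v)).isSt) D.hε D.hηq) v
    rw [mS_parT, mF_parT]
    rw [map_ofNat] at h1
    exact h1
  · intro v
    cases hv : c (Sum.inr v) with
    | nr =>
      rw [mS₁_parT_nr D hc v hv]
      refine ⟨Matrix.det_one, ?_, ?_⟩
      · rw [Matrix.trace_one]; simp
      · rw [one_pow, one_mul, mul_one]
    | st s =>
      obtain ⟨n, hn⟩ := mS₁_parT_st D hc v s hv (κ := κ)
      rw [hn]
      exact comp_rel_conv n _ s _ (trT_parT_st D hc v s hv)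

/-- On the unramified components. -/
theorem SgT_mem_PT (v : ι₀ ⊕ ι₁) (hv : c v = Ty.nr) (i j : Fin 2) :
    (SgT 𝒪 κ v - 1) i j ∈ PT D κ hc := by
  refine (mem_ker_SgT_iff (parT D κ hc) v).mpr ?_ i j
  rcases v with v | v
  · rw [mST_inl, mS_parT, mS_parOne, if_neg (by simp [hv, Ty.isSt])]
  · rw [mST_inr]
    exact mS₁_parT_nr D hc v hv

theorem sg_eq_of_allowed (v : ι₀) (s : Bool)
    (hv : sg 𝒪 s * ((D.q₀ v : 𝒪) + 1) - 2 * D.ε v ∈ maximalIdeal 𝒪) : sg 𝒪 s = D.ε v := by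
  have h1 : (2 : 𝒪) * (sg 𝒪 s - D.ε v) ∈ maximalIdeal 𝒪 := by
    have h3 : (2 : 𝒪) * (sg 𝒪 s - D.ε v) =
        (sg 𝒪 s * ((D.q₀ v : 𝒪) + 1) - 2 * D.ε v) - sg 𝒪 s * ((D.q₀ v : 𝒪) - 1) := by ring
    rw [h3]
    exact Ideal.sub_mem _ hv (Ideal.mul_mem_left _ _ (D.hq v))
  have h4 : sg 𝒪 s - D.ε v ∈ maximalIdeal 𝒪 := (Ideal.unit_mul_mem_iff_mem _ D.h2).mp h1
  have h5 : (sg 𝒪 s - D.ε v) * (sg 𝒪 s + D.ε v) = 0 := by
    linear_combination sg_mul_self (R := 𝒪) s - D.hε v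
  rcases mul_eq_zero.mp h5 with h6 | h6
  · exact sub_eq_zero.mp h6
  · exfalso
    have h7 : (2 : 𝒪) * sg 𝒪 s ∈ maximalIdeal 𝒪 := by
      have : (2 : 𝒪) * sg 𝒪 s = (sg 𝒪 s - D.ε v) + (sg 𝒪 s + D.ε v) := by ring
      rw [this, h6, add_zero]
      exact h4
    exact (mem_maximalIdeal _).mp h7 (D.h2.mul (isUnit_sg s))

/-- On the Steinberg components. -/
theorem trT_sub_mem_PT (v : ι₀ ⊕ ι₁) (s : Bool) (hv : c v = Ty.st s) :
    trT κ D v - MvPowerSeries.C (sg 𝒪 s * ((D.qT v : 𝒪) + 1)) ∈ PT D κ hc := by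
  rcases v with v | v
  · have hs : sg 𝒪 s = D.ε v := sg_eq_of_allowed D v s (hc (Sum.inl v) s hv)
    have h2 := trace_Ph_sub_mem_Pone (κ := ι₁ ⊕ κ) D.h2 D.q₀ D.ε D.η D.hq D.hη
      (fun v => (c (Sum.inl v)).isSt) D.hηq v (by simp [hv, Ty.isSt])
    rw [Pone, RingHom.mem_ker] at h2
    rw [PT, RingHom.mem_ker, map_sub, map_trT_inl, mF_parT, algHom_C, hs]
    rw [map_sub, algHom_C] at h2
    rw [LocData.qT_inl, ← h2]
    congr 1
    rw [mF, Matrix.trace_fin_two, Matrix.trace_fin_two, map_add]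
    rfl
  · rw [PT, RingHom.mem_ker, map_sub, trT_parT_st D hc v s hv, algHom_C, map_mul, map_sg, map_add,
      map_natCast, map_one, LocData.qT_inr, sub_self]

variable [CharZero 𝒪]

omit [IsAdicComplete (maximalIdeal 𝒪) 𝒪] [Fintype ι₀] [Fintype ι₁] in
/-- The type of a homomorphism at `v`. -/
theorem exists_type {B : Type} [CommRing B] [IsDomain B] [Algebra 𝒪 B]
    (h : LamT 𝒪 ι₀ ι₁ κ →ₐ[𝒪] B) (hI : IT κ D ≤ RingHom.ker h) (v : ι₁) :
    mS₁ h v = 1 ∨ ∃ s, h (trT κ D (Sum.inr v)) = sg B s * ((D.q₁ v : B) + 1) ∧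
      mS₁ h v = 1 + (mS₁ h v 0 0 - 1) • stM B s := by
  obtain ⟨h1, h2, h3⟩ := ((IT_le_ker_iff D h).mp hI).2 v
  refine comp_rel _ _ _ ?_ h1 h2 h3
  have h4 := (D.hq₁ v).map (algebraMap 𝒪 B)
  rw [map_natCast] at h4
  exact h4.ne_zero

/-- **The components** (evaluation form). -/
theorem exists_PT_le_ker {B : Type} [CommRing B] [IsDomain B] [IsLocalRing B]
    [IsNoetherianRing B] [IsAdicComplete (maximalIdeal B) B] [Algebra 𝒪 B]
    [IsLocalHom (algebraMap 𝒪 B)] (h : LamT 𝒪 ι₀ ι₁ κ →ₐ[𝒪] B)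
    (hm : ∀ s, h (MvPowerSeries.X s) ∈ maximalIdeal B)
    (hinj : Function.Injective (algebraMap 𝒪 B)) (hI : IT κ D ≤ RingHom.ker h) :
    ∃ (c : ι₀ ⊕ ι₁ → Ty) (hc : D.Allowed c), PT D κ hc ≤ RingHom.ker h ∧
      ∀ v, c v = Ty.nr ↔ mST h v = 1 := by
  classical
  have hty := exists_type D h hI
  have hI0 := ((IT_le_ker_iff D h).mp hI).1
  have hI0' : locI (Ka ι₁ κ) D.q₀ D.ε (fun _ => 2) ≤ RingHom.ker h := le_sup_left.trans hI
  -- the sign at `v ∈ T₀`
  have hsg0 : ∀ v : ι₀, ∃ s : Bool, sg 𝒪 s = D.ε v := by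
    intro v
    have h5 : (D.ε v - 1) * (D.ε v + 1) = 0 := by linear_combination D.hε v
    rcases mul_eq_zero.mp h5 with h6 | h6
    · exact ⟨true, by simp only [sg, if_true]; linear_combination -h6⟩
    · exact ⟨false, by simp only [sg, Bool.false_eq_true, if_false]; linear_combination -h6⟩
  choose s0 hs0 using hsg0
  let c : ι₀ ⊕ ι₁ → Ty := Sum.elim (fun v => if mS h v = 1 then Ty.nr else Ty.st (s0 v))
    (fun v => if hv : mS₁ h v = 1 then Ty.nr else Ty.st ((hty v).resolve_left hv).choose)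
  have hcl : ∀ v, c (Sum.inl v) = if mS h v = 1 then Ty.nr else Ty.st (s0 v) := fun v => rfl
  have hcr : ∀ v, c (Sum.inr v) = if hv : mS₁ h v = 1 then Ty.nr else
    Ty.st ((hty v).resolve_left hv).choose := fun v => rfl
  have hcr' : ∀ v, (mS₁ h v = 1 ∧ c (Sum.inr v) = Ty.nr) ∨ (mS₁ h v ≠ 1 ∧ ∃ s,
      c (Sum.inr v) = Ty.st s ∧ h (trT κ D (Sum.inr v)) = sg B s * ((D.q₁ v : B) + 1) ∧
      mS₁ h v = 1 + (mS₁ h v 0 0 - 1) • stM B s) := by
    intro v
    by_cases hv : mS₁ h v = 1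
    · exact Or.inl ⟨hv, by rw [hcr, dif_pos hv]⟩
    · refine Or.inr ⟨hv, ((hty v).resolve_left hv).choose, by rw [hcr, dif_neg hv],
        ((hty v).resolve_left hv).choose_spec⟩
  have hc : D.Allowed c := by
    rintro (v | v) s hvs
    · rw [hcl] at hvs
      split_ifs at hvs with h1
      obtain rfl : s0 v = s := by injection hvs
      rw [hs0]
      change D.ε v * ((D.q₀ v : 𝒪) + 1) - 2 * D.ε v ∈ _
      have : D.ε v * ((D.q₀ v : 𝒪) + 1) - 2 * D.ε v = D.ε v * ((D.q₀ v : 𝒪) - 1) := by ring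
      rw [this]
      exact Ideal.mul_mem_left _ _ (D.hq v)
    · rcases hcr' v with ⟨-, h1⟩ | ⟨-, s', h1, h2, -⟩
      · rw [hvs] at h1; exact absurd h1 (by simp)
      · obtain rfl : s = s' := by rw [hvs] at h1; injection h1
        change sg 𝒪 s * ((D.q₁ v : 𝒪) + 1) - D.tb v ∈ _
        rw [map_trT_inr] at h2
        have h3 : algebraMap 𝒪 B (sg 𝒪 s * ((D.q₁ v : 𝒪) + 1) - D.tb v) ∈ maximalIdeal B := by
          rw [map_sub, map_mul, map_sg, map_add, map_natCast, map_one]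
          have h4 := hm (Sum.inr (Sum.inr (Sum.inl v)))
          convert h4 using 1
          linear_combination -h2
        exact (mem_maximalIdeal _).mpr fun hu => (mem_maximalIdeal _).mp h3 (hu.map _)
  refine ⟨c, hc, ?_, ?_⟩
  · -- the factorisation
    let b : Var ι₀ (ι₁ ⊕ κ) → B := Sum.elim (fun p => h (MvPowerSeries.X (Sum.inl p)))
      (Sum.elim (fun v => if mS₁ h v = 1 then h (MvPowerSeries.X (Sum.inr (Sum.inr (Sum.inl v))))
        else h (MvPowerSeries.X (Sum.inr (Sum.inl (v, 0, 0)))))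
        (fun t => h (MvPowerSeries.X (Sum.inr (Sum.inr (Sum.inr t))))))
    have hb : ∀ s, b s ∈ maximalIdeal B := by
      rintro (p | v | t)
      · exact hm _
      · change (if mS₁ h v = 1 then _ else _) ∈ _
        split_ifs
        · exact hm _
        · exact hm _
      · exact hm _
    let h' : Lam 𝒪 ι₀ (ι₁ ⊕ κ) →ₐ[𝒪] B := ev b hb
    have hh' : h' = ev b hb := rfl
    have hfac : h'.comp (th D κ hc) = h := by
      symm
      refine algHom_ext_of_mem (maximalIdeal B) hm ?_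
      rintro (p | ⟨v, i, j⟩ | v | t)
      · rw [AlgHom.comp_apply, th_inl, hh', ev_X]; rfl
      · rw [AlgHom.comp_apply]
        have e1 : th D κ hc (MvPowerSeries.X (Sum.inr (Sum.inl (v, i, j)))) =
            thS 𝒪 ι₀ κ (fun v => c (Sum.inr v)) v i j := by rw [th, ev_X]; rfl
        have e2 := mS₁_apply h v i j
        rw [e1, thS]
        rcases hcr' v with ⟨h1, h2⟩ | ⟨h1, s, h2, -, h4⟩
        · simp only [h2, Matrix.zero_apply, map_zero]
          rw [h1] at e2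
          linear_combination -e2
        · simp only [h2, Matrix.smul_apply, smul_eq_mul, map_mul]
          have e3 : h' (MvPowerSeries.X (Sum.inr (Sum.inl v))) = mS₁ h v 0 0 - 1 := by
            rw [hh', ev_X, mS₁_apply, Matrix.one_apply_eq, add_sub_cancel_left]
            change (if mS₁ h v = 1 then _ else _) = _
            rw [if_neg h1]
          have e4 : h' (stM (Lam 𝒪 ι₀ (ι₁ ⊕ κ)) s i j) = stM B s i j := by
            cases s <;> fin_cases i <;> fin_cases j <;> simp [stM, sg]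
          rw [e3, e4]
          rw [h4, Matrix.add_apply, Matrix.smul_apply, smul_eq_mul] at e2
          linear_combination -e2
      · rw [AlgHom.comp_apply, t_th, thT]
        rcases hcr' v with ⟨h1, h2⟩ | ⟨h1, s, h2, h3, -⟩
        · simp only [h2]
          rw [hh', ev_X]
          change _ = (if mS₁ h v = 1 then _ else _)
          rw [if_pos h1]
        · simp only [h2]
          rw [map_trT_inr] at h3
          rw [algHom_C, map_sub, map_mul, map_sg, map_add, map_natCast, map_one]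
          linear_combination h3
      · rw [AlgHom.comp_apply, k_th, hh', ev_X]; rfl
    have hS' : ∀ v, mS h' v = mS h v := by
      intro v
      ext i j
      rw [mS_apply, mS_apply, hh', ev_X]; rfl
    have hF' : ∀ v, mF D.ε h' v = mF D.ε h v := by
      intro v
      ext i j
      rw [mF_apply, mF_apply, hh', ev_X]; rfl
    have hker : Pone (ι₁ ⊕ κ) D.h2 D.q₀ D.ε D.η D.hq D.hη (fun v => (c (Sum.inl v)).isSt) ≤
        RingHom.ker h' := by
      refine Pone_le_ker D.h2 D.q₀ D.ε D.η D.hq D.hη _ D.hε D.hηq D.hq₀ h'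
        (fun s => by rw [hh', ev_X]; exact hb s) hinj ?_ ?_
      · rw [locI_le_ker_iff]
        intro v
        rw [hS', hF', map_ofNat]
        exact hI0 v
      · intro v
        have e5 : ∀ i j, h' (MvPowerSeries.X (Sum.inl ((v, false), (i, j)))) =
            mS h v i j - (1 : Matrix (Fin 2) (Fin 2) B) i j := by
          intro i j
          rw [← hS', mS_apply, add_sub_cancel_left]
        rw [hcl]
        constructor
        · intro h5
          by_contra hne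
          push Not at hne
          have h6 : mS h v = 1 := by
            ext i j
            have := hne i j
            rw [e5, sub_eq_zero] at this
            exact this
          rw [if_pos h6] at h5
          simp [Ty.isSt] at h5
        · rintro ⟨i, j, hij⟩
          rw [e5] at hij
          rw [if_neg]
          · rfl
          · intro h6
            rw [h6, sub_self] at hij
            exact hij rfl
    intro f hf
    rw [RingHom.mem_ker, ← hfac, AlgHom.comp_apply]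
    rw [PT, RingHom.mem_ker, parT, AlgHom.comp_apply] at hf
    exact hker hf
  · rintro (v | v)
    · rw [hcl, mST_inl]
      split_ifs with h1
      · simp [h1]
      · simp [h1]
    · rw [mST_inr]
      rcases hcr' v with ⟨h1, h2⟩ | ⟨h1, s, h2, -⟩
      · simp [h1, h2]
      · simp [h1, h2]

end PT

end Fermat.Agent.LocRing
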