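import Mathlib
import Fermat.Agent.LocRing.PT
import Fermat.Agent.Patch.PowerSeries

set_option autoImplicit false
set_option linter.unusedSectionVars false
set_option linter.unusedSimpArgs false

/-!
# Covering by components, dimension, test primes
-/

namespace Fermat.Agent.LocRing

open IsLocalRing Fermat.Agent.S53rep Matrix

section Cov

variable {𝒪 : Type} [CommRing 𝒪] [IsDomain 𝒪] [IsDiscreteValuationRing 𝒪]
  [IsAdicComplete (maximalIdeal 𝒪) 𝒪]
variable {ι₀ ι₁ κ : Type} [Fintype ι₀] [Fintype ι₁] [Fintype κ]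
variable (D : LocData 𝒪 ι₀ ι₁)

theorem algebraMap_quot_injective {σ : Type} {P : Ideal (MvPowerSeries σ 𝒪)} [hP : P.IsPrime]
    {ϖ : 𝒪} (hϖ : Irreducible ϖ) (h : MvPowerSeries.C ϖ ∉ P) :
    Function.Injective (algebraMap 𝒪 (MvPowerSeries σ 𝒪 ⧸ P)) := by
  rw [injective_iff_map_eq_zero]
  intro x hx
  by_contra hne
  obtain ⟨n, u, hu⟩ := IsDiscreteValuationRing.eq_unit_mul_pow_irreducible hne hϖ
  have h1 : (MvPowerSeries.C x : MvPowerSeries σ 𝒪) ∈ P := by
    rw [← Ideal.Quotient.eq_zero_iff_mem]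
    rw [IsScalarTower.algebraMap_apply 𝒪 (MvPowerSeries σ 𝒪) (MvPowerSeries σ 𝒪 ⧸ P),
      MvPowerSeries.algebraMap_apply, Algebra.algebraMap_self_apply] at hx
    exact hx
  rw [hu, map_mul, map_pow] at h1
  rw [Ideal.unit_mul_mem_iff_mem _ (u.isUnit.map MvPowerSeries.C)] at h1
  exact h (hP.mem_of_pow_mem _ h1)

/-- **Covering by the components.** -/
theorem exists_PT_le [CharZero 𝒪] {ϖ : 𝒪} (hϖ : Irreducible ϖ) (P : Ideal (LamT 𝒪 ι₀ ι₁ κ))
    [hP : P.IsPrime] (hI : IT κ D ≤ P) (hϖP : MvPowerSeries.C ϖ ∉ P) :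
    ∃ (c : ι₀ ⊕ ι₁ → Ty) (hc : D.Allowed c), PT D κ hc ≤ P ∧
      ∀ v, c v = Ty.nr ↔ ∀ i j, (SgT 𝒪 κ v - 1) i j ∈ P := by
  have hinj := algebraMap_quot_injective hϖ hϖP
  have hker : RingHom.ker (Ideal.Quotient.mkₐ 𝒪 P) = P := Ideal.Quotient.mkₐ_ker 𝒪 P
  obtain ⟨c, hc, h1, h2⟩ := exists_PT_le_ker D (Ideal.Quotient.mkₐ 𝒪 P) (fun s =>
    (IsLocalRing.map_maximalIdeal_le (Ideal.Quotient.mk P))
      (Ideal.mem_map_of_mem _ (X_mem_maximalIdeal s))) hinj (by rw [hker]; exact hI)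
  refine ⟨c, hc, by rw [hker] at h1; exact h1, fun v => ?_⟩
  rw [h2, ← mem_ker_SgT_iff, hker]

end Cov

section DimAlg

variable {B : Type} [CommRing B] [IsDomain B] [IsLocalRing B]

lemma special_fibre₀ (h2 : IsUnit (2 : B)) (S F : Matrix (Fin 2) (Fin 2) B) (e : B) (q : ℕ)
    (hq : (q : B) = 1) (he : e ^ 2 = 1)
    (hdet : S.det = 1) (hdetF : F.det = q) (htr : S.trace = 2) (hrel : F * S = S ^ q * F)
    (hF00 : F 0 0 - e ∈ maximalIdeal B)
    (p0 : F 0 0 - F 1 1 = 2 * S 0 1) (p1 : F 0 1 = - S 1 0) (p2 : F 1 0 = 0) :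
    S = 1 ∧ F = e • (1 : Matrix (Fin 2) (Fin 2) B) := by
  set N := S - 1 with hN
  have hSN : S = 1 + N := by rw [hN]; simp
  have h11 : N 1 1 = - N 0 0 := by
    rw [Matrix.trace_fin_two] at htr
    simp only [hN, Matrix.sub_apply, Matrix.one_apply_eq]
    linear_combination htr
  have h01 : S 0 1 = N 0 1 := by simp [hN]
  have h10 : S 1 0 = N 1 0 := by simp [hN]
  have hdetN : N 0 0 * N 0 0 + N 0 1 * N 1 0 = 0 := by
    rw [Matrix.det_fin_two] at hdet
    have h1 : S 0 0 = 1 + N 0 0 := by simp [hN]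
    have h2 : S 1 1 = 1 - N 0 0 := by
      have : S 1 1 = 1 + N 1 1 := by simp [hN]
      rw [this, h11]; ring
    rw [h1, h2, h01, h10] at hdet
    linear_combination (-1 : B) * hdet
  have hNN : N * N = 0 := by
    ext i j
    fin_cases i <;> fin_cases j <;> simp [Matrix.mul_apply, Fin.sum_univ_two, h11]
    · linear_combination hdetN
    · ring
    · ring
    · linear_combination hdetN
  have hFN : F * N = N * F := by
    rw [hSN, one_add_pow_of_sq_zero hNN, mul_add, add_mul, mul_one, one_mul,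
      smul_mul_assoc, hq, one_smul] at hrel
    exact add_left_cancel hrel
  have e00 := congrFun (congrFun hFN 0) 0
  have e01 := congrFun (congrFun hFN 0) 1
  simp only [Matrix.mul_apply, Fin.sum_univ_two, h11] at e00 e01
  rw [h01] at p0
  rw [h10] at p1
  have n10 : N 1 0 = 0 := by
    have : N 1 0 * N 1 0 = 0 := by
      rw [p1, p2] at e00
      linear_combination -e00
    exact mul_self_eq_zero.mp this
  rw [n10, neg_zero] at p1
  have n00 : N 0 0 = 0 := by
    rw [n10, mul_zero, add_zero] at hdetN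
    exact mul_self_eq_zero.mp hdetN
  have n01 : N 0 1 = 0 := by
    have : (2 : B) * (N 0 1 * N 0 1) = 0 := by
      rw [n00, p1] at e01
      linear_combination e01 - N 0 1 * p0
    exact mul_self_eq_zero.mp (h2.mul_right_eq_zero.mp this)
  have hN0 : N = 0 := by
    ext i j
    fin_cases i <;> fin_cases j
    · simpa using n00
    · simpa using n01
    · simpa using n10
    · simpa [n00] using h11
  refine ⟨by rw [hSN, hN0, add_zero], ?_⟩
  rw [n01, mul_zero, sub_eq_zero] at p0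
  rw [Matrix.det_fin_two, p1, p2, ← p0, hq] at hdetF
  have h3 : (F 0 0 - e) * (F 0 0 + e) = 0 := by linear_combination hdetF - he
  have h4 : IsUnit (F 0 0 + e) := by
    by_contra hn
    have h5 : F 0 0 + e ∈ maximalIdeal B := (mem_maximalIdeal _).mpr hn
    have h6 : 2 * e ∈ maximalIdeal B := by
      have : 2 * e = (F 0 0 + e) - (F 0 0 - e) := by ring
      rw [this]
      exact Ideal.sub_mem _ h5 hF00
    exact (mem_maximalIdeal _).mp h6 (h2.mul (IsUnit.of_mul_eq_one e (by rw [← pow_two]; exact he)))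
  have h5 : F 0 0 = e := sub_eq_zero.mp (h4.mul_left_eq_zero.mp h3)
  ext i j
  fin_cases i <;> fin_cases j
  · simp [h5]
  · simp [p1]
  · simp [p2]
  · simp [← p0, h5]

end DimAlg

section Dim

variable {𝒪 : Type} [CommRing 𝒪] [IsDomain 𝒪] [IsDiscreteValuationRing 𝒪]
  [IsAdicComplete (maximalIdeal 𝒪) 𝒪]
variable {ι₀ ι₁ κ : Type} [Fintype ι₀] [Fintype ι₁] [Fintype κ]
variable (D : LocData 𝒪 ι₀ ι₁)

/-- The parameters. -/
noncomputable def prm (ι₀ ι₁ κ : Type) (ϖ : 𝒪) :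
    Unit ⊕ ((ι₀ × Fin 3) ⊕ (ι₁ ⊕ κ)) → LamT 𝒪 ι₀ ι₁ κ :=
  Sum.elim (fun _ => MvPowerSeries.C ϖ) (Sum.elim
    (fun p => ![MvPowerSeries.X (Sum.inl ((p.1, true), (0, 0))) -
        MvPowerSeries.X (Sum.inl ((p.1, true), (1, 1))) -
        2 * MvPowerSeries.X (Sum.inl ((p.1, false), (0, 1))),
      MvPowerSeries.X (Sum.inl ((p.1, true), (0, 1))) +
        MvPowerSeries.X (Sum.inl ((p.1, false), (1, 0))),
      MvPowerSeries.X (Sum.inl ((p.1, true), (1, 0)))] p.2)
    (Sum.elim (fun v => MvPowerSeries.X (Sum.inr (Sum.inr (Sum.inl v))) -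
      MvPowerSeries.X (Sum.inr (Sum.inl (v, 0, 0))))
      (fun t => MvPowerSeries.X (Sum.inr (Sum.inr (Sum.inr t))))))

lemma prm_mem {ϖ : 𝒪} (hϖ : ϖ ∈ maximalIdeal 𝒪) (s : Unit ⊕ ((ι₀ × Fin 3) ⊕ (ι₁ ⊕ κ))) :
    prm ι₀ ι₁ κ ϖ s ∈ maximalIdeal (LamT 𝒪 ι₀ ι₁ κ) := by
  rcases s with _ | ⟨v, i⟩ | v | t
  · change MvPowerSeries.C ϖ ∈ _
    rw [mem_maximalIdeal_mvPowerSeries_iff, MvPowerSeries.constantCoeff_C]
    exact hϖ
  · fin_cases i
    · exact Ideal.sub_mem _ (Ideal.sub_mem _ (X_mem_maximalIdeal _) (X_mem_maximalIdeal _))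
        (Ideal.mul_mem_left _ _ (X_mem_maximalIdeal _))
    · exact Ideal.add_mem _ (X_mem_maximalIdeal _) (X_mem_maximalIdeal _)
    · exact X_mem_maximalIdeal _
  · exact Ideal.sub_mem _ (X_mem_maximalIdeal _) (X_mem_maximalIdeal _)
  · exact X_mem_maximalIdeal _

/-- A prime containing the variables and `ϖ` is maximal. -/
lemma eq_maximalIdeal_of_mem {σ : Type} [Finite σ] {ϖ : 𝒪} (hϖ : Irreducible ϖ)
    (P : Ideal (MvPowerSeries σ 𝒪)) [hP : P.IsPrime] (h1 : MvPowerSeries.C ϖ ∈ P)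
    (h2 : ∀ s, (MvPowerSeries.X s : MvPowerSeries σ 𝒪) ∈ P) :
    P = maximalIdeal (MvPowerSeries σ 𝒪) := by
  refine le_antisymm (le_maximalIdeal hP.ne_top) ?_
  intro f hf
  have h0 : f - MvPowerSeries.C (MvPowerSeries.constantCoeff f) ∈
      (Ideal.span (Set.range (MvPowerSeries.X : σ → MvPowerSeries σ 𝒪))) ^ 1 := by
    refine mem_span_X_pow_of_coeff_eq_zero ?_
    intro α hα
    have h0 : α = 0 := by
      have : α.degree = 0 := by omega
      rwa [Finsupp.degree_eq_zero_iff] at this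
    subst h0
    simp
  have h3 : Ideal.span (Set.range (MvPowerSeries.X : σ → MvPowerSeries σ 𝒪)) ≤ P := by
    rw [Ideal.span_le]
    rintro _ ⟨s, rfl⟩
    exact h2 s
  rw [pow_one] at h0
  have h4 := h3 h0
  have h5 : MvPowerSeries.C (MvPowerSeries.constantCoeff f) ∈ P := by
    rw [mem_maximalIdeal_mvPowerSeries_iff, hϖ.maximalIdeal_eq, Ideal.mem_span_singleton] at hf
    obtain ⟨y, hy⟩ := hf
    rw [hy, map_mul]
    exact Ideal.mul_mem_right _ _ h1
  have h6 := Ideal.add_mem _ h4 h5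
  rwa [sub_add_cancel] at h6

/-- **The dimension of the ring of local relations.** -/
theorem ringKrullDim_IT_le : ringKrullDim (LamT 𝒪 ι₀ ι₁ κ ⧸ IT κ D) ≤
    ((1 + 3 * Fintype.card ι₀ + Fintype.card ι₁ + Fintype.card κ : ℕ) : WithBot ℕ∞) := by
  classical
  obtain ⟨ϖ, hϖ⟩ := IsDiscreteValuationRing.exists_irreducible 𝒪
  have hϖm : ϖ ∈ maximalIdeal 𝒪 := (mem_maximalIdeal _).mpr hϖ.not_isUnit
  have h1 := Fermat.Agent.Patch.ringKrullDim_quotient_le_card (IT κ D)
    (Finset.univ.image (prm ι₀ ι₁ κ ϖ)) (fun z hz => by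
      rw [Finset.mem_image] at hz
      obtain ⟨s, -, rfl⟩ := hz
      exact prm_mem hϖm s) ?_
  · refine h1.trans ?_
    have h2 : (Finset.univ.image (prm ι₀ ι₁ κ ϖ)).card ≤
        1 + 3 * Fintype.card ι₀ + Fintype.card ι₁ + Fintype.card κ := by
      refine Finset.card_image_le.trans ?_
      rw [Finset.card_univ, Fintype.card_sum, Fintype.card_sum, Fintype.card_sum, Fintype.card_prod,
        Fintype.card_unit, Fintype.card_fin]
      omega
    exact_mod_cast h2
  · intro P hP hI hs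
    have hprm : ∀ s, prm ι₀ ι₁ κ ϖ s ∈ P := fun s => hs _ (Finset.mem_image_of_mem _ (Finset.mem_univ s))
    have hC : MvPowerSeries.C ϖ ∈ P := hprm (Sum.inl ())
    refine eq_maximalIdeal_of_mem hϖ P hC ?_
    set h := Ideal.Quotient.mkₐ 𝒪 P with hh
    have hker : RingHom.ker h = P := Ideal.Quotient.mkₐ_ker 𝒪 P
    have hmem : ∀ f, f ∈ P ↔ h f = 0 := fun f => by
      rw [← RingHom.mem_ker, hker]
    have hm : ∀ s, h (MvPowerSeries.X s) ∈ maximalIdeal (LamT 𝒪 ι₀ ι₁ κ ⧸ P) := fun s =>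
      (IsLocalRing.map_maximalIdeal_le (Ideal.Quotient.mk P))
        (Ideal.mem_map_of_mem _ (X_mem_maximalIdeal s))
    have hal : ∀ x ∈ maximalIdeal 𝒪, algebraMap 𝒪 (LamT 𝒪 ι₀ ι₁ κ ⧸ P) x = 0 := by
      intro x hx
      rw [hϖ.maximalIdeal_eq, Ideal.mem_span_singleton] at hx
      obtain ⟨y, rfl⟩ := hx
      rw [map_mul, ← algHom_C h ϖ, (hmem _).mp hC, zero_mul]
    rw [← hker, IT_le_ker_iff] at hI
    have h2B : IsUnit (2 : LamT 𝒪 ι₀ ι₁ κ ⧸ P) := by
      have := D.h2.map (algebraMap 𝒪 (LamT 𝒪 ι₀ ι₁ κ ⧸ P))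
      rwa [map_ofNat] at this
    have hv0 : ∀ v : ι₀, mS h v = 1 ∧ mF D.ε h v = algebraMap 𝒪 (LamT 𝒪 ι₀ ι₁ κ ⧸ P) (D.ε v) •
        (1 : Matrix (Fin 2) (Fin 2) (LamT 𝒪 ι₀ ι₁ κ ⧸ P)) := by
      intro v
      obtain ⟨e1, e2, e3, e4⟩ := hI.1 v
      have hqv := hal _ (D.hq v)
      rw [map_sub, map_natCast, map_one, sub_eq_zero] at hqv
      refine special_fibre₀ h2B _ _ _ (D.q₀ v) hqv (by rw [← map_pow, D.hε, map_one]) e1 e2 e3 e4
        ?_ ?_ ?_ ?_
      · rw [mF_apply, Matrix.one_apply_eq, mul_one, add_sub_cancel_left]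
        exact hm _
      · have := (hmem _).mp (hprm (Sum.inr (Sum.inl (v, 0))))
        change h (MvPowerSeries.X (Sum.inl ((v, true), (0, 0))) -
          MvPowerSeries.X (Sum.inl ((v, true), (1, 1))) -
          2 * MvPowerSeries.X (Sum.inl ((v, false), (0, 1)))) = 0 at this
        rw [map_sub, map_sub, map_mul, map_ofNat] at this
        rw [mF_apply, mF_apply, mS_apply, Matrix.one_apply_eq, Matrix.one_apply_eq,
          Matrix.one_apply_ne (by decide)]
        linear_combination this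
      · have := (hmem _).mp (hprm (Sum.inr (Sum.inl (v, 1))))
        change h (MvPowerSeries.X (Sum.inl ((v, true), (0, 1))) +
          MvPowerSeries.X (Sum.inl ((v, false), (1, 0)))) = 0 at this
        rw [map_add] at this
        rw [mF_apply, mS_apply, Matrix.one_apply_ne (by decide), Matrix.one_apply_ne (by decide)]
        linear_combination this
      · have := (hmem _).mp (hprm (Sum.inr (Sum.inl (v, 2))))
        change h (MvPowerSeries.X (Sum.inl ((v, true), (1, 0)))) = 0 at this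
        rw [mF_apply, Matrix.one_apply_ne (by decide), this]
        ring
    have hv1 : ∀ v : ι₁, mS₁ h v = 1 ∧
        h (MvPowerSeries.X (Sum.inr (Sum.inr (Sum.inl v)))) = 0 := by
      intro v
      obtain ⟨e1, e2, e3⟩ := hI.2 v
      have hp := (hmem _).mp (hprm (Sum.inr (Sum.inr (Sum.inl v))))
      change h (MvPowerSeries.X (Sum.inr (Sum.inr (Sum.inl v))) -
        MvPowerSeries.X (Sum.inr (Sum.inl (v, 0, 0)))) = 0 at hp
      rw [map_sub] at hp
      have h00 := mS₁_apply h v 0 0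
      rw [Matrix.one_apply_eq] at h00
      have hq1 : (D.q₁ v : LamT 𝒪 ι₀ ι₁ κ ⧸ P) ≠ 0 := by
        have h4 := (D.hq₁ v).map (algebraMap 𝒪 (LamT 𝒪 ι₀ ι₁ κ ⧸ P))
        rw [map_natCast] at h4
        exact h4.ne_zero
      rcases comp_rel _ _ _ hq1 e1 e2 e3 with h5 | ⟨s, h5, h6⟩
      · refine ⟨h5, ?_⟩
        rw [h5, Matrix.one_apply_eq] at h00
        linear_combination hp - h00
      · rw [map_trT_inr] at h5
        have h7 : h (MvPowerSeries.X (Sum.inr (Sum.inr (Sum.inl v)))) =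
            algebraMap 𝒪 (LamT 𝒪 ι₀ ι₁ κ ⧸ P) (sg 𝒪 s * ((D.q₁ v : 𝒪) + 1) - D.tb v) := by
          rw [map_sub, map_mul, map_sg, map_add, map_natCast, map_one]
          linear_combination h5
        have h8 : sg 𝒪 s * ((D.q₁ v : 𝒪) + 1) - D.tb v ∈ maximalIdeal 𝒪 := by
          refine (mem_maximalIdeal _).mpr fun hu => ?_
          have := hu.map (algebraMap 𝒪 (LamT 𝒪 ι₀ ι₁ κ ⧸ P))
          rw [← h7] at this
          exact (mem_maximalIdeal _).mp (hm _) this
        rw [hal _ h8] at h7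
        refine ⟨?_, h7⟩
        have h9 : mS₁ h v 0 0 - 1 = 0 := by
          rw [h00]
          linear_combination h7 - hp
        rw [h6, h9, zero_smul, add_zero]
    rintro (⟨⟨v, b⟩, i, j⟩ | ⟨v, i, j⟩ | v | t)
    · rw [hmem]
      cases b
      · have := mS_apply h v i j
        rw [(hv0 v).1] at this
        linear_combination -this
      · have := mF_apply D.ε h v i j
        rw [(hv0 v).2, Matrix.smul_apply, smul_eq_mul] at this
        linear_combination -this
    · rw [hmem]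
      have := mS₁_apply h v i j
      rw [(hv1 v).1] at this
      linear_combination -this
    · rw [hmem]
      exact (hv1 v).2
    · exact hprm (Sum.inr (Sum.inr (Sum.inr t)))

end Dim

end Fermat.Agent.LocRing
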