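import Mathlib
import Fermat.Agent.LocRing.Cov

set_option autoImplicit false
set_option linter.unusedSectionVars false
set_option linter.unusedSimpArgs false
set_option linter.unusedVariables false

/-!
# Test points
-/

namespace Fermat.Agent.LocRing

open IsLocalRing Fermat.Agent.S53rep Matrix

section Test

variable {𝒪 : Type} [CommRing 𝒪] [IsDomain 𝒪] [IsDiscreteValuationRing 𝒪]
  [IsAdicComplete (maximalIdeal 𝒪) 𝒪]
variable {ι₀ ι₁ κ : Type} [Fintype ι₀] [Fintype ι₁] [Fintype κ]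
variable (D : LocData 𝒪 ι₀ ι₁)

/-- The ring of one parameter. -/
abbrev A1 (𝒪 : Type) [CommRing 𝒪] : Type := MvPowerSeries (Fin 1) 𝒪

/-- The parameter. -/
noncomputable def T1 (𝒪 : Type) [CommRing 𝒪] : A1 𝒪 := MvPowerSeries.X 0

lemma T1_mem : T1 𝒪 ∈ maximalIdeal (A1 𝒪) := X_mem_maximalIdeal _

lemma T1_ne_zero : T1 𝒪 ≠ 0 := by
  intro h
  have := congrArg (MvPowerSeries.coeff (Finsupp.single 0 1)) h
  rw [T1, MvPowerSeries.coeff_X, if_pos rfl, map_zero] at this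
  exact one_ne_zero this

omit [IsDomain 𝒪] [IsDiscreteValuationRing 𝒪] [IsAdicComplete (maximalIdeal 𝒪) 𝒪] in
lemma constantCoeff_T1 : MvPowerSeries.constantCoeff (T1 𝒪) = 0 := by
  rw [T1]; simp

lemma algebraMap_A1_injective : Function.Injective (algebraMap 𝒪 (A1 𝒪)) := by
  intro x y hxy
  have := congrArg (MvPowerSeries.constantCoeff) hxy
  simpa [MvPowerSeries.algebraMap_apply] using this

/-- `T1` is transcendental, in a weak form. -/
lemma T1_ne_algebraMap (x : 𝒪) : T1 𝒪 ≠ algebraMap 𝒪 (A1 𝒪) x := by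
  intro h
  have h1 := congrArg (MvPowerSeries.constantCoeff) h
  rw [constantCoeff_T1] at h1
  have h2 : x = 0 := by simpa [MvPowerSeries.algebraMap_apply] using h1.symm
  rw [h2, map_zero] at h
  exact T1_ne_zero h

omit [IsDomain 𝒪] [IsDiscreteValuationRing 𝒪] [IsAdicComplete (maximalIdeal 𝒪) 𝒪] in
lemma isUnit_one_add_T1 : IsUnit (1 + T1 𝒪) := by
  rw [MvPowerSeries.isUnit_iff_constantCoeff]
  simp [constantCoeff_T1]

/-- The inverse of `1 + T1`. -/
noncomputable def U1 (𝒪 : Type) [CommRing 𝒪] [IsDomain 𝒪] [IsDiscreteValuationRing 𝒪] : A1 𝒪 :=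
  ((isUnit_one_add_T1 (𝒪 := 𝒪)).unit⁻¹ : (A1 𝒪)ˣ)

lemma mul_U1 : (1 + T1 𝒪) * U1 𝒪 = 1 := (isUnit_one_add_T1 (𝒪 := 𝒪)).mul_val_inv

lemma U1_sub_one_mem : U1 𝒪 - 1 ∈ maximalIdeal (A1 𝒪) := by
  have : U1 𝒪 - 1 = - (T1 𝒪 * U1 𝒪) := by linear_combination mul_U1 (𝒪 := 𝒪)
  rw [this]
  exact (neg_mem_iff (S := Ideal (A1 𝒪))).mpr (Ideal.mul_mem_right _ _ T1_mem)

/-- Inertia at the test point, `v ∈ T₀`. -/
noncomputable def pS (𝒪 : Type) [CommRing 𝒪] (c : ι₀ ⊕ ι₁ → Ty) (v : ι₀) :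
    Matrix (Fin 2) (Fin 2) (A1 𝒪) :=
  if c (Sum.inl v) = Ty.nr then 1 else !![1, T1 𝒪; 0, 1]

/-- Frobenius at the test point, `v ∈ T₀`. -/
noncomputable def pF (d : ι₀ ⊕ ι₁ → Ty) (v : ι₀) : Matrix (Fin 2) (Fin 2) (A1 𝒪) :=
  algebraMap 𝒪 (A1 𝒪) (D.ε v) • (if d (Sum.inl v) = Ty.nr then
    !![1 + T1 𝒪, 0; 0, (D.q₀ v : A1 𝒪) * U1 𝒪] else !![(D.q₀ v : A1 𝒪), 0; 0, 1])

/-- Inertia (minus 1) at the test point, `v ∈ V`. -/
noncomputable def pS₁ (𝒪 : Type) [CommRing 𝒪] (c : ι₀ ⊕ ι₁ → Ty) (v : ι₁) :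
    Matrix (Fin 2) (Fin 2) (A1 𝒪) :=
  match c (Sum.inr v) with
  | .nr => 0
  | .st s => T1 𝒪 • stM (A1 𝒪) s

/-- Trace minus `tb` at the test point, `v ∈ V`. -/
noncomputable def pT₁ (d : ι₀ ⊕ ι₁ → Ty) (v : ι₁) : A1 𝒪 :=
  match d (Sum.inr v) with
  | .nr => T1 𝒪
  | .st s => algebraMap 𝒪 (A1 𝒪) (sg 𝒪 s * ((D.q₁ v : 𝒪) + 1) - D.tb v)

/-- The values at the test point. -/
noncomputable def pVal (κ : Type) (c d : ι₀ ⊕ ι₁ → Ty) : Var ι₀ (Ka ι₁ κ) → A1 𝒪 :=
  evMval D.ε (pS 𝒪 c) (pF D d) (Sum.elim (fun p => pS₁ 𝒪 c p.1 p.2.1 p.2.2)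
    (Sum.elim (fun v => pT₁ D d v) (fun _ => 0)))

lemma pVal_mem {c d : ι₀ ⊕ ι₁ → Ty} (hd : D.Allowed d) (s : Var ι₀ (Ka ι₁ κ)) :
    pVal D κ c d s ∈ maximalIdeal (A1 𝒪) := by
  refine evMval_mem _ _ _ _ ?_ ?_ ?_ s
  · intro v i j
    rw [pS]
    split_ifs
    · rw [sub_self]; exact Ideal.zero_mem _
    · fin_cases i <;> fin_cases j
      · simp
      · simpa using T1_mem
      · simp
      · simp
  · intro v i j
    rw [pF, Matrix.smul_apply, smul_eq_mul, ← mul_sub]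
    refine Ideal.mul_mem_left _ _ ?_
    have hqv : (D.q₀ v : A1 𝒪) - 1 ∈ maximalIdeal (A1 𝒪) := natCast_sub_one_mem (D.hq v)
    split_ifs
    · fin_cases i <;> fin_cases j
      · simpa using T1_mem
      · simp
      · simp
      · simp
        have : (D.q₀ v : A1 𝒪) * U1 𝒪 - 1 = ((D.q₀ v : A1 𝒪) - 1) * U1 𝒪 + (U1 𝒪 - 1) := by ring
        rw [this]
        exact Ideal.add_mem _ (Ideal.mul_mem_right _ _ hqv) U1_sub_one_mem
    · fin_cases i <;> fin_cases j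
      · simpa using hqv
      · simp
      · simp
      · simp
  · rintro (⟨v, i, j⟩ | v | t)
    · change pS₁ 𝒪 c v i j ∈ _
      rw [pS₁]
      cases hv : c (Sum.inr v) with
      | nr => exact Ideal.zero_mem _
      | st s => exact Ideal.mul_mem_right _ _ T1_mem
    · change pT₁ D d v ∈ _
      rw [pT₁]
      cases hv : d (Sum.inr v) with
      | nr => exact T1_mem
      | st s => exact map_maximalIdeal_le _ (Ideal.mem_map_of_mem _ (hd (Sum.inr v) s hv))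
    · exact Ideal.zero_mem _

/-- The test point. -/
noncomputable def pt (κ : Type) [Fintype κ] (c : ι₀ ⊕ ι₁ → Ty) {d : ι₀ ⊕ ι₁ → Ty}
    (hd : D.Allowed d) : LamT 𝒪 ι₀ ι₁ κ →ₐ[𝒪] A1 𝒪 := ev (pVal D κ c d) (pVal_mem D hd)

variable {c d : ι₀ ⊕ ι₁ → Ty} (hd : D.Allowed d)

lemma pt_X_mem (s : Var ι₀ (Ka ι₁ κ)) :
    pt D κ c hd (MvPowerSeries.X s) ∈ maximalIdeal (A1 𝒪) := by
  rw [pt, ev_X]; exact pVal_mem D hd s

lemma mS_pt (v : ι₀) : mS (pt D κ c hd) v = pS 𝒪 c v := by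
  ext1 i j
  rw [mS_apply, pt, ev_X]
  change _ + (pS 𝒪 c v i j - _) = _
  ring

lemma mF_pt (v : ι₀) : mF D.ε (pt D κ c hd) v = pF D d v := by
  ext1 i j
  rw [mF_apply, pt, ev_X]
  change _ + (pF D d v i j - _) = _
  ring

lemma mS₁_pt (v : ι₁) : mS₁ (pt D κ c hd) v = 1 + pS₁ 𝒪 c v := by
  ext1 i j
  rw [mS₁_apply, pt, ev_X]
  rfl

lemma trT_pt_inr (v : ι₁) : pt D κ c hd (trT κ D (Sum.inr v)) =
    algebraMap 𝒪 (A1 𝒪) (D.tb v) + pT₁ D d v := by
  rw [map_trT_inr, pt, ev_X]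
  rfl

lemma trT_pt_st (v : ι₀ ⊕ ι₁) (s : Bool) (hv : d v = Ty.st s) :
    pt D κ c hd (trT κ D v) = sg (A1 𝒪) s * ((D.qT v : A1 𝒪) + 1) := by
  rcases v with v | v
  · rw [map_trT_inl, mF_pt, pF, if_neg (by rw [hv]; simp), Matrix.trace_smul,
      Matrix.trace_fin_two, smul_eq_mul]
    have hs : sg 𝒪 s = D.ε v := sg_eq_of_allowed D v s (hd (Sum.inl v) s hv)
    rw [← hs, map_sg]
    simp
  · rw [trT_pt_inr, pT₁]
    simp only [hv]
    rw [map_sub, map_mul, map_sg, map_add, map_natCast, map_one, LocData.qT_inr]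
    ring

lemma IT_le_ker_pt (hcd : ∀ v s, c v = Ty.st s → d v = Ty.st s) :
    IT κ D ≤ RingHom.ker (pt D κ c hd) := by
  rw [IT_le_ker_iff]
  constructor
  · intro v
    rw [mS_pt, mF_pt]
    have he : algebraMap 𝒪 (A1 𝒪) (D.ε v) ^ 2 = 1 := by rw [← map_pow, D.hε, map_one]
    have hdetF : (pF D d v).det = (D.q₀ v : A1 𝒪) := by
      rw [pF]
      split_ifs
      · rw [Matrix.det_smul, Fintype.card_fin, he, Matrix.det_fin_two]
        simp
        linear_combination (D.q₀ v : A1 𝒪) * mul_U1 (𝒪 := 𝒪)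
      · rw [Matrix.det_smul, Fintype.card_fin, he, Matrix.det_fin_two]
        simp
    rcases hv : c (Sum.inl v) with _ | s
    · rw [pS, if_pos hv]
      refine ⟨Matrix.det_one, hdetF, ?_, ?_⟩
      · rw [Matrix.trace_one]; simp
      · rw [one_pow, one_mul, mul_one]
    · have hv' := hcd _ _ hv
      rw [pS, if_neg (by rw [hv]; simp)]
      refine ⟨?_, hdetF, ?_, ?_⟩
      · rw [Matrix.det_fin_two]; simp
      · rw [Matrix.trace_fin_two]; simp; norm_num
      · have h1 : (!![1, T1 𝒪; 0, 1] : Matrix (Fin 2) (Fin 2) (A1 𝒪)) = 1 + !![0, T1 𝒪; 0, 0] := by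
          ext i j; fin_cases i <;> fin_cases j <;> simp
        have h2 : (!![0, T1 𝒪; 0, 0] : Matrix (Fin 2) (Fin 2) (A1 𝒪)) * !![0, T1 𝒪; 0, 0] = 0 := by
          ext i j; fin_cases i <;> fin_cases j <;> simp
        rw [h1, one_add_pow_of_sq_zero h2, mul_add, mul_one, add_mul, one_mul]
        congr 1
        rw [pF, if_neg (by rw [hv']; simp)]
        ext i j; fin_cases i <;> fin_cases j <;> simp
  · intro v
    rw [mS₁_pt]
    rcases hv : c (Sum.inr v) with _ | s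
    · have : pS₁ 𝒪 c v = 0 := by rw [pS₁]; simp only [hv]
      rw [this, add_zero]
      refine ⟨Matrix.det_one, ?_, ?_⟩
      · rw [Matrix.trace_one]; simp
      · rw [one_pow, one_mul, mul_one]
    · have : pS₁ 𝒪 c v = T1 𝒪 • stM (A1 𝒪) s := by rw [pS₁]; simp only [hv]
      rw [this]
      exact comp_rel_conv _ _ s _ (trT_pt_st D hd (Sum.inr v) s (hcd _ _ hv))

lemma mST_pt_eq_one_iff (v : ι₀ ⊕ ι₁) : mST (pt D κ c hd) v = 1 ↔ c v = Ty.nr := by
  rcases v with v | v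
  · rw [mST_inl, mS_pt, pS]
    split_ifs with h
    · simp [h]
    · refine iff_of_false ?_ h
      intro h1
      have := congrFun (congrFun h1 0) 1
      simp at this
      exact T1_ne_zero this
  · rw [mST_inr, mS₁_pt]
    rcases hv : c (Sum.inr v) with _ | s
    · have : pS₁ 𝒪 c v = 0 := by rw [pS₁]; simp only [hv]
      rw [this, add_zero]
      simp
    · have : pS₁ 𝒪 c v = T1 𝒪 • stM (A1 𝒪) s := by rw [pS₁]; simp only [hv]
      rw [this]
      refine iff_of_false ?_ (by simp)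
      intro h1
      have := congrFun (congrFun h1 0) 0
      simp [stM] at this
      exact T1_ne_zero this

lemma trT_pt_nr [CharZero 𝒪] (v : ι₀ ⊕ ι₁) (hv : d v = Ty.nr) :
    (pt D κ c hd (trT κ D v)) ^ 2 ≠ ((D.qT v : A1 𝒪) + 1) ^ 2 := by
  intro h
  rcases v with v | v
  · rw [map_trT_inl, mF_pt, pF, if_pos hv, Matrix.trace_smul,
      Matrix.trace_fin_two, smul_eq_mul, mul_pow, ← map_pow, D.hε, map_one, one_mul] at h
    simp only [Matrix.of_apply, Matrix.cons_val', Matrix.cons_val_zero, Matrix.cons_val_one,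
      Matrix.cons_val_fin_one, LocData.qT_inl] at h
    -- `x + q / x = ± (q + 1)`
    have h1 : (T1 𝒪) * (1 + T1 𝒪 - (D.q₀ v : A1 𝒪)) * (2 + T1 𝒪) * (1 + T1 𝒪 + (D.q₀ v : A1 𝒪)) = 0 := by
      have h2 := mul_U1 (𝒪 := 𝒪)
      have h3 : ((1 + T1 𝒪) ^ 2 + (D.q₀ v : A1 𝒪)) ^ 2 =
          ((D.q₀ v : A1 𝒪) + 1) ^ 2 * (1 + T1 𝒪) ^ 2 := by
        rw [← h]
        have h4 : (1 + T1 𝒪) ^ 2 + (D.q₀ v : A1 𝒪) =
            (1 + T1 𝒪 + (D.q₀ v : A1 𝒪) * U1 𝒪) * (1 + T1 𝒪) := by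
          linear_combination (-(D.q₀ v : A1 𝒪)) * h2
        rw [h4]; ring
      linear_combination h3
    have h5 : ∀ x : 𝒪, T1 𝒪 + algebraMap 𝒪 (A1 𝒪) x ≠ 0 := by
      intro x h6
      apply T1_ne_algebraMap (-x)
      rw [map_neg]
      linear_combination h6
    rcases mul_eq_zero.mp h1 with h1 | h1
    · rcases mul_eq_zero.mp h1 with h1 | h1
      · rcases mul_eq_zero.mp h1 with h1 | h1
        · exact T1_ne_zero h1
        · apply h5 (1 - (D.q₀ v : 𝒪))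
          rw [map_sub, map_one, map_natCast]
          linear_combination h1
      · apply h5 2
        rw [map_ofNat]
        linear_combination h1
    · apply h5 (1 + (D.q₀ v : 𝒪))
      rw [map_add, map_one, map_natCast]
      linear_combination h1
  · rw [trT_pt_inr, pT₁] at h
    simp only [hv, LocData.qT_inr] at h
    have h1 : (algebraMap 𝒪 (A1 𝒪) (D.tb v) + T1 𝒪 - ((D.q₁ v : A1 𝒪) + 1)) *
        (algebraMap 𝒪 (A1 𝒪) (D.tb v) + T1 𝒪 + ((D.q₁ v : A1 𝒪) + 1)) = 0 := by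
      linear_combination h
    rcases mul_eq_zero.mp h1 with h1 | h1
    · apply T1_ne_algebraMap ((D.q₁ v : 𝒪) + 1 - D.tb v)
      rw [map_sub, map_add, map_natCast, map_one]
      linear_combination h1
    · apply T1_ne_algebraMap (-((D.q₁ v : 𝒪) + 1) - D.tb v)
      rw [map_sub, map_neg, map_add, map_natCast, map_one]
      linear_combination h1

/-- The signs are distinguished. -/
lemma sg_mul_injective [CharZero 𝒪] {s s' : Bool} {q : ℕ}
    (h : sg (A1 𝒪) s * ((q : A1 𝒪) + 1) = sg (A1 𝒪) s' * ((q : A1 𝒪) + 1)) : s = s' := by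
  have hq : algebraMap 𝒪 (A1 𝒪) (2 * ((q + 1 : ℕ) : 𝒪)) ≠ 0 := by
    rw [Ne, map_eq_zero_iff _ algebraMap_A1_injective]
    exact mul_ne_zero two_ne_zero (Nat.cast_ne_zero.mpr (Nat.succ_ne_zero q))
  rw [map_mul, map_ofNat, map_natCast] at hq
  push_cast at hq
  cases s <;> cases s'
  · rfl
  · exfalso
    apply hq
    simp only [sg, Bool.false_eq_true, if_false, if_true] at h
    linear_combination -h
  · exfalso
    apply hq
    simp only [sg, Bool.false_eq_true, if_false, if_true] at h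
    linear_combination h
  · rfl

/-- Which components contain the test point. -/
theorem PT_le_ker_pt [CharZero 𝒪] {c' : ι₀ ⊕ ι₁ → Ty} (hc' : D.Allowed c')
    (hle : PT D κ hc' ≤ RingHom.ker (pt D κ c hd)) (v : ι₀ ⊕ ι₁) :
    (c' v = Ty.nr → c v = Ty.nr) ∧ ∀ s, c' v = Ty.st s → d v = Ty.st s := by
  constructor
  · intro h
    rw [← mST_pt_eq_one_iff D hd (κ := κ), ← mem_ker_SgT_iff]
    intro i j
    exact hle (SgT_mem_PT D hc' v h i j)
  · intro s h
    have h1 := hle (trT_sub_mem_PT D hc' v s h)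
    rw [RingHom.mem_ker, map_sub, algHom_C, map_mul, map_sg, map_add, map_natCast, map_one,
      sub_eq_zero] at h1
    rcases hv : d v with _ | s'
    · exfalso
      apply trT_pt_nr D hd v hv (c := c) (κ := κ)
      rw [h1, mul_pow, sg_sq, one_mul]
    · rw [trT_pt_st D hd v s' hv] at h1
      rw [sg_mul_injective h1]

/-- The test point is on the component `c`. -/
theorem PT_le_ker_pt_self [CharZero 𝒪] (hc : D.Allowed c)
    (hcd : ∀ v s, c v = Ty.st s → d v = Ty.st s) :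
    PT D κ hc ≤ RingHom.ker (pt D κ c hd) := by
  obtain ⟨c', hc', h1, h2⟩ := exists_PT_le_ker D (pt D κ c hd) (pt_X_mem D hd)
    algebraMap_A1_injective (IT_le_ker_pt D hd hcd)
  have h3 : c' = c := by
    funext v
    rcases hv : c v with _ | s
    · rw [h2, mST_pt_eq_one_iff, hv]
    · rcases hv' : c' v with _ | s'
      · rw [h2, mST_pt_eq_one_iff, hv] at hv'
        exact absurd hv' (by simp)
      · have h4 := (PT_le_ker_pt D hd hc' h1 v).2 s' hv'
        rw [hcd v s hv] at h4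
        exact h4.symm
  subst h3
  exact h1

/-- On the unramified components, `tr φ_v ^ 2 - (v + 1) ^ 2` does not vanish. -/
theorem trT_notMem_PT [CharZero 𝒪] (hc : D.Allowed c) (v : ι₀ ⊕ ι₁) (hv : c v = Ty.nr) :
    trT κ D v ^ 2 - MvPowerSeries.C (((D.qT v : 𝒪) + 1) ^ 2) ∉ PT D κ hc := by
  intro h
  have h1 := PT_le_ker_pt_self D hc hc (fun _ _ h => h) h (κ := κ)
  rw [RingHom.mem_ker, map_sub, map_pow, algHom_C, map_pow, map_add, map_natCast, map_one,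
    sub_eq_zero] at h1
  exact trT_pt_nr D hc v hv h1

/-- **Test primes.** -/
theorem exists_test [CharZero 𝒪] [DecidableEq (ι₀ ⊕ ι₁)] (hc : D.Allowed c) (v : ι₀ ⊕ ι₁)
    (s : Bool) (hv : c v = Ty.nr) (hs : D.Allowed (Function.update c v (Ty.st s))) :
    ∃ 𝔭 : Ideal (LamT 𝒪 ι₀ ι₁ κ), 𝔭.IsPrime ∧ PT D κ hc ≤ 𝔭 ∧
      trT κ D v - MvPowerSeries.C (sg 𝒪 s * ((D.qT v : 𝒪) + 1)) ∈ 𝔭 ∧
      (∀ x : 𝒪, MvPowerSeries.C x ∈ 𝔭 → x = 0) ∧
      ∀ (c' : ι₀ ⊕ ι₁ → Ty) (hc' : D.Allowed c'), PT D κ hc' ≤ 𝔭 →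
        c' = c ∨ c' = Function.update c v (Ty.st s) := by
  have hcd : ∀ w t, c w = Ty.st t → Function.update c v (Ty.st s) w = Ty.st t := by
    intro w t hw
    rw [Function.update_of_ne]
    · exact hw
    · rintro rfl
      rw [hv] at hw
      exact absurd hw (by simp)
  refine ⟨RingHom.ker (pt D κ c hs), RingHom.ker_isPrime _, PT_le_ker_pt_self D hs hc hcd,
    ?_, ?_, ?_⟩
  · rw [RingHom.mem_ker, map_sub, trT_pt_st D hs v s (Function.update_self ..), algHom_C, map_mul,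
      map_sg, map_add, map_natCast, map_one, sub_self]
  · intro x hx
    rw [RingHom.mem_ker, algHom_C] at hx
    exact (map_eq_zero_iff _ algebraMap_A1_injective).mp hx
  · intro c' hc' hle
    have h1 := fun w => PT_le_ker_pt D hs hc' hle w
    have hne : ∀ w, w ≠ v → c' w = c w := by
      intro w hw
      rcases hw' : c' w with _ | t
      · exact ((h1 w).1 hw').symm
      · have := (h1 w).2 t hw'
        rw [Function.update_of_ne hw] at this
        exact this.symm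
    rcases hv' : c' v with _ | t
    · left
      funext w
      by_cases hw : w = v
      · rw [hw, hv', hv]
      · exact hne w hw
    · right
      funext w
      by_cases hw : w = v
      · subst hw
        rw [hv']
        exact ((h1 w).2 t hv').symm
      · rw [Function.update_of_ne hw]
        exact hne w hw

end Test

section Levels

variable {𝒪 : Type} [CommRing 𝒪] [IsDomain 𝒪] [IsDiscreteValuationRing 𝒪]
  [IsAdicComplete (maximalIdeal 𝒪) 𝒪]
variable {ι₀ ι₁ κ : Type} [Fintype ι₀] [Fintype ι₁] [Fintype κ]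
variable (D : LocData 𝒪 ι₀ ι₁)

/-- The components at the level `S`: unramified outside `S`. -/
abbrev CompS (S : Set (ι₀ ⊕ ι₁)) : Type :=
  {c : ι₀ ⊕ ι₁ → Ty // D.Allowed c ∧ ∀ v ∉ S, c v = Ty.nr}

/-- The generic points of the components at the level `S`. -/
noncomputable def PcS (κ : Type) [Fintype κ] (S : Set (ι₀ ⊕ ι₁)) (c : CompS D S) :
    Ideal (LamT 𝒪 ι₀ ι₁ κ) := PT D κ c.2.1

theorem PcS_isPrime (S : Set (ι₀ ⊕ ι₁)) (c : CompS D S) : (PcS D κ S c).IsPrime :=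
  PT_isPrime D c.2.1

theorem ITS_le_PcS (S : Set (ι₀ ⊕ ι₁)) (c : CompS D S) : ITS κ D S ≤ PcS D κ S c := by
  rw [ITS, sup_le_iff]
  refine ⟨IT_le_PT D c.2.1, ?_⟩
  rw [Ideal.span_le]
  rintro x ⟨v, hv, i, j, rfl⟩
  exact SgT_mem_PT D c.2.1 v (c.2.2 v hv) i j

theorem exists_PcS_le [CharZero 𝒪] {ϖ : 𝒪} (hϖ : Irreducible ϖ) (S : Set (ι₀ ⊕ ι₁))
    (P : Ideal (LamT 𝒪 ι₀ ι₁ κ)) (hP : P.IsPrime) (hI : ITS κ D S ≤ P)
    (hϖP : MvPowerSeries.C ϖ ∉ P) : ∃ c : CompS D S, PcS D κ S c ≤ P := by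
  obtain ⟨c, hc, h1, h2⟩ := exists_PT_le D hϖ P (le_sup_left.trans hI) hϖP
  refine ⟨⟨c, hc, fun v hv => ?_⟩, h1⟩
  rw [h2]
  intro i j
  exact hI (Ideal.mem_sup_right (Ideal.subset_span ⟨v, hv, i, j, rfl⟩))

theorem ringKrullDim_ITS_le (S : Set (ι₀ ⊕ ι₁)) :
    ringKrullDim (LamT 𝒪 ι₀ ι₁ κ ⧸ ITS κ D S) ≤
    ((1 + 3 * Fintype.card ι₀ + Fintype.card ι₁ + Fintype.card κ : ℕ) : WithBot ℕ∞) :=
  (ringKrullDim_le_of_surjective (Ideal.Quotient.factor (le_sup_left : IT κ D ≤ ITS κ D S))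
    (Ideal.Quotient.factor_surjective _)).trans (ringKrullDim_IT_le D)

theorem ITS_mono {S S' : Set (ι₀ ⊕ ι₁)} (h : S ⊆ S') : ITS κ D S' ≤ ITS κ D S := by
  rw [ITS, ITS]
  refine sup_le_sup le_rfl (Ideal.span_mono ?_)
  rintro x ⟨v, hv, i, j, rfl⟩
  exact ⟨v, fun h' => hv (h h'), i, j, rfl⟩

theorem ITS_univ : ITS κ D Set.univ = IT κ D := by
  rw [ITS]
  have : {x | ∃ v ∉ (Set.univ : Set (ι₀ ⊕ ι₁)), ∃ i j, x = (SgT 𝒪 κ v - 1) i j} = ∅ := by
    ext x
    simp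
  rw [this, Ideal.span_empty, sup_bot_eq]

/-- The inclusion of components. -/
def CompS.incl {S S' : Set (ι₀ ⊕ ι₁)} (h : S ⊆ S') (c : CompS D S) : CompS D S' :=
  ⟨c.1, c.2.1, fun v hv => c.2.2 v (fun h' => hv (h h'))⟩

/-- **Induction over the levels**: if `Q S c` holds for `S = ∅` and passes from `(S, c)` to
`(S ∪ {v}, c)` and to `(S ∪ {v}, c')` with `c'` Steinberg at `v` then it holds for all `(S, c)`. -/
theorem climb_induction [DecidableEq (ι₀ ⊕ ι₁)] (Q : ∀ (S : Finset (ι₀ ⊕ ι₁)), CompS D (S : Set _) → Prop)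
    (h0 : ∀ c, Q ∅ c)
    (h1 : ∀ (S : Finset (ι₀ ⊕ ι₁)) (v : ι₀ ⊕ ι₁) (hv : v ∉ S) (c : CompS D (S : Set _)), Q S c →
      Q (insert v S) (c.incl D (by simp)))
    (h2 : ∀ (S : Finset (ι₀ ⊕ ι₁)) (v : ι₀ ⊕ ι₁) (hv : v ∉ S) (c : CompS D (S : Set _)), Q S c →
      ∀ (s : Bool) (c' : CompS D ((insert v S : Finset (ι₀ ⊕ ι₁)) : Set _)),
        c'.1 = Function.update c.1 v (Ty.st s) → Q (insert v S) c')
    (S : Finset (ι₀ ⊕ ι₁)) (c : CompS D (S : Set _)) : Q S c := by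
  induction S using Finset.induction_on with
  | empty => exact h0 c
  | insert v S hv ih =>
    have hall : D.Allowed (Function.update c.1 v Ty.nr) := by
      intro w t hw
      by_cases hwv : w = v
      · subst hwv
        rw [Function.update_self] at hw
        exact absurd hw (by simp)
      · rw [Function.update_of_ne hwv] at hw
        exact c.2.1 w t hw
    let c0 : CompS D (S : Set _) := ⟨Function.update c.1 v Ty.nr, hall, fun w hw => by
      by_cases hwv : w = v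
      · subst hwv
        rw [Function.update_self]
      · rw [Function.update_of_ne hwv]
        exact c.2.2 w (by
          simp only [Finset.coe_insert, Set.mem_insert_iff, not_or]
          exact ⟨hwv, hw⟩)⟩
    rcases hcv : c.1 v with _ | s
    · have h3 := h1 S v hv c0 (ih c0)
      have h4 : c0.incl D (by simp) = c := by
        apply Subtype.ext
        change Function.update c.1 v Ty.nr = c.1
        funext w
        by_cases hwv : w = v
        · rw [hwv, Function.update_self, hcv]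
        · rw [Function.update_of_ne hwv]
      rwa [h4] at h3
    · refine h2 S v hv c0 (ih c0) s c ?_
      change c.1 = Function.update (Function.update c.1 v Ty.nr) v (Ty.st s)
      rw [Function.update_idem]
      funext w
      by_cases hwv : w = v
      · rw [hwv, Function.update_self, hcv]
      · rw [Function.update_of_ne hwv]

/-- There is only one component at the level `∅`. -/
theorem CompS_empty_unique (c c' : CompS D (∅ : Set (ι₀ ⊕ ι₁))) : c = c' := by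
  apply Subtype.ext
  funext v
  rw [c.2.2 v (by simp), c'.2.2 v (by simp)]

/-- **The test prime for the step from `S` to `S ∪ {v}`**, in the form needed for patched Ihara. -/
theorem exists_test_levels [CharZero 𝒪] [DecidableEq (ι₀ ⊕ ι₁)] (S : Set (ι₀ ⊕ ι₁))
    (v : ι₀ ⊕ ι₁) (hv : v ∉ S) (c : CompS D S) (s : Bool) (c' : CompS D (insert v S))
    (hc' : c'.1 = Function.update c.1 v (Ty.st s)) :
    ∃ 𝔭 : Ideal (LamT 𝒪 ι₀ ι₁ κ), 𝔭.IsPrime ∧ PcS D κ S c ≤ 𝔭 ∧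
      MvPowerSeries.C ((D.qT v : 𝒪) + 1) * MvPowerSeries.C ((D.qT v : 𝒪) + 1) -
        trT κ D v * trT κ D v ∈ 𝔭 ∧
      ∀ c'' : CompS D (insert v S), PcS D κ (insert v S) c'' ≤ 𝔭 →
        PcS D κ (insert v S) c'' = PcS D κ S c ∨ c'' = c' := by
  obtain ⟨𝔭, h1, h2, h3, -, h5⟩ := exists_test D c.2.1 v s (c.2.2 v hv) (hc' ▸ c'.2.1) (κ := κ)
  refine ⟨𝔭, h1, h2, ?_, ?_⟩
  · have h6 : MvPowerSeries.C ((D.qT v : 𝒪) + 1) * MvPowerSeries.C ((D.qT v : 𝒪) + 1) -
        trT κ D v * trT κ D v = -((trT κ D v - MvPowerSeries.C (sg 𝒪 s * ((D.qT v : 𝒪) + 1))) *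
        (trT κ D v + MvPowerSeries.C (sg 𝒪 s * ((D.qT v : 𝒪) + 1)))) := by
      have h7 : (MvPowerSeries.C (sg 𝒪 s) : LamT 𝒪 ι₀ ι₁ κ) * MvPowerSeries.C (sg 𝒪 s) = 1 := by
        rw [← map_mul, sg_mul_self, map_one]
      rw [map_mul]
      linear_combination (-(MvPowerSeries.C ((D.qT v : 𝒪) + 1) : LamT 𝒪 ι₀ ι₁ κ) ^ 2) * h7
    rw [h6]
    exact (neg_mem_iff (S := Ideal (LamT 𝒪 ι₀ ι₁ κ))).mpr (Ideal.mul_mem_right _ _ h3)
  · intro c'' hle
    rcases h5 c''.1 c''.2.1 hle with h8 | h8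
    · left
      rw [PcS, PcS]
      congr 1
    · right
      apply Subtype.ext
      rw [h8, hc']

/-- `(tr φ_v)² - (v + 1)²` is not in the generic point of a component unramified at `v`. -/
theorem e_notMem_PcS [CharZero 𝒪] (S : Set (ι₀ ⊕ ι₁)) (v : ι₀ ⊕ ι₁) (hv : v ∉ S)
    (c : CompS D S) : trT κ D v ^ 2 - MvPowerSeries.C (((D.qT v : 𝒪) + 1) ^ 2) ∉ PcS D κ S c :=
  trT_notMem_PT D c.2.1 v (c.2.2 v hv)

end Levels

end Fermat.Agent.LocRing
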