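import Mathlib
import Fermat.Agent.LocRing.Test

set_option autoImplicit false
set_option linter.unusedSectionVars false
set_option linter.unusedSimpArgs false
set_option linter.unusedVariables false

/-!
# Test points with free `κ`-variables
-/

namespace Fermat.Agent.LocRing

open IsLocalRing Fermat.Agent.S53rep Matrix

section TestK

variable {𝒪 : Type} [CommRing 𝒪] [IsDomain 𝒪] [IsDiscreteValuationRing 𝒪]
  [IsAdicComplete (maximalIdeal 𝒪) 𝒪]
variable {ι₀ ι₁ κ : Type} [Fintype ι₀] [Fintype ι₁] [Fintype κ]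
variable (D : LocData 𝒪 ι₀ ι₁)

/-- The ring of one parameter and the `κ`-variables. -/
abbrev AK (𝒪 : Type) [CommRing 𝒪] (κ : Type) : Type := MvPowerSeries (Fin 1 ⊕ κ) 𝒪

/-- The inclusion `𝒪[[T]] → 𝒪[[T, κ]]`. -/
noncomputable def jK (𝒪 : Type) [CommRing 𝒪] [IsDomain 𝒪] [IsDiscreteValuationRing 𝒪]
    [IsAdicComplete (maximalIdeal 𝒪) 𝒪] (κ : Type) [Fintype κ] : A1 𝒪 →ₐ[𝒪] AK 𝒪 κ :=
  ev (fun i => MvPowerSeries.X (Sum.inl i)) (fun _ => X_mem_maximalIdeal _)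

/-- The retraction. -/
noncomputable def rK (𝒪 : Type) [CommRing 𝒪] [IsDomain 𝒪] [IsDiscreteValuationRing 𝒪]
    [IsAdicComplete (maximalIdeal 𝒪) 𝒪] (κ : Type) [Fintype κ] : AK 𝒪 κ →ₐ[𝒪] A1 𝒪 :=
  ev (Sum.elim (fun i => MvPowerSeries.X i) (fun _ => 0)) (by
    rintro (i | t)
    · exact X_mem_maximalIdeal _
    · exact Ideal.zero_mem _)

lemma rK_comp_jK : (rK 𝒪 κ).comp (jK 𝒪 κ) = AlgHom.id 𝒪 (A1 𝒪) := by
  refine algHom_ext_of_mem (maximalIdeal (A1 𝒪)) (fun s => ?_) (fun s => ?_)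
  · rw [AlgHom.comp_apply, jK, ev_X, rK, ev_X]
    exact X_mem_maximalIdeal _
  · rw [AlgHom.comp_apply, jK, ev_X, rK, ev_X]
    rfl

lemma rK_jK (x : A1 𝒪) : rK 𝒪 κ (jK 𝒪 κ x) = x := by
  have := congrArg (fun f => f x) (rK_comp_jK (𝒪 := 𝒪) (κ := κ))
  simpa using this

lemma jK_injective : Function.Injective (jK 𝒪 κ) := fun x y h => by
  rw [← rK_jK (κ := κ) x, ← rK_jK (κ := κ) y, h]

lemma jK_mem {x : A1 𝒪} (hx : x ∈ maximalIdeal (A1 𝒪)) : jK 𝒪 κ x ∈ maximalIdeal (AK 𝒪 κ) :=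
  mem_maximalIdeal_of_mem _ (fun s => by rw [jK, ev_X]; exact X_mem_maximalIdeal _) hx

lemma algebraMap_AK_injective : Function.Injective (algebraMap 𝒪 (AK 𝒪 κ)) := by
  intro x y hxy
  have := congrArg (MvPowerSeries.constantCoeff) hxy
  simpa [MvPowerSeries.algebraMap_apply] using this

/-- The values of the test point. -/
noncomputable def pValK (κ : Type) [Fintype κ] (c d : ι₀ ⊕ ι₁ → Ty) :
    Var ι₀ (Ka ι₁ κ) → AK 𝒪 κ :=
  Sum.elim (fun p => jK 𝒪 κ (pVal D κ c d (Sum.inl p)))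
    (Sum.elim (fun p => jK 𝒪 κ (pVal D κ c d (Sum.inr (Sum.inl p))))
      (Sum.elim (fun v => jK 𝒪 κ (pVal D κ c d (Sum.inr (Sum.inr (Sum.inl v)))))
        (fun t => MvPowerSeries.X (Sum.inr t))))

lemma pValK_mem {c d : ι₀ ⊕ ι₁ → Ty} (hd : D.Allowed d) (s : Var ι₀ (Ka ι₁ κ)) :
    pValK D κ c d s ∈ maximalIdeal (AK 𝒪 κ) := by
  rcases s with p | p | v | t
  · exact jK_mem (pVal_mem D hd _)
  · exact jK_mem (pVal_mem D hd _)
  · exact jK_mem (pVal_mem D hd _)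
  · exact X_mem_maximalIdeal _

/-- The test point with free `κ`-variables. -/
noncomputable def ptK (κ : Type) [Fintype κ] (c : ι₀ ⊕ ι₁ → Ty) {d : ι₀ ⊕ ι₁ → Ty}
    (hd : D.Allowed d) : LamT 𝒪 ι₀ ι₁ κ →ₐ[𝒪] AK 𝒪 κ := ev (pValK D κ c d) (pValK_mem D hd)

variable {c d : ι₀ ⊕ ι₁ → Ty} (hd : D.Allowed d)

lemma ptK_X_mem (s : Var ι₀ (Ka ι₁ κ)) :
    ptK D κ c hd (MvPowerSeries.X s) ∈ maximalIdeal (AK 𝒪 κ) := by
  rw [ptK, ev_X]; exact pValK_mem D hd s

lemma ptK_inl (p : (ι₀ × Bool) × Fin 2 × Fin 2) : ptK D κ c hd (MvPowerSeries.X (Sum.inl p)) =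
    jK 𝒪 κ (pt D κ c hd (MvPowerSeries.X (Sum.inl p))) := by
  rw [ptK, ev_X, pt, ev_X]; rfl

lemma ptK_inr_inl (p : ι₁ × Fin 2 × Fin 2) :
    ptK D κ c hd (MvPowerSeries.X (Sum.inr (Sum.inl p))) =
    jK 𝒪 κ (pt D κ c hd (MvPowerSeries.X (Sum.inr (Sum.inl p)))) := by
  rw [ptK, ev_X, pt, ev_X]; rfl

lemma ptK_inr_inr_inl (v : ι₁) :
    ptK D κ c hd (MvPowerSeries.X (Sum.inr (Sum.inr (Sum.inl v)))) =
    jK 𝒪 κ (pt D κ c hd (MvPowerSeries.X (Sum.inr (Sum.inr (Sum.inl v))))) := by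
  rw [ptK, ev_X, pt, ev_X]; rfl

lemma ptK_inr_inr_inr (t : κ) :
    ptK D κ c hd (MvPowerSeries.X (Sum.inr (Sum.inr (Sum.inr t)))) = MvPowerSeries.X (Sum.inr t) := by
  rw [ptK, ev_X]; rfl

lemma rK_comp_ptK : (rK 𝒪 κ).comp (ptK D κ c hd) = pt D κ c hd := by
  symm
  refine algHom_ext_of_mem (maximalIdeal (A1 𝒪)) (fun s => pt_X_mem D hd s) ?_
  rintro (p | p | v | t)
  · rw [AlgHom.comp_apply, ptK_inl, rK_jK]
  · rw [AlgHom.comp_apply, ptK_inr_inl, rK_jK]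
  · rw [AlgHom.comp_apply, ptK_inr_inr_inl, rK_jK]
  · rw [AlgHom.comp_apply, ptK_inr_inr_inr, rK, ev_X, pt, ev_X]
    rfl

lemma ker_ptK_le : RingHom.ker (ptK D κ c hd) ≤ RingHom.ker (pt D κ c hd) := by
  intro x hx
  rw [RingHom.mem_ker] at hx ⊢
  rw [← rK_comp_ptK, AlgHom.comp_apply, hx, map_zero]

lemma mS_ptK (v : ι₀) : mS (ptK D κ c hd) v = (mS (pt D κ c hd) v).map (jK 𝒪 κ) := by
  ext1 i j
  rw [mS_apply, ptK_inl, Matrix.map_apply, mS_apply, map_add]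
  congr 1
  rw [Matrix.one_apply, Matrix.one_apply]
  split_ifs <;> simp

lemma mF_ptK (v : ι₀) : mF D.ε (ptK D κ c hd) v = (mF D.ε (pt D κ c hd) v).map (jK 𝒪 κ) := by
  ext1 i j
  rw [mF_apply, ptK_inl, Matrix.map_apply, mF_apply, map_add, map_mul, AlgHom.commutes]
  congr 2
  rw [Matrix.one_apply, Matrix.one_apply]
  split_ifs <;> simp

lemma mS₁_ptK (v : ι₁) : mS₁ (ptK D κ c hd) v = (mS₁ (pt D κ c hd) v).map (jK 𝒪 κ) := by
  ext1 i j
  rw [mS₁_apply, ptK_inr_inl, Matrix.map_apply, mS₁_apply, map_add]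
  congr 1
  rw [Matrix.one_apply, Matrix.one_apply]
  split_ifs <;> simp

lemma mST_ptK (v : ι₀ ⊕ ι₁) : mST (ptK D κ c hd) v = (mST (pt D κ c hd) v).map (jK 𝒪 κ) := by
  rcases v with v | v
  · exact mS_ptK D hd v
  · exact mS₁_ptK D hd v

lemma trT_ptK (v : ι₀ ⊕ ι₁) : ptK D κ c hd (trT κ D v) = jK 𝒪 κ (pt D κ c hd (trT κ D v)) := by
  rcases v with v | v
  · rw [map_trT_inl, map_trT_inl, mF_ptK, Matrix.trace_fin_two, Matrix.trace_fin_two, map_add]
    rfl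
  · rw [map_trT_inr, map_trT_inr, ptK_inr_inr_inl, map_add, AlgHom.commutes]

lemma mST_ptK_eq_one_iff (v : ι₀ ⊕ ι₁) : mST (ptK D κ c hd) v = 1 ↔ c v = Ty.nr := by
  rw [← mST_pt_eq_one_iff D hd (κ := κ), mST_ptK]
  constructor
  · intro h
    ext1 i j
    apply jK_injective (κ := κ)
    have h1 := congrFun (congrFun h i) j
    rw [Matrix.map_apply] at h1
    rw [h1, Matrix.one_apply, Matrix.one_apply]
    split_ifs <;> simp
  · intro h
    rw [h]
    ext1 i j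
    rw [Matrix.map_apply, Matrix.one_apply, Matrix.one_apply]
    split_ifs <;> simp

lemma IT_le_ker_ptK (hcd : ∀ v s, c v = Ty.st s → d v = Ty.st s) :
    IT κ D ≤ RingHom.ker (ptK D κ c hd) := by
  have h0 := (IT_le_ker_iff D _).mp (IT_le_ker_pt D hd hcd (κ := κ))
  set f : A1 𝒪 →+* AK 𝒪 κ := (jK 𝒪 κ).toRingHom with hf
  have hmap : ∀ A : Matrix (Fin 2) (Fin 2) (A1 𝒪), A.map (jK 𝒪 κ) = f.mapMatrix A := fun A => rfl
  have htr : ∀ A : Matrix (Fin 2) (Fin 2) (A1 𝒪), (f.mapMatrix A).trace = f A.trace := by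
    intro A
    rw [Matrix.trace_fin_two, Matrix.trace_fin_two, map_add]
    rfl
  rw [IT_le_ker_iff]
  constructor
  · intro v
    obtain ⟨h1, h2, h3, h4⟩ := h0.1 v
    rw [mS_ptK, mF_ptK, hmap, hmap]
    refine ⟨?_, ?_, ?_, ?_⟩
    · rw [← RingHom.map_det, h1, map_one]
    · rw [← RingHom.map_det, h2, map_natCast]
    · rw [htr, h3, map_ofNat]
    · rw [← map_mul, h4, map_mul, map_pow]
  · intro v
    obtain ⟨h1, h2, h3⟩ := h0.2 v
    rw [mS₁_ptK, hmap, trT_ptK]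
    have hc2 : comp2 (D.q₁ v : AK 𝒪 κ) (jK 𝒪 κ (pt D κ c hd (trT κ D (Sum.inr v)))) =
        f.mapMatrix (comp2 (D.q₁ v : A1 𝒪) (pt D κ c hd (trT κ D (Sum.inr v)))) := by
      ext i j
      fin_cases i <;> fin_cases j <;> simp [comp2, hf]
    refine ⟨?_, ?_, ?_⟩
    · rw [← RingHom.map_det, h1, map_one]
    · rw [htr, h2, map_ofNat]
    · rw [hc2, ← map_mul, h3, map_mul, map_pow]

/-- The test point is on the component `c`. -/
theorem PT_le_ker_ptK_self [CharZero 𝒪] (hc : D.Allowed c)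
    (hcd : ∀ v s, c v = Ty.st s → d v = Ty.st s) :
    PT D κ hc ≤ RingHom.ker (ptK D κ c hd) := by
  obtain ⟨c', hc', h1, h2⟩ := exists_PT_le_ker D (ptK D κ c hd) (ptK_X_mem D hd)
    algebraMap_AK_injective (IT_le_ker_ptK D hd hcd)
  have h3 : c' = c := by
    funext v
    rcases hv : c v with _ | s
    · rw [h2, mST_ptK_eq_one_iff, hv]
    · rcases hv' : c' v with _ | s'
      · rw [h2, mST_ptK_eq_one_iff, hv] at hv'
        exact absurd hv' (by simp)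
      · have h4 := (PT_le_ker_pt D hd hc' (h1.trans (ker_ptK_le D hd)) v).2 s' hv'
        rw [hcd v s hv] at h4
        exact h4.symm
  subst h3
  exact h1

/-- The reduction `Λ → k[[κ]]`, all the local variables to `0`. -/
noncomputable def redK (𝒪 : Type) [CommRing 𝒪] [IsDomain 𝒪] [IsDiscreteValuationRing 𝒪]
    (ι₀ ι₁ κ : Type) [Fintype ι₀] [Fintype ι₁] [Fintype κ] :
    LamT 𝒪 ι₀ ι₁ κ →ₐ[𝒪] MvPowerSeries κ (ResidueField 𝒪) :=
  ev (Sum.elim (fun _ => 0) (Sum.elim (fun _ => 0) (Sum.elim (fun _ => 0) MvPowerSeries.X))) (by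
    rintro (p | p | v | t)
    · exact Ideal.zero_mem _
    · exact Ideal.zero_mem _
    · exact Ideal.zero_mem _
    · exact X_mem_maximalIdeal _)

/-- The ideal generated by the local variables and the maximal ideal of `𝒪`. -/
noncomputable def locK (𝒪 : Type) [CommRing 𝒪] [IsDomain 𝒪] [IsDiscreteValuationRing 𝒪]
    (ι₀ ι₁ κ : Type) [Fintype ι₀] [Fintype ι₁] [Fintype κ] : Ideal (LamT 𝒪 ι₀ ι₁ κ) :=
  RingHom.ker (redK 𝒪 ι₀ ι₁ κ)

instance locK_isPrime : (locK 𝒪 ι₀ ι₁ κ).IsPrime := RingHom.ker_isPrime _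

/-- The reduction of the test ring. -/
noncomputable def gK (𝒪 : Type) [CommRing 𝒪] [IsDomain 𝒪] [IsDiscreteValuationRing 𝒪]
    (κ : Type) [Fintype κ] : AK 𝒪 κ →ₐ[𝒪] MvPowerSeries κ (ResidueField 𝒪) :=
  ev (Sum.elim (fun _ => 0) MvPowerSeries.X) (by
    rintro (p | t)
    · exact Ideal.zero_mem _
    · exact X_mem_maximalIdeal _)

instance isLocalHom_algebraMap_residue_mvPowerSeries :
    IsLocalHom (algebraMap 𝒪 (MvPowerSeries κ (ResidueField 𝒪))) := by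
  constructor
  intro a ha
  have h1 := (MvPowerSeries.isUnit_iff_constantCoeff).mp ha
  have h2 : MvPowerSeries.constantCoeff (algebraMap 𝒪 (MvPowerSeries κ (ResidueField 𝒪)) a) =
      residue 𝒪 a := by
    rw [MvPowerSeries.algebraMap_apply, MvPowerSeries.constantCoeff_C]
    rfl
  rw [h2] at h1
  exact isUnit_of_map_unit (residue 𝒪) a h1

lemma gK_jK_eq_zero {x : A1 𝒪} (hx : x ∈ maximalIdeal (A1 𝒪)) : gK 𝒪 κ (jK 𝒪 κ x) = 0 := by
  obtain ⟨ϖ, hϖ⟩ := IsDiscreteValuationRing.exists_irreducible 𝒪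
  have hpr : (RingHom.ker ((gK 𝒪 κ).comp (jK 𝒪 κ))).IsPrime := RingHom.ker_isPrime _
  have h1 := eq_maximalIdeal_of_mem hϖ (RingHom.ker ((gK 𝒪 κ).comp (jK 𝒪 κ)))
    (by
      have hC : (MvPowerSeries.C ϖ : A1 𝒪) = algebraMap 𝒪 (A1 𝒪) ϖ := by
        rw [MvPowerSeries.algebraMap_apply, Algebra.algebraMap_self_apply]
      rw [RingHom.mem_ker, hC, AlgHom.commutes, MvPowerSeries.algebraMap_apply]
      have : algebraMap 𝒪 (ResidueField 𝒪) ϖ = 0 :=
        (residue_eq_zero_iff ϖ).mpr ((mem_maximalIdeal _).mpr hϖ.not_isUnit)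
      rw [this, map_zero])
    (fun s => by
      rw [RingHom.mem_ker, AlgHom.comp_apply, jK, ev_X, gK, ev_X]
      rfl)
  rw [← h1, RingHom.mem_ker, AlgHom.comp_apply] at hx
  exact hx

lemma gK_comp_ptK : (gK 𝒪 κ).comp (ptK D κ c hd) = redK 𝒪 ι₀ ι₁ κ := by
  symm
  refine algHom_ext_of_mem (maximalIdeal _) (fun s => ?_) ?_
  · rw [redK, ev_X]
    rcases s with p | p | v | t
    · exact Ideal.zero_mem _
    · exact Ideal.zero_mem _
    · exact Ideal.zero_mem _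
    · exact X_mem_maximalIdeal _
  · rintro (p | p | v | t)
    · rw [AlgHom.comp_apply, ptK_inl, gK_jK_eq_zero (pt_X_mem D hd _), redK, ev_X]; rfl
    · rw [AlgHom.comp_apply, ptK_inr_inl, gK_jK_eq_zero (pt_X_mem D hd _), redK, ev_X]; rfl
    · rw [AlgHom.comp_apply, ptK_inr_inr_inl, gK_jK_eq_zero (pt_X_mem D hd _), redK, ev_X]; rfl
    · rw [AlgHom.comp_apply, ptK_inr_inr_inr, gK, ev_X, redK, ev_X]; rfl

lemma ker_ptK_le_locK : RingHom.ker (ptK D κ c hd) ≤ locK 𝒪 ι₀ ι₁ κ := by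
  intro x hx
  rw [RingHom.mem_ker] at hx
  rw [locK, RingHom.mem_ker, ← gK_comp_ptK D hd (c := c), AlgHom.comp_apply, hx, map_zero]

/-- **Test primes** with free `κ`-variables. -/
theorem exists_testK [CharZero 𝒪] [DecidableEq (ι₀ ⊕ ι₁)] (hc : D.Allowed c) (v : ι₀ ⊕ ι₁)
    (s : Bool) (hv : c v = Ty.nr) (hs : D.Allowed (Function.update c v (Ty.st s))) :
    ∃ 𝔭 : Ideal (LamT 𝒪 ι₀ ι₁ κ), 𝔭.IsPrime ∧ 𝔭 ≤ locK 𝒪 ι₀ ι₁ κ ∧ PT D κ hc ≤ 𝔭 ∧
      trT κ D v - MvPowerSeries.C (sg 𝒪 s * ((D.qT v : 𝒪) + 1)) ∈ 𝔭 ∧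
      (∀ x : 𝒪, MvPowerSeries.C x ∈ 𝔭 → x = 0) ∧
      ∀ (c' : ι₀ ⊕ ι₁ → Ty) (hc' : D.Allowed c'), PT D κ hc' ≤ 𝔭 →
        c' = c ∨ c' = Function.update c v (Ty.st s) := by
  have hcd : ∀ w t, c w = Ty.st t → Function.update c v (Ty.st s) w = Ty.st t := by
    intro w t hw
    rw [Function.update_of_ne]
    · exact hw
    · rintro rfl
      rw [hv] at hw
      exact absurd hw (by simp)
  refine ⟨RingHom.ker (ptK D κ c hs), RingHom.ker_isPrime _, ker_ptK_le_locK D hs,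
    PT_le_ker_ptK_self D hs hc hcd, ?_, ?_, ?_⟩
  · rw [RingHom.mem_ker, map_sub, trT_ptK, trT_pt_st D hs v s (Function.update_self ..), algHom_C,
      map_mul, map_mul, map_sg, map_add, map_natCast, map_one, map_add, map_natCast, map_one]
    have : jK 𝒪 κ (sg (A1 𝒪) s) = sg (AK 𝒪 κ) s := map_sg (jK 𝒪 κ : A1 𝒪 →+* AK 𝒪 κ) s
    rw [this, sub_self]
  · intro x hx
    rw [RingHom.mem_ker, algHom_C] at hx
    exact (map_eq_zero_iff _ algebraMap_AK_injective).mp hx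
  · intro c' hc' hle
    have h1 := fun w => PT_le_ker_pt D hs hc' (hle.trans (ker_ptK_le D hs)) w
    have hne : ∀ w, w ≠ v → c' w = c w := by
      intro w hw
      rcases hw' : c' w with _ | t
      · exact ((h1 w).1 hw').symm
      · have := (h1 w).2 t hw'
        rw [Function.update_of_ne hw] at this
        exact this.symm
    rcases hv' : c' v with _ | t
    · left
      funext w
      by_cases hw : w = v
      · rw [hw, hv', hv]
      · exact hne w hw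
    · right
      funext w
      by_cases hw : w = v
      · subst hw
        rw [hv']
        exact ((h1 w).2 t hv').symm
      · rw [Function.update_of_ne hw]
        exact hne w hw

/-- **The test prime for the step from `S` to `S ∪ {v}`**, with free `κ`-variables. -/
theorem exists_test_levelsK [CharZero 𝒪] [DecidableEq (ι₀ ⊕ ι₁)] (S : Set (ι₀ ⊕ ι₁))
    (v : ι₀ ⊕ ι₁) (hv : v ∉ S) (c : CompS D S) (s : Bool) (c' : CompS D (insert v S))
    (hc' : c'.1 = Function.update c.1 v (Ty.st s)) :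
    ∃ 𝔭 : Ideal (LamT 𝒪 ι₀ ι₁ κ), 𝔭.IsPrime ∧ 𝔭 ≤ locK 𝒪 ι₀ ι₁ κ ∧ PcS D κ S c ≤ 𝔭 ∧
      MvPowerSeries.C ((D.qT v : 𝒪) + 1) * MvPowerSeries.C ((D.qT v : 𝒪) + 1) -
        trT κ D v * trT κ D v ∈ 𝔭 ∧
      ∀ c'' : CompS D (insert v S), PcS D κ (insert v S) c'' ≤ 𝔭 →
        PcS D κ (insert v S) c'' = PcS D κ S c ∨ c'' = c' := by
  obtain ⟨𝔭, h1, h0, h2, h3, -, h5⟩ := exists_testK D c.2.1 v s (c.2.2 v hv) (hc' ▸ c'.2.1) (κ := κ)
  refine ⟨𝔭, h1, h0, h2, ?_, ?_⟩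
  · have h6 : MvPowerSeries.C ((D.qT v : 𝒪) + 1) * MvPowerSeries.C ((D.qT v : 𝒪) + 1) -
        trT κ D v * trT κ D v = -((trT κ D v - MvPowerSeries.C (sg 𝒪 s * ((D.qT v : 𝒪) + 1))) *
        (trT κ D v + MvPowerSeries.C (sg 𝒪 s * ((D.qT v : 𝒪) + 1)))) := by
      have h7 : (MvPowerSeries.C (sg 𝒪 s) : LamT 𝒪 ι₀ ι₁ κ) * MvPowerSeries.C (sg 𝒪 s) = 1 := by
        rw [← map_mul, sg_mul_self, map_one]
      rw [map_mul]
      linear_combination (-(MvPowerSeries.C ((D.qT v : 𝒪) + 1) : LamT 𝒪 ι₀ ι₁ κ) ^ 2) * h7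
    rw [h6]
    exact (neg_mem_iff (S := Ideal (LamT 𝒪 ι₀ ι₁ κ))).mpr (Ideal.mul_mem_right _ _ h3)
  · intro c'' hle
    rcases h5 c''.1 c''.2.1 hle with h8 | h8
    · left
      rw [PcS, PcS]
      congr 1
    · right
      apply Subtype.ext
      rw [h8, hc']

end TestK

section Linear

variable {R : Type} [CommRing R] {σ : Type}

lemma coeff_single_mul (f g : MvPowerSeries σ R) (s : σ) :
    MvPowerSeries.coeff (Finsupp.single s 1) (f * g) =
      MvPowerSeries.coeff (Finsupp.single s 1) f * MvPowerSeries.constantCoeff g +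
      MvPowerSeries.constantCoeff f * MvPowerSeries.coeff (Finsupp.single s 1) g := by
  classical
  rw [MvPowerSeries.coeff_mul, Finsupp.antidiagonal_single, Finset.sum_map]
  simp [Finset.Nat.antidiagonal_succ]
  ring

end Linear

section Linear2

variable {𝒪 : Type} [CommRing 𝒪] [IsDomain 𝒪] [IsDiscreteValuationRing 𝒪]
  [IsAdicComplete (maximalIdeal 𝒪) 𝒪]
variable {ι₀ ι₁ κ : Type} [Fintype ι₀] [Fintype ι₁] [Fintype κ]

/-- `f - f(0)` is in the ideal of the variables. -/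
lemma exists_eq_C_add_sum (f : MvPowerSeries (Var ι₀ (Ka ι₁ κ)) 𝒪) :
    ∃ g : Var ι₀ (Ka ι₁ κ) → MvPowerSeries (Var ι₀ (Ka ι₁ κ)) 𝒪,
      f = MvPowerSeries.C (MvPowerSeries.constantCoeff f) + ∑ s, g s * MvPowerSeries.X s := by
  have h0 : f - MvPowerSeries.C (MvPowerSeries.constantCoeff f) ∈
      (Ideal.span (Set.range (MvPowerSeries.X : Var ι₀ (Ka ι₁ κ) →
        MvPowerSeries (Var ι₀ (Ka ι₁ κ)) 𝒪))) ^ 1 := by
    refine mem_span_X_pow_of_coeff_eq_zero ?_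
    intro α hα
    have h0 : α = 0 := by
      have : α.degree = 0 := by omega
      rwa [Finsupp.degree_eq_zero_iff] at this
    subst h0
    simp
  rw [pow_one, Ideal.mem_span_range_iff_exists_fun] at h0
  obtain ⟨g, hg⟩ := h0
  exact ⟨g, by rw [hg]; ring⟩

lemma constantCoeff_redK (f : LamT 𝒪 ι₀ ι₁ κ) :
    MvPowerSeries.constantCoeff (redK 𝒪 ι₀ ι₁ κ f) =
      residue 𝒪 (MvPowerSeries.constantCoeff f) := by
  obtain ⟨g, hg⟩ := exists_eq_C_add_sum f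
  have h1 : ∀ s, MvPowerSeries.constantCoeff (redK 𝒪 ι₀ ι₁ κ (MvPowerSeries.X s)) = 0 := by
    rintro (p | p | v | t) <;> rw [redK, ev_X] <;> simp
  conv_lhs => rw [hg]
  rw [map_add, map_add, map_sum, map_sum, algHom_C, MvPowerSeries.algebraMap_apply,
    MvPowerSeries.constantCoeff_C]
  simp only [map_mul, h1, mul_zero, Finset.sum_const_zero, add_zero]
  rfl

/-- The linear coefficients of the reduction. -/
theorem coeff_redK (f : LamT 𝒪 ι₀ ι₁ κ) (t : κ) :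
    MvPowerSeries.coeff (Finsupp.single t 1) (redK 𝒪 ι₀ ι₁ κ f) =
      residue 𝒪 (MvPowerSeries.coeff
        (Finsupp.single (Sum.inr (Sum.inr (Sum.inr t)) : Var ι₀ (Ka ι₁ κ)) 1) f) := by
  classical
  obtain ⟨g, hg⟩ := exists_eq_C_add_sum f
  have h1 : ∀ s, MvPowerSeries.constantCoeff (redK 𝒪 ι₀ ι₁ κ (MvPowerSeries.X s)) = 0 := by
    rintro (p | p | v | t) <;> rw [redK, ev_X] <;> simp
  have h2 : ∀ s, MvPowerSeries.coeff (Finsupp.single t 1) (redK 𝒪 ι₀ ι₁ κ (MvPowerSeries.X s)) =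
      if s = Sum.inr (Sum.inr (Sum.inr t)) then 1 else 0 := by
    rintro (p | p | v | t')
    · rw [redK, ev_X]; simp
    · rw [redK, ev_X]; simp
    · rw [redK, ev_X]; simp
    · rw [redK, ev_X]
      simp only [Sum.elim_inr, MvPowerSeries.coeff_X, Sum.inr.injEq]
      by_cases h : t' = t
      · subst h; simp
      · rw [if_neg, if_neg h]
        intro h3
        rw [Finsupp.single_left_inj one_ne_zero] at h3
        exact h h3.symm
  have h3 : ∀ s, MvPowerSeries.coeff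
      (Finsupp.single (Sum.inr (Sum.inr (Sum.inr t)) : Var ι₀ (Ka ι₁ κ)) 1)
      (MvPowerSeries.X s : LamT 𝒪 ι₀ ι₁ κ) = if s = Sum.inr (Sum.inr (Sum.inr t)) then 1 else 0 := by
    intro s
    rw [MvPowerSeries.coeff_X]
    by_cases h : s = Sum.inr (Sum.inr (Sum.inr t))
    · rw [if_pos h, if_pos (by rw [h])]
    · rw [if_neg h, if_neg]
      intro h4
      rw [Finsupp.single_left_inj one_ne_zero] at h4
      exact h h4.symm
  have h5 : ∀ (σ : Type) (R : Type) [CommRing R] (s : σ) (c : R), MvPowerSeries.coeff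
      (Finsupp.single s 1) (MvPowerSeries.C c : MvPowerSeries σ R) = 0 := by
    intro σ R _ s c
    rw [MvPowerSeries.coeff_C, if_neg]
    intro h
    rw [Finsupp.single_eq_zero] at h
    exact one_ne_zero h
  have e1 : MvPowerSeries.coeff (Finsupp.single t 1) (redK 𝒪 ι₀ ι₁ κ f) =
      residue 𝒪 (MvPowerSeries.constantCoeff (g (Sum.inr (Sum.inr (Sum.inr t))))) := by
    rw [hg, map_add, map_add, map_sum, map_sum, algHom_C, MvPowerSeries.algebraMap_apply, h5,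
      zero_add]
    simp only [map_mul, coeff_single_mul, h1, h2, mul_zero, zero_add, mul_ite, mul_one,
      Finset.sum_ite_eq', Finset.mem_univ, if_true]
    exact constantCoeff_redK _
  have e2 : MvPowerSeries.coeff
      (Finsupp.single (Sum.inr (Sum.inr (Sum.inr t)) : Var ι₀ (Ka ι₁ κ)) 1) f =
      MvPowerSeries.constantCoeff (g (Sum.inr (Sum.inr (Sum.inr t)))) := by
    conv_lhs => rw [hg]
    rw [map_add, map_sum, h5, zero_add]
    simp only [coeff_single_mul, h3, MvPowerSeries.constantCoeff_X, mul_zero, zero_add, mul_ite,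
      mul_one, Finset.sum_ite_eq', Finset.mem_univ, if_true]
  rw [e1, e2]

/-- The linear coefficients at the `κ`-variables of elements of `locK ⊔ 𝔪 ^ 2` are in `𝔪_𝒪`. -/
theorem coeff_mem_of_mem_locK_sup {f : LamT 𝒪 ι₀ ι₁ κ}
    (hf : f ∈ locK 𝒪 ι₀ ι₁ κ ⊔ maximalIdeal (LamT 𝒪 ι₀ ι₁ κ) ^ 2) (t : κ) :
    MvPowerSeries.coeff
      (Finsupp.single (Sum.inr (Sum.inr (Sum.inr t)) : Var ι₀ (Ka ι₁ κ)) 1) f ∈
        maximalIdeal 𝒪 := by
  obtain ⟨a, ha, b, hb, rfl⟩ := Submodule.mem_sup.mp hf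
  rw [map_add]
  refine Ideal.add_mem _ ?_ ?_
  · rw [← residue_eq_zero_iff, ← coeff_redK]
    rw [locK, RingHom.mem_ker] at ha
    rw [ha, map_zero]
  · rw [pow_two] at hb
    refine Submodule.mul_induction_on hb (fun x hx y hy => ?_) (fun x y hx hy => ?_)
    · rw [coeff_single_mul]
      rw [mem_maximalIdeal_mvPowerSeries_iff] at hx hy
      exact Ideal.add_mem _ (Ideal.mul_mem_left _ _ hy) (Ideal.mul_mem_right _ _ hx)
    · rw [map_add]
      exact Ideal.add_mem _ hx hy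

/-- The variables other than the `κ`-variables are in `locK`. -/
theorem X_mem_locK (s : Var ι₀ (Ka ι₁ κ)) (hs : ∀ t, s ≠ Sum.inr (Sum.inr (Sum.inr t))) :
    (MvPowerSeries.X s : LamT 𝒪 ι₀ ι₁ κ) ∈ locK 𝒪 ι₀ ι₁ κ := by
  rw [locK, RingHom.mem_ker, redK, ev_X]
  rcases s with p | p | v | t
  · rfl
  · rfl
  · rfl
  · exact absurd rfl (hs t)

theorem C_mem_locK {x : 𝒪} (hx : x ∈ maximalIdeal 𝒪) :
    (MvPowerSeries.C x : LamT 𝒪 ι₀ ι₁ κ) ∈ locK 𝒪 ι₀ ι₁ κ := by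
  rw [locK, RingHom.mem_ker, algHom_C, MvPowerSeries.algebraMap_apply]
  have : algebraMap 𝒪 (ResidueField 𝒪) x = 0 := (residue_eq_zero_iff x).mpr hx
  rw [this, map_zero]

/-- `locK` is the ideal generated by `𝔪_𝒪` and the variables other than the `κ`-variables, i.e.
every element is a power series in the `κ`-variables modulo it; here: an element all of whose
`κ`-linear coefficients are in `𝔪_𝒪` and whose constant coefficient is in `𝔪_𝒪` is in
`locK ⊔ 𝔪 ^ 2`. -/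
theorem mem_locK_sup_of_coeff {f : LamT 𝒪 ι₀ ι₁ κ} (h0 : MvPowerSeries.constantCoeff f ∈ maximalIdeal 𝒪)
    (hf : ∀ t : κ, MvPowerSeries.coeff
      (Finsupp.single (Sum.inr (Sum.inr (Sum.inr t)) : Var ι₀ (Ka ι₁ κ)) 1) f ∈
        maximalIdeal 𝒪) :
    f ∈ locK 𝒪 ι₀ ι₁ κ ⊔ maximalIdeal (LamT 𝒪 ι₀ ι₁ κ) ^ 2 := by
  classical
  obtain ⟨g, hg⟩ := exists_eq_C_add_sum f
  have h5 : ∀ (σ : Type) (R : Type) [CommRing R] (s : σ) (c : R), MvPowerSeries.coeff
      (Finsupp.single s 1) (MvPowerSeries.C c : MvPowerSeries σ R) = 0 := by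
    intro σ R _ s c
    rw [MvPowerSeries.coeff_C, if_neg]
    intro h
    rw [Finsupp.single_eq_zero] at h
    exact one_ne_zero h
  have h3 : ∀ s s' : Var ι₀ (Ka ι₁ κ), MvPowerSeries.coeff (Finsupp.single s' 1)
      (MvPowerSeries.X s : LamT 𝒪 ι₀ ι₁ κ) = if s = s' then 1 else 0 := by
    intro s s'
    rw [MvPowerSeries.coeff_X]
    by_cases h : s = s'
    · rw [if_pos h, if_pos (by rw [h])]
    · rw [if_neg h, if_neg]
      intro h4
      rw [Finsupp.single_left_inj one_ne_zero] at h4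
      exact h h4.symm
  have e2 : ∀ s' : Var ι₀ (Ka ι₁ κ), MvPowerSeries.coeff (Finsupp.single s' 1) f =
      MvPowerSeries.constantCoeff (g s') := by
    intro s'
    conv_lhs => rw [hg]
    rw [map_add, map_sum, h5, zero_add]
    simp only [coeff_single_mul, h3, MvPowerSeries.constantCoeff_X, mul_zero, zero_add, mul_ite,
      mul_one, Finset.sum_ite_eq', Finset.mem_univ, if_true]
  rw [hg]
  refine Ideal.add_mem _ (Ideal.mem_sup_left (C_mem_locK h0)) (Ideal.sum_mem _ fun s _ => ?_)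
  by_cases hs : ∃ t, s = Sum.inr (Sum.inr (Sum.inr t))
  · obtain ⟨t, rfl⟩ := hs
    have h6 := hf t
    rw [e2] at h6
    refine Ideal.mem_sup_right ?_
    rw [pow_two]
    exact Ideal.mul_mem_mul ((mem_maximalIdeal_mvPowerSeries_iff _).mpr h6) (X_mem_maximalIdeal _)
  · push Not at hs
    exact Ideal.mem_sup_left (Ideal.mul_mem_left _ _ (X_mem_locK s hs))

end Linear2

end Fermat.Agent.LocRing
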