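import Mathlib
import Fermat.Agent.LocRing.LocT

set_option autoImplicit false
set_option linter.unusedSectionVars false

/-!
# Companion frames: a matrix with non-scalar reduction is conjugate to its companion matrix
-/

namespace Fermat.Agent.LocRing

open IsLocalRing Matrix

section Frame

variable {R : Type} [CommRing R]

/-- The matrix `[x | F x]`. -/
def cycM (F : Matrix (Fin 2) (Fin 2) R) (x : Fin 2 → R) : Matrix (Fin 2) (Fin 2) R :=
  !![x 0, F 0 0 * x 0 + F 0 1 * x 1; x 1, F 1 0 * x 0 + F 1 1 * x 1]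

lemma mul_cycM (F : Matrix (Fin 2) (Fin 2) R) (x : Fin 2 → R) :
    F * cycM F x = cycM F x * comp2 F.det F.trace := by
  ext i j
  fin_cases i <;> fin_cases j <;>
    simp [cycM, comp2, Matrix.mul_apply, Fin.sum_univ_two, Matrix.det_fin_two,
      Matrix.trace_fin_two] <;> ring

lemma det_cycM (F : Matrix (Fin 2) (Fin 2) R) (x : Fin 2 → R) :
    (cycM F x).det = F 1 0 * x 0 ^ 2 + (F 1 1 - F 0 0) * x 0 * x 1 - F 0 1 * x 1 ^ 2 := by
  rw [Matrix.det_fin_two]
  simp [cycM]
  ring

/-- The companion frame attached to a cyclic vector. -/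
theorem conj_cycM (F : Matrix (Fin 2) (Fin 2) R) (x : Fin 2 → R) (hx : IsUnit (cycM F x).det) :
    (cycM F x)⁻¹ * F * cycM F x = comp2 F.det F.trace := by
  rw [Matrix.mul_assoc, mul_cycM, ← Matrix.mul_assoc, Matrix.nonsing_inv_mul _ hx, Matrix.one_mul]

/-- Functoriality. -/
lemma map_cycM {R' : Type} [CommRing R'] (f : R →+* R') (F : Matrix (Fin 2) (Fin 2) R)
    (x : Fin 2 → R) : (cycM F x).map f = cycM (F.map f) (fun i => f (x i)) := by
  ext i j
  fin_cases i <;> fin_cases j <;> simp [cycM]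

/-- Existence of a cyclic vector with coordinates `0`, `1`: if the reduction is not scalar. -/
theorem exists_cyclic [IsLocalRing R] (F : Matrix (Fin 2) (Fin 2) R)
    (hF : ¬ ∃ a : ResidueField R, F.map (residue R) = Matrix.scalar (Fin 2) a) :
    ∃ x : Fin 2 → ℤ, IsUnit (cycM F (fun i => (x i : R))).det := by
  by_contra hne
  have key : ∀ a b : ℤ, residue R (F 1 0) * (a : ResidueField R) ^ 2 +
      (residue R (F 1 1) - residue R (F 0 0)) * (a : ResidueField R) * (b : ResidueField R) -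
      residue R (F 0 1) * (b : ResidueField R) ^ 2 = 0 := by
    intro a b
    by_contra h
    apply hne
    refine ⟨![a, b], ?_⟩
    rw [← residue_ne_zero_iff_isUnit, det_cycM]
    simpa using h
  have h0 : residue R (F 1 0) = 0 := by simpa using key 1 0
  have h1 : residue R (F 0 1) = 0 := by simpa using key 0 1
  have h3 : residue R (F 1 1) = residue R (F 0 0) := by
    have h2 := key 1 1
    rw [h0, h1] at h2
    simp at h2
    linear_combination h2
  apply hF
  refine ⟨residue R (F 0 0), ?_⟩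
  ext i j
  fin_cases i <;> fin_cases j
  · simp
  · simpa using h1
  · simpa using h0
  · simpa using h3

/-- **Companion frame.** -/
theorem exists_companion [IsLocalRing R] (F : Matrix (Fin 2) (Fin 2) R)
    (hF : ¬ ∃ a : ResidueField R, F.map (residue R) = Matrix.scalar (Fin 2) a) :
    ∃ U V : Matrix (Fin 2) (Fin 2) R, U * V = 1 ∧ V * U = 1 ∧
      U * F * V = comp2 F.det F.trace := by
  obtain ⟨x, hx⟩ := exists_cyclic F hF
  exact ⟨_, _, Matrix.nonsing_inv_mul _ hx, Matrix.mul_nonsing_inv _ hx, conj_cycM F _ hx⟩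

end Frame

section Rel

variable {R : Type} [CommRing R]

/-- The relations are invariant under conjugation. -/
theorem rel_conj {F S U V : Matrix (Fin 2) (Fin 2) R} (hUV : U * V = 1) (hVU : V * U = 1) (q : ℕ)
    (hdet : S.det = 1) (htr : S.trace = 2) (hrel : F * S = S ^ q * F) :
    (U * S * V).det = 1 ∧ (U * S * V).trace = 2 ∧
      (U * F * V) * (U * S * V) = (U * S * V) ^ q * (U * F * V) := by
  have hpow : ∀ k : ℕ, U * S ^ k * V = (U * S * V) ^ k := by
    intro k
    induction k with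
    | zero => simp [hUV]
    | succ k ih =>
      rw [pow_succ (n := k) (a := U * S * V), ← ih, pow_succ]
      calc U * (S ^ k * S) * V = U * S ^ k * 1 * S * V := by
            simp only [Matrix.mul_assoc, Matrix.one_mul]
        _ = U * S ^ k * (V * U) * S * V := by rw [hVU]
        _ = U * S ^ k * V * (U * S * V) := by simp only [Matrix.mul_assoc]
  refine ⟨?_, ?_, ?_⟩
  · rw [Matrix.det_mul, Matrix.det_mul, hdet, mul_one, ← Matrix.det_mul, hUV, Matrix.det_one]
  · rw [Matrix.mul_assoc, Matrix.trace_mul_comm, Matrix.mul_assoc, hVU, Matrix.mul_one, htr]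
  · rw [← hpow]
    calc U * F * V * (U * S * V) = U * F * (V * U) * S * V := by simp only [Matrix.mul_assoc]
      _ = U * (F * S) * V := by rw [hVU]; simp only [Matrix.mul_assoc, Matrix.one_mul]
      _ = U * (S ^ q * F) * V := by rw [hrel]
      _ = U * S ^ q * (1 : Matrix (Fin 2) (Fin 2) R) * F * V := by
        simp only [Matrix.mul_assoc, Matrix.one_mul]
      _ = U * S ^ q * (V * U) * F * V := by rw [hVU]
      _ = U * S ^ q * V * (U * F * V) := by simp only [Matrix.mul_assoc]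

/-- Conjugation preserves the congruence to `1`. -/
theorem conj_sub_one_mem {I : Ideal R} {S U V : Matrix (Fin 2) (Fin 2) R} (hUV : U * V = 1)
    (hS : ∀ i j, S i j - (1 : Matrix (Fin 2) (Fin 2) R) i j ∈ I) (i j : Fin 2) :
    (U * S * V) i j - (1 : Matrix (Fin 2) (Fin 2) R) i j ∈ I := by
  have h1 : U * S * V - 1 = U * (S - 1) * V := by
    rw [Matrix.mul_sub, Matrix.sub_mul, Matrix.mul_one, hUV]
  have h2 : (U * S * V) i j - (1 : Matrix (Fin 2) (Fin 2) R) i j = (U * S * V - 1) i j := rfl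
  rw [h2, h1, Matrix.mul_apply]
  refine Ideal.sum_mem _ fun k _ => Ideal.mul_mem_right _ _ ?_
  rw [Matrix.mul_apply]
  exact Ideal.sum_mem _ fun l _ => Ideal.mul_mem_left _ _ (hS l k)

end Rel

section Assemble

open Fermat.Agent.S53rep

variable {𝒪 : Type} [CommRing 𝒪] [IsDomain 𝒪] [IsDiscreteValuationRing 𝒪]
  [IsAdicComplete (maximalIdeal 𝒪) 𝒪]
variable {ι₀ ι₁ κ : Type} [Fintype ι₀] [Fintype ι₁] [Fintype κ]
variable {R : Type} [CommRing R] [IsLocalRing R] [IsAdicComplete (maximalIdeal R) R] [Algebra 𝒪 R]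

/-- The values of the variables of `LamT` attached to matrices in companion form. -/
def cVal (D : LocData 𝒪 ι₀ ι₁) (S F : ι₀ → Matrix (Fin 2) (Fin 2) R)
    (S₁ : ι₁ → Matrix (Fin 2) (Fin 2) R) (t : ι₁ → R) (u : κ → R) : Var ι₀ (Ka ι₁ κ) → R :=
  evMval D.ε S F (Sum.elim
    (fun p => S₁ p.1 p.2.1 p.2.2 - (1 : Matrix (Fin 2) (Fin 2) R) p.2.1 p.2.2)
    (Sum.elim (fun v => t v - algebraMap 𝒪 R (D.tb v)) u))

/-- A homomorphism `h` from `LamT` with the values `cVal` kills `IT` if the matrices satisfy the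
relations. -/
theorem IT_le_ker_of_val (D : LocData 𝒪 ι₀ ι₁) (S F : ι₀ → Matrix (Fin 2) (Fin 2) R)
    (S₁ : ι₁ → Matrix (Fin 2) (Fin 2) R) (t : ι₁ → R) (u : κ → R)
    (h : LamT 𝒪 ι₀ ι₁ κ →ₐ[𝒪] R) (hh : ∀ s, h (MvPowerSeries.X s) = cVal D S F S₁ t u s)
    (hrel : ∀ v, (S v).det = 1 ∧ (F v).det = (D.q₀ v : R) ∧ (S v).trace = 2 ∧
      F v * S v = S v ^ D.q₀ v * F v)
    (hrel₁ : ∀ v, (S₁ v).det = 1 ∧ (S₁ v).trace = 2 ∧
      comp2 (D.q₁ v : R) (t v) * S₁ v = S₁ v ^ D.q₁ v * comp2 (D.q₁ v : R) (t v)) :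
    IT κ D ≤ RingHom.ker h ∧ (∀ v, mS h v = S v) ∧ (∀ v, mF D.ε h v = F v) ∧
      (∀ v, mS₁ h v = S₁ v) ∧ (∀ v, h (trT κ D (Sum.inr v)) = t v) ∧
      ∀ v, h (trT κ D (Sum.inl v)) = (F v).trace := by
  have e1 : ∀ v, mS h v = S v := by
    intro v
    ext i j
    rw [mS_apply, hh]
    change _ + (S v i j - _) = _
    ring
  have e2 : ∀ v, mF D.ε h v = F v := by
    intro v
    ext i j
    rw [mF_apply, hh]
    change _ + (F v i j - _) = _
    ring
  have e3 : ∀ v, mS₁ h v = S₁ v := by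
    intro v
    ext i j
    rw [mS₁_apply, hh]
    change _ + (S₁ v i j - _) = _
    ring
  have e4 : ∀ v, h (trT κ D (Sum.inr v)) = t v := by
    intro v
    rw [map_trT_inr, hh]
    change _ + (t v - _) = _
    ring
  refine ⟨?_, e1, e2, e3, e4, fun v => by rw [map_trT_inl, e2]⟩
  rw [IT_le_ker_iff]
  constructor
  · intro v
    rw [e1, e2]
    exact hrel v
  · intro v
    rw [e3, e4]
    exact hrel₁ v

end Assemble

end Fermat.Agent.LocRing
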