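import Mathlib

set_option autoImplicit false
set_option linter.unusedSimpArgs false

/-!
# Taylor-Wiles primes: simultaneous diagonalisation of Frobenius and tame inertia
-/

namespace Fermat.Agent.LocRing

open IsLocalRing Matrix

section

variable {R : Type*} [CommRing R] [IsLocalRing R]

theorem exists_eigenrow (a b c d A B : R) (hsum : a + d = A + B) (hprod : a * d - b * c = A * B)
    (hne : residue R A ≠ residue R B) :
    ∃ u0 u1 : R, u0 * a + u1 * c = A * u0 ∧ u0 * b + u1 * d = A * u1 ∧
      (residue R u0 ≠ 0 ∨ residue R u1 ≠ 0) := by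
  by_cases h : residue R (a - B) ≠ 0
  · refine ⟨a - B, b, ?_, ?_, Or.inl h⟩
    · linear_combination a * hsum - hprod
    · linear_combination b * hsum
  · refine ⟨c, d - B, ?_, ?_, Or.inr ?_⟩
    · linear_combination c * hsum
    · linear_combination d * hsum - hprod
    · push Not at h
      have h3 := congrArg (residue R) hsum
      rw [map_add, map_add] at h3
      rw [map_sub] at h ⊢
      intro h4
      exact hne (by linear_combination h + h4 - h3)

/-- Diagonalisation of a matrix with distinct residual eigenvalues. -/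
theorem exists_diag [HenselianRing R (maximalIdeal R)] (F : Matrix (Fin 2) (Fin 2) R)
    (α β : ResidueField R) (hne : α ≠ β)
    (htr : residue R F.trace = α + β) (hdet : residue R F.det = α * β) :
    ∃ (A B : R) (U V : Matrix (Fin 2) (Fin 2) R), residue R A = α ∧ residue R B = β ∧
      U * V = 1 ∧ V * U = 1 ∧ U * F * V = Matrix.diagonal ![A, B] := by
  -- Hensel
  obtain ⟨a₀, ha₀⟩ := residue_surjective (R := R) α
  obtain ⟨A, hA, hAa⟩ := HenselianRing.is_henselian (I := maximalIdeal R)
    (Polynomial.X ^ 2 + (Polynomial.C (-F.trace) * Polynomial.X + Polynomial.C F.det))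
    (Polynomial.monic_X_pow_add (by compute_degree!)) a₀
    (by
      rw [← residue_eq_zero_iff]
      simp only [Polynomial.eval_add, Polynomial.eval_pow, Polynomial.eval_X, Polynomial.eval_mul,
        Polynomial.eval_neg, Polynomial.C_neg,
        Polynomial.eval_C, map_add, map_pow, map_mul, map_neg, ha₀, htr, hdet]
      ring)
    (by
      have h1 : residue R a₀ * 2 - residue R F.trace ≠ 0 := by
        rw [ha₀, htr]
        intro h
        apply hne
        linear_combination h
      change IsUnit (residue R _)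
      refine IsUnit.mk0 _ ?_
      intro h
      apply h1
      have h2 : (residue R) (2 : R) = 2 := map_ofNat _ 2
      simp only [Polynomial.derivative_add, Polynomial.derivative_X_pow, Polynomial.derivative_mul,
        Polynomial.derivative_C, Polynomial.derivative_X, Polynomial.eval_add, Polynomial.eval_mul,
        Polynomial.derivative_neg, Polynomial.eval_neg, Polynomial.C_neg, neg_zero,
        Polynomial.eval_zero,
        Polynomial.eval_C, Polynomial.eval_pow, Polynomial.eval_X, map_add, map_mul, map_neg,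
        map_pow, zero_mul, zero_add, mul_one, Nat.cast_ofNat, add_zero,
        Nat.add_one_sub_one, pow_one, Polynomial.eval_one, map_one, mul_one] at h
      rw [h2] at h
      linear_combination h)
  have hA2 : A ^ 2 - F.trace * A + F.det = 0 := by
    have := hA.eq_zero
    simp only [Polynomial.eval_add, Polynomial.eval_pow, Polynomial.eval_X, Polynomial.eval_mul,
        Polynomial.eval_C] at this
    linear_combination this
  have hAα : residue R A = α := by
    rw [← ha₀, ← sub_eq_zero, ← map_sub]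
    exact (residue_eq_zero_iff _).mpr hAa
  set B := F.trace - A with hB
  have hBβ : residue R B = β := by
    rw [hB, map_sub, htr, hAα]; ring
  have hsum : F 0 0 + F 1 1 = A + B := by rw [hB, Matrix.trace_fin_two]; ring
  have hprod : F 0 0 * F 1 1 - F 0 1 * F 1 0 = A * B := by
    rw [← Matrix.det_fin_two, hB]; linear_combination hA2
  have hneAB : residue R A ≠ residue R B := by rw [hAα, hBβ]; exact hne
  obtain ⟨u0, u1, eu0, eu1, hi⟩ := exists_eigenrow _ _ _ _ A B hsum hprod hneAB
  obtain ⟨w0, w1, ew0, ew1, hj⟩ := exists_eigenrow _ _ _ _ B A (hsum.trans (add_comm _ _))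
    (hprod.trans (mul_comm _ _)) hneAB.symm
  let U : Matrix (Fin 2) (Fin 2) R := !![u0, u1; w0, w1]
  have hUdet : IsUnit U.det := by
    rw [← residue_ne_zero_iff_isUnit, Matrix.det_fin_two]
    simp only [U, Matrix.of_apply, Matrix.cons_val', Matrix.cons_val_zero, Matrix.cons_val_one,
      Matrix.cons_val_fin_one, map_sub, map_mul]
    intro hdet0
    -- over the residue field
    have f0 := congrArg (residue R) eu0
    have f1 := congrArg (residue R) eu1
    have g0 := congrArg (residue R) ew0
    have g1 := congrArg (residue R) ew1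
    simp only [map_add, map_mul, hAα, hBβ] at f0 f1 g0 g1
    generalize residue R u0 = a0 at *
    generalize residue R u1 = a1 at *
    generalize residue R w0 = b0 at *
    generalize residue R w1 = b1 at *
    generalize residue R (F 0 0) = p at *
    generalize residue R (F 0 1) = q at *
    generalize residue R (F 1 0) = r at *
    generalize residue R (F 1 1) = s at *
    -- `a0 b1 = a1 b0`
    have key0 : (α - β) * (a0 * b0) = 0 := by
      linear_combination (-b0) * f0 + a0 * g0 - r * hdet0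
    have key1 : (α - β) * (a1 * b1) = 0 := by
      linear_combination (-b1) * f1 + a1 * g1 + q * hdet0
    have key2 : (α - β) * (a0 * b1) = 0 := by
      linear_combination (-b1) * f0 + a1 * g0 + (p - β) * hdet0
    have hab : α - β ≠ 0 := sub_ne_zero.mpr hne
    have k0 := (mul_eq_zero.mp key0).resolve_left hab
    have k1 := (mul_eq_zero.mp key1).resolve_left hab
    have k2 := (mul_eq_zero.mp key2).resolve_left hab
    have k3 : a1 * b0 = 0 := by linear_combination k2 - hdet0
    rcases hi with hi | hi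
    · have hb0 : b0 = 0 := (mul_eq_zero.mp k0).resolve_left hi
      have hb1 : b1 = 0 := (mul_eq_zero.mp k2).resolve_left hi
      rcases hj with hj | hj
      · exact hj hb0
      · exact hj hb1
    · have hb1 : b1 = 0 := (mul_eq_zero.mp k1).resolve_left hi
      have hb0 : b0 = 0 := (mul_eq_zero.mp k3).resolve_left hi
      rcases hj with hj | hj
      · exact hj hb0
      · exact hj hb1
  refine ⟨A, B, U, U⁻¹, hAα, hBβ, Matrix.mul_nonsing_inv _ hUdet, Matrix.nonsing_inv_mul _ hUdet, ?_⟩
  have h1 : U * F = Matrix.diagonal ![A, B] * U := by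
    ext a b
    fin_cases a <;> fin_cases b <;>
      simp [U, Matrix.mul_apply, Fin.sum_univ_two]
    · exact eu0
    · exact eu1
    · exact ew0
    · exact ew1
  rw [h1, Matrix.mul_assoc, Matrix.mul_nonsing_inv _ hUdet, Matrix.mul_one]

/-- Powers of a matrix which is `1` modulo the maximal ideal. -/
theorem pow_approx (N : Matrix (Fin 2) (Fin 2) R) (h00 : N 0 0 - 1 ∈ maximalIdeal R)
    (h11 : N 1 1 - 1 ∈ maximalIdeal R) (h01 : N 0 1 ∈ maximalIdeal R)
    (h10 : N 1 0 ∈ maximalIdeal R) (k : ℕ) :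
    (N ^ k) 0 0 - 1 ∈ maximalIdeal R ∧ (N ^ k) 1 1 - 1 ∈ maximalIdeal R ∧
      (N ^ k) 0 1 - k * N 0 1 ∈ maximalIdeal R * Ideal.span {N 0 1, N 1 0} ∧
      (N ^ k) 1 0 - k * N 1 0 ∈ maximalIdeal R * Ideal.span {N 0 1, N 1 0} := by
  set 𝔟 := Ideal.span {N 0 1, N 1 0} with h𝔟
  have hb : N 0 1 ∈ 𝔟 := Ideal.subset_span (by simp)
  have hc : N 1 0 ∈ 𝔟 := Ideal.subset_span (by simp)
  have hle : maximalIdeal R * 𝔟 ≤ maximalIdeal R := Ideal.mul_le_left
  induction k with
  | zero => simp
  | succ k ih =>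
    obtain ⟨i00, i11, i01, i10⟩ := ih
    have e01 : (N ^ k) 0 1 ∈ maximalIdeal R := by
      have h := add_mem (hle i01) (Ideal.mul_mem_left _ (k : R) h01)
      simpa using h
    have e10 : (N ^ k) 1 0 ∈ maximalIdeal R := by
      have h := add_mem (hle i10) (Ideal.mul_mem_left _ (k : R) h10)
      simpa using h
    refine ⟨?_, ?_, ?_, ?_⟩
    · rw [pow_succ, Matrix.mul_apply, Fin.sum_univ_two]
      have h := add_mem (add_mem (Ideal.mul_mem_right (N 0 0) _ i00) h00)
        (Ideal.mul_mem_right (N 1 0) _ e01)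
      convert h using 1
      ring
    · rw [pow_succ, Matrix.mul_apply, Fin.sum_univ_two]
      have h := add_mem (add_mem (Ideal.mul_mem_right (N 1 1) _ i11) h11)
        (Ideal.mul_mem_right (N 0 1) _ e10)
      convert h using 1
      ring
    · rw [pow_succ, Matrix.mul_apply, Fin.sum_univ_two]
      have h := add_mem (add_mem (Ideal.mul_mem_mul i00 hb)
        (Ideal.mul_mem_right (N 1 1) _ i01))
        (Ideal.mul_mem_left _ (k : R) (Ideal.mul_mem_mul h11 hb))
      convert h using 1
      push_cast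
      ring
    · rw [pow_succ, Matrix.mul_apply, Fin.sum_univ_two]
      have h := add_mem (add_mem (Ideal.mul_mem_mul i11 hc)
        (Ideal.mul_mem_right (N 0 0) _ i10))
        (Ideal.mul_mem_left _ (k : R) (Ideal.mul_mem_mul h00 hc))
      convert h using 1
      push_cast
      ring

/-- If `Φ = diag(A, B)` with `A ≢ B`, `N ≡ 1`, `Φ N = N ^ q Φ`, `q ≡ 1`, then `N` is diagonal. -/
theorem offdiag_eq_zero [IsNoetherianRing R] (N : Matrix (Fin 2) (Fin 2) R) (A B : R) (q : ℕ)
    (hq : (q : R) - 1 ∈ maximalIdeal R) (hAB : residue R A ≠ residue R B)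
    (h00 : N 0 0 - 1 ∈ maximalIdeal R)
    (h11 : N 1 1 - 1 ∈ maximalIdeal R) (h01 : N 0 1 ∈ maximalIdeal R)
    (h10 : N 1 0 ∈ maximalIdeal R)
    (hrel : Matrix.diagonal ![A, B] * N = N ^ q * Matrix.diagonal ![A, B]) :
    N 0 1 = 0 ∧ N 1 0 = 0 := by
  set 𝔟 := Ideal.span {N 0 1, N 1 0} with h𝔟
  obtain ⟨-, -, i01, i10⟩ := pow_approx N h00 h11 h01 h10 q
  have e01 : A * N 0 1 = (N ^ q) 0 1 * B := by
    have := congrFun (congrFun hrel 0) 1
    simpa [Matrix.diagonal_mul, Matrix.mul_diagonal] using this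
  have e10 : B * N 1 0 = (N ^ q) 1 0 * A := by
    have := congrFun (congrFun hrel 1) 0
    simpa [Matrix.diagonal_mul, Matrix.mul_diagonal] using this
  have hq' : residue R (q : R) = 1 := by
    rw [← sub_eq_zero, ← map_one (residue R), ← map_sub]
    exact (residue_eq_zero_iff _).mpr hq
  have hunit : ∀ x : R, ∀ y : R, residue R x ≠ residue R y → IsUnit (x - q * y) := by
    intro x y hxy
    rw [← residue_ne_zero_iff_isUnit, map_sub, map_mul, hq', one_mul]
    exact sub_ne_zero.mpr hxy
  have hb : N 0 1 ∈ maximalIdeal R * 𝔟 := by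
    have h1 : (A - q * B) * N 0 1 ∈ maximalIdeal R * 𝔟 := by
      have h2 := Ideal.mul_mem_left _ B i01
      convert h2 using 1
      linear_combination e01
    exact (Ideal.unit_mul_mem_iff_mem _ (hunit A B hAB)).mp h1
  have hc : N 1 0 ∈ maximalIdeal R * 𝔟 := by
    have h1 : (B - q * A) * N 1 0 ∈ maximalIdeal R * 𝔟 := by
      have h2 := Ideal.mul_mem_left _ A i10
      convert h2 using 1
      linear_combination e10
    exact (Ideal.unit_mul_mem_iff_mem _ (hunit B A hAB.symm)).mp h1
  have h𝔟le : 𝔟 ≤ maximalIdeal R * 𝔟 := by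
    rw [h𝔟, Ideal.span_le]
    rintro x (rfl | rfl)
    · exact hb
    · exact hc
  have h𝔟0 : 𝔟 = ⊥ := by
    refine Submodule.eq_bot_of_le_smul_of_le_jacobson_bot (maximalIdeal R) 𝔟
      (IsNoetherian.noetherian _) ?_ (maximalIdeal_le_jacobson _)
    simpa [smul_eq_mul] using h𝔟le
  have hb' : N 0 1 ∈ 𝔟 := Ideal.subset_span (by simp)
  have hc' : N 1 0 ∈ 𝔟 := Ideal.subset_span (by simp)
  rw [h𝔟0, Ideal.mem_bot] at hb' hc'
  exact ⟨hb', hc'⟩

theorem pow_eq_one_of_residue (ζ : R) (s : ℕ) (hs : IsUnit (s : R)) (hζ : residue R ζ = 1)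
    (h : ζ ^ s = 1) : ζ = 1 := by
  have h1 : (∑ i ∈ Finset.range s, ζ ^ i) * (ζ - 1) = 0 := by
    rw [geom_sum_mul, h, sub_self]
  have h2 : IsUnit (∑ i ∈ Finset.range s, ζ ^ i) := by
    rw [← residue_ne_zero_iff_isUnit, map_sum]
    simp only [map_pow, hζ, one_pow, Finset.sum_const, Finset.card_range, nsmul_eq_mul, mul_one]
    rw [← map_natCast (residue R)]
    exact residue_ne_zero_iff_isUnit _ |>.mpr hs
  exact sub_eq_zero.mp (h2.mul_right_eq_zero.mp h1)

/-- **Taylor-Wiles primes**: simultaneous diagonalisation. -/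
theorem exists_diag_tame [IsNoetherianRing R] [HenselianRing R (maximalIdeal R)]
    (F S : Matrix (Fin 2) (Fin 2) R) (q : ℕ) (hq : (q : R) - 1 ∈ maximalIdeal R)
    (α β : ResidueField R) (hne : α ≠ β) (hα : α ≠ 0)
    (htr : residue R F.trace = α + β) (hdet : residue R F.det = α * β)
    (hS : ∀ i j, S i j - (1 : Matrix (Fin 2) (Fin 2) R) i j ∈ maximalIdeal R)
    (hSdet : S.det = 1) (hrel : F * S = S ^ q * F) :
    ∃ (A B ξ : R) (U V : Matrix (Fin 2) (Fin 2) R), residue R A = α ∧ residue R B = β ∧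
      residue R ξ = 1 ∧ ξ ^ (q - 1) = 1 ∧ U * V = 1 ∧ V * U = 1 ∧
      U * F * V = Matrix.diagonal ![A, B] ∧
      ∀ ξ' : R, ξ * ξ' = 1 → U * S * V = Matrix.diagonal ![ξ, ξ'] := by
  obtain ⟨A, B, U, V, hA, hB, hUV, hVU, hD⟩ := exists_diag F α β hne htr hdet
  set N := U * S * V with hN
  have hNpow : ∀ k : ℕ, U * S ^ k * V = N ^ k := by
    intro k
    induction k with
    | zero => simp [hUV]
    | succ k ih =>
      rw [pow_succ (n := k) (a := N), ← ih, hN, pow_succ]
      calc U * (S ^ k * S) * V = U * S ^ k * 1 * S * V := by simp only [Matrix.mul_assoc, Matrix.one_mul, Matrix.mul_one]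
        _ = U * S ^ k * (V * U) * S * V := by rw [hVU]
        _ = U * S ^ k * V * (U * S * V) := by simp only [Matrix.mul_assoc]
  have hrel' : Matrix.diagonal ![A, B] * N = N ^ q * Matrix.diagonal ![A, B] := by
    rw [← hD, ← hNpow, hN]
    calc U * F * V * (U * S * V) = U * F * (V * U) * S * V := by simp only [Matrix.mul_assoc]
      _ = U * (F * S) * V := by rw [hVU]; simp only [Matrix.mul_assoc, Matrix.one_mul, Matrix.mul_one]
      _ = U * (S ^ q * F) * V := by rw [hrel]
      _ = U * S ^ q * (1 : Matrix (Fin 2) (Fin 2) R) * F * V := by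
        simp only [Matrix.mul_assoc, Matrix.one_mul, Matrix.mul_one]
      _ = U * S ^ q * (V * U) * F * V := by rw [hVU]
      _ = U * S ^ q * V * (U * F * V) := by simp only [Matrix.mul_assoc]
  have hN1 : ∀ i j, N i j - (1 : Matrix (Fin 2) (Fin 2) R) i j ∈ maximalIdeal R := by
    intro i j
    have h1 : N - 1 = U * (S - 1) * V := by
      rw [Matrix.mul_sub, Matrix.sub_mul, Matrix.mul_one, hUV]
    have h2 : N i j - (1 : Matrix (Fin 2) (Fin 2) R) i j = (N - 1) i j := rfl
    rw [h2, h1, Matrix.mul_apply]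
    refine Ideal.sum_mem _ fun k _ => Ideal.mul_mem_right _ _ ?_
    rw [Matrix.mul_apply]
    exact Ideal.sum_mem _ fun l _ => Ideal.mul_mem_left _ _ (hS l k)
  have h00 : N 0 0 - 1 ∈ maximalIdeal R := by simpa using hN1 0 0
  have h11 : N 1 1 - 1 ∈ maximalIdeal R := by simpa using hN1 1 1
  have h01 : N 0 1 ∈ maximalIdeal R := by simpa using hN1 0 1
  have h10 : N 1 0 ∈ maximalIdeal R := by simpa using hN1 1 0
  obtain ⟨hb, hc⟩ := offdiag_eq_zero N A B q hq (by rw [hA, hB]; exact hne) h00 h11 h01 h10 hrel'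
  have hNdiag : N = Matrix.diagonal ![N 0 0, N 1 1] := by
    ext i j
    fin_cases i <;> fin_cases j <;> simp [hb, hc]
  have hNdet : N 0 0 * N 1 1 = 1 := by
    have h1 : N.det = 1 := by
      rw [hN, Matrix.det_mul, Matrix.det_mul, hSdet, mul_one, ← Matrix.det_mul, hUV, Matrix.det_one]
    rw [Matrix.det_fin_two, hb, zero_mul, sub_zero] at h1
    exact h1
  have hres : residue R (N 0 0) = 1 := by
    rw [← sub_eq_zero, ← map_one (residue R), ← map_sub]
    exact (residue_eq_zero_iff _).mpr h00
  have hAu : IsUnit A := by rw [← residue_ne_zero_iff_isUnit, hA]; exact hα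
  have hu : IsUnit (N 0 0) := IsUnit.of_mul_eq_one _ hNdet
  have hpow : (N 0 0) ^ (q - 1) = 1 := by
    have e := congrFun (congrFun hrel' 0) 0
    rw [hNdiag, Matrix.diagonal_pow, Matrix.diagonal_mul_diagonal,
      Matrix.diagonal_mul_diagonal] at e
    simp only [Matrix.diagonal_apply_eq, Pi.pow_apply, Matrix.cons_val_zero] at e
    have hq0 : q ≠ 0 := by
      rintro rfl
      rw [Nat.cast_zero, zero_sub, Ideal.neg_mem_iff] at hq
      exact (Ideal.ne_top_iff_one _).mp (maximalIdeal.isMaximal R).ne_top hq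
    obtain ⟨k, rfl⟩ := Nat.exists_eq_succ_of_ne_zero hq0
    rw [mul_comm A] at e
    have e2 := hAu.mul_right_cancel e
    rw [pow_succ] at e2
    have e3 : N 0 0 ^ k * N 0 0 = 1 * N 0 0 := by rw [one_mul]; exact e2.symm
    exact hu.mul_right_cancel e3
  refine ⟨A, B, N 0 0, U, V, hA, hB, hres, hpow, hUV, hVU, hD, ?_⟩
  intro ξ' hξ'
  have : ξ' = N 1 1 := by
    apply hu.mul_left_cancel
    rw [hξ', hNdet]
  rw [this]
  exact hNdiag

/-- The `p`-part: if `q - 1 = p ^ n * s` with `s` a unit then `ξ ^ (p ^ n) = 1`. -/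
theorem pow_prime_pow_eq_one (ξ : R) (hξ : residue R ξ = 1) (q P s : ℕ) (hs : IsUnit (s : R))
    (hqs : q - 1 = P * s) (h : ξ ^ (q - 1) = 1) : ξ ^ P = 1 := by
  refine pow_eq_one_of_residue _ s hs ?_ ?_
  · rw [map_pow, hξ, one_pow]
  · rw [← pow_mul, ← hqs, h]

end

end Fermat.Agent.LocRing
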